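import Mathlib
import Fermat.Agent.S14.Iface

set_option autoImplicit false

open NumberField IsDedekindDomain Polynomial

namespace Fermat.Agent.S14

/-- In a field of characteristic `r`, the solutions of `x ^ r = x` are the images of the elements
of `ZMod r`. -/
theorem AUX_exists_zmod_of_pow_eq {F : Type*} [Field F] {r : ℕ} [Fact r.Prime] [CharP F r]
    {x : F} (hx : x ^ r = x) : ∃ y : ZMod r, ZMod.castHom (dvd_refl r) F y = x := by
  have h1 : x ∈ (⊥ : Subfield F) := (Subfield.mem_bot_iff_pow_eq_self F r).mpr hx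
  obtain ⟨n, hn⟩ := (mem_bot_iff_intCast r F).mp h1
  exact ⟨(n : ZMod r), by rw [map_intCast, hn]⟩

/-- The arithmetic part of D-AUX: a Frobenius element at a prime over `r` which fixes `ζ` and
`γ` and moves `α` forces `r ≡ 1 mod p`, `c = γ ^ p` a `p`-th power and `qa = α ^ p` not a `p`-th
power modulo `r`. -/
theorem AUX_frob_core {N : Type*} [Field N] [NumberField N] [IsGalois ℚ N]
    {p qa c r : ℕ} (hp : p.Prime) (hr : r.Prime) (hrp : r ≠ p) (hrq : r ≠ qa) (hqa : qa.Prime)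
    {ζ α γ : N} (hζ : IsPrimitiveRoot ζ p) (hα : α ^ p = (qa : N)) (hγ : γ ^ p = (c : N))
    (𝔓 : Ideal (𝓞 N)) (h𝔓 : 𝔓.IsPrime) (hr𝔓 : (r : 𝓞 N) ∈ 𝔓)
    (φ : Gal(N/ℚ)) (hφ : IsArithFrobAt ℤ φ 𝔓) (hφζ : φ ζ = ζ) (hφγ : φ γ = γ)
    (hφα : φ α ≠ α) :
    r % p = 1 ∧ (¬ ∃ y : ZMod r, y ^ p = (qa : ZMod r)) ∧
      (∃ y : ZMod r, y ^ p = (c : ZMod r)) := by
  classical
  have := h𝔓
  have hrfact : Fact r.Prime := ⟨hr⟩
  have hpfact : Fact p.Prime := ⟨hp⟩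
  have hpne : NeZero p := ⟨hp.ne_zero⟩
  -- the residue field
  have hr0 : (r : 𝓞 N) ≠ 0 := by exact_mod_cast hr.ne_zero
  have h𝔓ne : 𝔓 ≠ ⊥ := fun h => hr0 (by simpa [h] using hr𝔓)
  have h𝔓max : 𝔓.IsMaximal := Ring.DimensionLEOne.maximalOfPrime h𝔓ne h𝔓
  let _ : Field (𝓞 N ⧸ 𝔓) := Ideal.Quotient.field 𝔓
  have hrF : ((r : ℕ) : 𝓞 N ⧸ 𝔓) = 0 := by
    have : Ideal.Quotient.mk 𝔓 (r : 𝓞 N) = 0 := Ideal.Quotient.eq_zero_iff_mem.mpr hr𝔓
    simpa using this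
  have hchar : CharP (𝓞 N ⧸ 𝔓) r := (CharP.charP_iff_prime_eq_zero hr).mpr hrF
  -- coprimality: a natural number prime to `r` is nonzero in the residue field
  have hcop : ∀ m : ℕ, ¬ r ∣ m → ((m : ℕ) : 𝓞 N ⧸ 𝔓) ≠ 0 := by
    intro m hm h0
    exact hm ((CharP.cast_eq_zero_iff (𝓞 N ⧸ 𝔓) r m).mp h0)
  have hpF : ((p : ℕ) : 𝓞 N ⧸ 𝔓) ≠ 0 :=
    hcop p (fun h => hrp ((Nat.prime_dvd_prime_iff_eq hr hp).mp h))
  have hqaF : ((qa : ℕ) : 𝓞 N ⧸ 𝔓) ≠ 0 :=
    hcop qa (fun h => hrq ((Nat.prime_dvd_prime_iff_eq hr hqa).mp h))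
  -- the Frobenius congruence
  have hrint : Prime (r : ℤ) := Nat.prime_iff_prime_int.mp hr
  have h16 : 𝔓.LiesOver (Ideal.span {(r : ℤ)}) :=
    (Ideal.liesOver_span_iff h𝔓.ne_top hrint).mpr (by simpa using hr𝔓)
  have hcardZ : Nat.card (ℤ ⧸ 𝔓.under ℤ) = r := by
    rw [← h16.over, ← Submodule.cardQuot_apply, ← Ideal.absNorm_apply,
      Ideal.absNorm_span_singleton]
    simp
  have hfrob : ∀ x : 𝓞 N, Ideal.Quotient.mk 𝔓 (φ • x) = (Ideal.Quotient.mk 𝔓 x) ^ r := by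
    intro x
    have := hφ x
    rw [← Ideal.Quotient.eq, hcardZ] at this
    simpa using this
  -- the integral elements
  have hζi : IsIntegral ℤ ζ := hζ.isIntegral hp.pos
  have hαi : IsIntegral ℤ α := by
    refine IsIntegral.of_pow hp.pos ?_
    rw [hα]
    exact isIntegral_natCast (R := ℤ) (B := N) qa
  have hγi : IsIntegral ℤ γ := by
    refine IsIntegral.of_pow hp.pos ?_
    rw [hγ]
    exact isIntegral_natCast (R := ℤ) (B := N) c
  have hinj : Function.Injective (algebraMap (𝓞 N) N) := RingOfIntegers.coe_injective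
  obtain ⟨z, hz⟩ : ∃ z : 𝓞 N, algebraMap (𝓞 N) N z = ζ := ⟨⟨ζ, hζi⟩, rfl⟩
  obtain ⟨a, ha⟩ : ∃ a : 𝓞 N, algebraMap (𝓞 N) N a = α := ⟨⟨α, hαi⟩, rfl⟩
  obtain ⟨g, hg⟩ : ∃ g : 𝓞 N, algebraMap (𝓞 N) N g = γ := ⟨⟨γ, hγi⟩, rfl⟩
  have hsmul : ∀ x : 𝓞 N, algebraMap (𝓞 N) N (φ • x) = φ (algebraMap (𝓞 N) N x) := fun x => rfl
  have hzp : z ^ p = 1 := by
    apply hinj
    rw [map_pow, hz, hζ.pow_eq_one, map_one]
  have hap : a ^ p = (qa : 𝓞 N) := by
    apply hinj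
    rw [map_pow, ha, hα, map_natCast]
  have hgp : g ^ p = (c : 𝓞 N) := by
    apply hinj
    rw [map_pow, hg, hγ, map_natCast]
  have hφz : φ • z = z := by
    apply hinj
    rw [hsmul, hz, hφζ]
  have hφg : φ • g = g := by
    apply hinj
    rw [hsmul, hg, hφγ]
  -- reductions
  set zb : 𝓞 N ⧸ 𝔓 := Ideal.Quotient.mk 𝔓 z with hzb
  set ab : 𝓞 N ⧸ 𝔓 := Ideal.Quotient.mk 𝔓 a with hab
  set gb : 𝓞 N ⧸ 𝔓 := Ideal.Quotient.mk 𝔓 g with hgb
  have hzbp : zb ^ p = 1 := by rw [hzb, ← map_pow, hzp, map_one]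
  have habp : ab ^ p = ((qa : ℕ) : 𝓞 N ⧸ 𝔓) := by rw [hab, ← map_pow, hap, map_natCast]
  have hgbp : gb ^ p = ((c : ℕ) : 𝓞 N ⧸ 𝔓) := by rw [hgb, ← map_pow, hgp, map_natCast]
  -- `zb ≠ 1`
  have hzb1 : zb ≠ 1 := by
    intro h1
    have hsum : ∑ i ∈ Finset.range p, ζ ^ i = 0 := hζ.geom_sum_eq_zero hp.one_lt
    have hsum' : ∑ i ∈ Finset.range p, z ^ i = 0 := by
      apply hinj
      rw [map_sum, map_zero]
      simpa only [map_pow, hz] using hsum
    have := congrArg (Ideal.Quotient.mk 𝔓) hsum'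
    rw [map_sum] at this
    simp only [map_pow, ← hzb, h1, one_pow, Finset.sum_const, Finset.card_range, map_zero,
      nsmul_eq_mul, mul_one] at this
    exact hpF this
  have hord : orderOf zb = p := orderOf_eq_prime hzbp hzb1
  have hzb0 : zb ≠ 0 := by
    intro h0
    rw [h0, zero_pow hp.ne_zero] at hzbp
    exact zero_ne_one hzbp
  have hzbr : zb ^ r = zb := by rw [hzb, ← hfrob z, hφz]
  have hgbr : gb ^ r = gb := by rw [hgb, ← hfrob g, hφg]
  -- `p ∣ r - 1`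
  have hdvd : p ∣ r - 1 := by
    rw [← hord]
    apply orderOf_dvd_of_pow_eq_one
    have h1 : zb ^ (r - 1) * zb = 1 * zb := by
      rw [← pow_succ, Nat.sub_add_cancel hr.one_le, hzbr, one_mul]
    exact mul_right_cancel₀ hzb0 h1
  have hmod : r % p = 1 := by
    obtain ⟨t, ht⟩ := hdvd
    have hr1 : r = p * t + 1 := by have := hr.one_le; omega
    rw [hr1, Nat.mul_add_mod]
    exact Nat.mod_eq_of_lt hp.one_lt
  refine ⟨hmod, ?_, ?_⟩
  · -- `qa` is not a `p`-th power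
    rintro ⟨y, hy⟩
    have hy0 : y ≠ 0 := by
      rintro rfl
      rw [zero_pow hp.ne_zero] at hy
      have : r ∣ qa := (ZMod.natCast_eq_zero_iff qa r).mp hy.symm
      exact hrq ((Nat.prime_dvd_prime_iff_eq hr hqa).mp this)
    set ι := ZMod.castHom (dvd_refl r) (𝓞 N ⧸ 𝔓) with hι
    have h1 : ab ^ p = (ι y) ^ p := by
      rw [habp, ← map_pow, hy, map_natCast]
    obtain ⟨t, ht⟩ := hdvd
    have h2 : ab ^ (r - 1) = 1 := by
      rw [ht, pow_mul, h1, ← pow_mul, ← ht, ← map_pow, ZMod.pow_card_sub_one_eq_one hy0, map_one]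
    have h3 : ab ^ r = ab := by
      have : ab ^ (r - 1 + 1) = ab := by rw [pow_succ, h2, one_mul]
      rwa [Nat.sub_add_cancel hr.one_le] at this
    have h4 : Ideal.Quotient.mk 𝔓 (φ • a) = Ideal.Quotient.mk 𝔓 a := by
      rw [hfrob a, ← hab, h3]
    -- `φ a = ζ ^ m * a`
    have hα0 : α ≠ 0 := by
      rintro rfl
      rw [zero_pow hp.ne_zero] at hα
      exact hqa.ne_zero (by exact_mod_cast hα.symm)
    have hpow : (φ α / α) ^ p = 1 := by
      rw [div_pow, ← map_pow, hα, map_natCast, div_self]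
      exact_mod_cast hqa.ne_zero
    obtain ⟨m, hm, hmeq⟩ := hζ.eq_pow_of_pow_eq_one hpow
    have hφa : φ • a = z ^ m * a := by
      apply hinj
      have : φ α = ζ ^ m * α := by
        rw [hmeq]; field_simp
      rw [hsmul, map_mul, map_pow, ha, hz, this]
    have hzm : z ^ m ≠ 1 := by
      intro h1
      apply hφα
      have h2 : φ • a = a := by rw [hφa, h1, one_mul]
      have h3 := congrArg (algebraMap (𝓞 N) N) h2
      rw [hsmul, ha] at h3
      exact h3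
    rw [hφa, map_mul, map_pow, ← hzb, ← hab] at h4
    have hab0 : ab ≠ 0 := by
      intro h0
      rw [h0, zero_pow hp.ne_zero] at habp
      exact hqaF habp.symm
    have h5 : zb ^ m = 1 := by
      have : zb ^ m * ab = 1 * ab := by rw [h4, one_mul]
      exact mul_right_cancel₀ hab0 this
    have h6 : p ∣ m := by
      rw [← hord]
      exact orderOf_dvd_of_pow_eq_one h5
    obtain ⟨s, rfl⟩ := h6
    apply hzm
    rw [pow_mul, hzp, one_pow]
  · -- `c` is a `p`-th power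
    obtain ⟨y, hy⟩ := AUX_exists_zmod_of_pow_eq (r := r) hgbr
    refine ⟨y, ?_⟩
    apply (ZMod.castHom (dvd_refl r) (𝓞 N ⧸ 𝔓)).injective
    rw [map_pow, hy, hgbp, map_natCast]

end Fermat.Agent.S14
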