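import Mathlib
import Fermat.Agent.S14.Iface

/-!
# D-AUX, algebraic part: a Galois automorphism fixing `ζ` and `γ` and moving `α`

Let `N / ℚ` be a finite Galois extension containing a primitive `p`-th root of unity `ζ` and
elements `α`, `γ` with `α ^ p = qa`, `γ ^ p = qb * qa ^ e` (`qa ≠ qb` primes).  Then some
`τ ∈ Gal(N/ℚ)` fixes `ζ` and `γ` but not `α` (Kummer theory over `ℚ(ζ)`, followed by a norm
argument down to `ℚ`).
-/

set_option autoImplicit false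

open NumberField IsDedekindDomain Polynomial IntermediateField

namespace Fermat.Agent.S14

/-- Arithmetic core: `qa ^ d = n ^ p * ((qb * qa ^ e) ^ d) ^ j` is impossible in `ℚ` for
`0 < d < p`. -/
theorem AUX_rat_core {p qa qb e d j : ℕ} (hp : p.Prime) (hqa : qa.Prime) (hqb : qb.Prime)
    (hab : qa ≠ qb) (hd0 : 0 < d) (hdp : d < p) (n : ℚ)
    (h : (qa : ℚ) ^ d = n ^ p * (((qb : ℚ) * (qa : ℚ) ^ e) ^ d) ^ j) : False := by
  have hqaf : Fact qa.Prime := ⟨hqa⟩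
  have hqbf : Fact qb.Prime := ⟨hqb⟩
  have hqa0 : (qa : ℚ) ≠ 0 := by exact_mod_cast hqa.ne_zero
  have hqb0 : (qb : ℚ) ≠ 0 := by exact_mod_cast hqb.ne_zero
  have hn0 : n ≠ 0 := by
    rintro rfl
    rw [zero_pow hp.ne_zero, zero_mul] at h
    exact pow_ne_zero d hqa0 h
  have hc0 : (qb : ℚ) * (qa : ℚ) ^ e ≠ 0 := mul_ne_zero hqb0 (pow_ne_zero e hqa0)
  have hv : ∀ q : ℕ, q.Prime → (d : ℤ) * padicValRat q qa =
      p * padicValRat q n + j * (d * (padicValRat q qb + e * padicValRat q qa)) := by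
    intro q hq
    have hqf : Fact q.Prime := ⟨hq⟩
    have := congrArg (padicValRat q) h
    rw [padicValRat.pow, padicValRat.mul (pow_ne_zero p hn0) (pow_ne_zero j (pow_ne_zero d hc0)),
      padicValRat.pow, padicValRat.pow, padicValRat.pow, padicValRat.mul hqb0
        (pow_ne_zero e hqa0), padicValRat.pow] at this
    exact this
  have hbb : padicValRat qb (qb : ℚ) = 1 := padicValRat.self hqb.one_lt
  have haa : padicValRat qa (qa : ℚ) = 1 := padicValRat.self hqa.one_lt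
  have hba : padicValRat qb (qa : ℚ) = 0 := by
    rw [padicValRat.of_nat, padicValNat_primes (Ne.symm hab)]
    rfl
  have hab' : padicValRat qa (qb : ℚ) = 0 := by
    rw [padicValRat.of_nat, padicValNat_primes hab]
    rfl
  have h1 := hv qb hqb
  have h2 := hv qa hqa
  rw [hbb, hba] at h1
  rw [haa, hab'] at h2
  -- `p ∣ j * d`, hence `p ∣ j`
  have hpjd : (p : ℤ) ∣ (j : ℤ) * d := by
    refine ⟨-padicValRat qb n, ?_⟩
    linear_combination -h1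
  have hpint : Prime (p : ℤ) := Nat.prime_iff_prime_int.mp hp
  have hpd : ¬ (p : ℤ) ∣ (d : ℤ) := by
    intro hdvd
    have := Nat.le_of_dvd hd0 (Int.natCast_dvd_natCast.mp hdvd)
    omega
  have hpj : (p : ℤ) ∣ (j : ℤ) := (hpint.dvd_or_dvd hpjd).resolve_right hpd
  obtain ⟨j', hj'⟩ := hpj
  apply hpd
  refine ⟨padicValRat qa n + j' * d * e, ?_⟩
  rw [hj'] at h2
  linear_combination h2

/-- Kummer theory by hand: if every automorphism fixing `γ` fixes `α` (all automorphisms fixing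
the `p`-th roots of unity, `α ^ p` and `γ ^ p`), then `α / γ ^ j` is fixed by all
automorphisms for some `j`. -/
theorem AUX_kummer {K N : Type*} [Field K] [Field N] [Algebra K N]
    {p : ℕ} (hp : p.Prime) {ζ α γ : N} (hζ : IsPrimitiveRoot ζ p)
    (hGζ : ∀ σ : N ≃ₐ[K] N, σ ζ = ζ) (hα0 : α ≠ 0) (hγ0 : γ ≠ 0)
    (hα : ∀ σ : N ≃ₐ[K] N, σ (α ^ p) = α ^ p) (hγ : ∀ σ : N ≃ₐ[K] N, σ (γ ^ p) = γ ^ p)
    (H : ∀ σ : N ≃ₐ[K] N, σ γ = γ → σ α = α) :
    ∃ j : ℕ, ∀ σ : N ≃ₐ[K] N, σ (α / γ ^ j) = α / γ ^ j := by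
  have hpne : NeZero p := ⟨hp.ne_zero⟩
  have hpf : Fact p.Prime := ⟨hp⟩
  have hfix : ∀ (σ : N ≃ₐ[K] N) (x : N), x ^ p = 1 → σ x = x := by
    intro σ x hx
    obtain ⟨i, -, rfl⟩ := hζ.eq_pow_of_pow_eq_one hx
    rw [map_pow, hGζ]
  have hu : ∀ σ : N ≃ₐ[K] N, (σ γ / γ) ^ p = 1 := by
    intro σ
    rw [div_pow, ← map_pow, hγ, div_self (pow_ne_zero p hγ0)]
  have hw : ∀ σ : N ≃ₐ[K] N, (σ α / α) ^ p = 1 := by
    intro σ
    rw [div_pow, ← map_pow, hα, div_self (pow_ne_zero p hα0)]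
  by_cases hall : ∀ σ : N ≃ₐ[K] N, σ γ = γ
  · refine ⟨0, fun σ => ?_⟩
    rw [pow_zero, div_one, H σ (hall σ)]
  · obtain ⟨σ₀, hσ₀⟩ := not_forall.mp hall
    have hup : (σ₀ γ / γ) ^ p = 1 := hu σ₀
    have hwp : (σ₀ α / α) ^ p = 1 := hw σ₀
    have hu1 : σ₀ γ / γ ≠ 1 := by
      intro h1
      apply hσ₀
      rwa [div_eq_one_iff_eq hγ0] at h1
    have huprim : IsPrimitiveRoot (σ₀ γ / γ) p := by
      have := IsPrimitiveRoot.orderOf (σ₀ γ / γ)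
      rwa [orderOf_eq_prime hup hu1] at this
    obtain ⟨j, -, hj⟩ := huprim.eq_pow_of_pow_eq_one hwp
    have hσγ : σ₀ γ = (σ₀ γ / γ) * γ := by field_simp
    have hσα : σ₀ α = (σ₀ α / α) * α := by field_simp
    generalize σ₀ γ / γ = u at hup hwp hu1 huprim hj hσγ
    generalize σ₀ α / α = w at hwp hj hσα
    have hpowγ : ∀ n : ℕ, (σ₀ ^ n) γ = u ^ n * γ := by
      intro n
      induction n with
      | zero => simp
      | succ n ih =>
        rw [pow_succ', AlgEquiv.mul_apply, ih, map_mul, map_pow, hfix σ₀ u hup, hσγ, pow_succ]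
        ring
    have hpowα : ∀ n : ℕ, (σ₀ ^ n) α = w ^ n * α := by
      intro n
      induction n with
      | zero => simp
      | succ n ih =>
        rw [pow_succ', AlgEquiv.mul_apply, ih, map_mul, map_pow, hfix σ₀ w hwp, hσα, pow_succ]
        ring
    have hu0 : u ≠ 0 := by
      rintro rfl
      rw [zero_pow hp.ne_zero] at hup
      exact zero_ne_one hup
    refine ⟨j, fun σ => ?_⟩
    obtain ⟨n, -, hn⟩ := huprim.eq_pow_of_pow_eq_one (hu σ)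
    have h1 : σ γ = (σ₀ ^ n) γ := by
      rw [hpowγ, hn]; field_simp
    have h2 : ((σ₀ ^ n)⁻¹ * σ) γ = γ := by
      rw [AlgEquiv.mul_apply, h1]
      exact AlgEquiv.symm_apply_apply (σ₀ ^ n) γ
    have h3 := H _ h2
    have h4 : σ α = (σ₀ ^ n) α := by
      rw [AlgEquiv.mul_apply] at h3
      have := congrArg (σ₀ ^ n) h3
      rw [← this]
      exact (AlgEquiv.apply_symm_apply (σ₀ ^ n) (σ α)).symm
    rw [map_div₀, map_pow, h4, h1, hpowα, hpowγ, ← hj]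
    field_simp
    ring

/-- The degree of `ℚ(ζ)` is positive and less than `p`. -/
theorem AUX_finrank_adjoin_lt {N : Type*} [Field N] [NumberField N]
    {p : ℕ} (hp : p.Prime) {ζ : N} (hζ : IsPrimitiveRoot ζ p) :
    0 < Module.finrank ℚ ℚ⟮ζ⟯ ∧ Module.finrank ℚ ℚ⟮ζ⟯ < p := by
  have hint : IsIntegral ℚ ζ := (hζ.isIntegral hp.pos).tower_top
  refine ⟨Module.finrank_pos, ?_⟩
  rw [IntermediateField.adjoin.finrank hint]
  have hroot : Polynomial.aeval ζ (cyclotomic p ℚ) = 0 := by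
    have := hζ.isRoot_cyclotomic hp.pos
    rw [Polynomial.IsRoot.def, ← Polynomial.map_cyclotomic p (algebraMap ℚ N),
      Polynomial.eval_map_algebraMap] at this
    exact this
  have hdvd := minpoly.dvd ℚ ζ hroot
  have hle := Polynomial.natDegree_le_of_dvd hdvd (cyclotomic_ne_zero p ℚ)
  rw [natDegree_cyclotomic, Nat.totient_prime hp] at hle
  have := hp.one_lt
  omega

/-- **Existence of the automorphism** for D-AUX. -/
theorem AUX_exists_aut {N : Type*} [Field N] [NumberField N] [IsGalois ℚ N]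
    {p qa qb e : ℕ} (hp : p.Prime) (hqa : qa.Prime) (hqb : qb.Prime) (hab : qa ≠ qb)
    {ζ α γ : N} (hζ : IsPrimitiveRoot ζ p) (hα : α ^ p = (qa : N))
    (hγ : γ ^ p = (qb : N) * (qa : N) ^ e) :
    ∃ τ : Gal(N/ℚ), τ ζ = ζ ∧ τ γ = γ ∧ τ α ≠ α := by
  by_contra hcon
  have hcon : ∀ τ : Gal(N/ℚ), τ ζ = ζ → τ γ = γ → τ α = α := by
    intro τ h1 h2
    by_contra h3
    exact hcon ⟨τ, h1, h2, h3⟩
  have hqa0 : (qa : N) ≠ 0 := by exact_mod_cast hqa.ne_zero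
  have hqb0 : (qb : N) ≠ 0 := by exact_mod_cast hqb.ne_zero
  have hα0 : α ≠ 0 := by
    rintro rfl
    rw [zero_pow hp.ne_zero] at hα
    exact hqa0 hα.symm
  have hγ0 : γ ≠ 0 := by
    rintro rfl
    rw [zero_pow hp.ne_zero] at hγ
    exact mul_ne_zero hqb0 (pow_ne_zero e hqa0) hγ.symm
  -- the field `K = ℚ(ζ)`
  have hζK : ζ ∈ ℚ⟮ζ⟯ := IntermediateField.mem_adjoin_simple_self ℚ ζ
  have hGζ : ∀ σ : N ≃ₐ[ℚ⟮ζ⟯] N, σ ζ = ζ := by
    intro σ
    exact σ.commutes ⟨ζ, hζK⟩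
  have hGnat : ∀ (σ : N ≃ₐ[ℚ⟮ζ⟯] N) (m : ℕ), σ (m : N) = (m : N) := fun σ m => map_natCast σ m
  have hGα : ∀ σ : N ≃ₐ[ℚ⟮ζ⟯] N, σ (α ^ p) = α ^ p := by
    intro σ
    rw [hα, hGnat]
  have hGγ : ∀ σ : N ≃ₐ[ℚ⟮ζ⟯] N, σ (γ ^ p) = γ ^ p := by
    intro σ
    rw [hγ, map_mul, map_pow, hGnat, hGnat]
  have H : ∀ σ : N ≃ₐ[ℚ⟮ζ⟯] N, σ γ = γ → σ α = α := by
    intro σ hσ
    exact hcon (σ.restrictScalars ℚ) (hGζ σ) hσ
  obtain ⟨j, hj⟩ := AUX_kummer hp hζ hGζ hα0 hγ0 hGα hGγ H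
  -- descend to `K`
  obtain ⟨δ, hδ⟩ := (IsGalois.mem_range_algebraMap_iff_fixed (F := ℚ⟮ζ⟯) (E := N)
    (α / γ ^ j)).mpr hj
  -- the equation in `K`
  have heqN : (qa : N) = (algebraMap ℚ⟮ζ⟯ N δ) ^ p * ((qb : N) * (qa : N) ^ e) ^ j := by
    have h1 : (algebraMap ℚ⟮ζ⟯ N δ) ^ p * (γ ^ p) ^ j = α ^ p := by
      rw [hδ, div_pow, ← pow_mul, ← pow_mul, mul_comm j p]
      field_simp
    rw [hα, hγ] at h1
    exact h1.symm
  have heqK : ((qa : ℕ) : ℚ⟮ζ⟯) = δ ^ p * (((qb : ℕ) : ℚ⟮ζ⟯) * ((qa : ℕ) : ℚ⟮ζ⟯) ^ e) ^ j := by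
    apply (algebraMap ℚ⟮ζ⟯ N).injective
    simp only [map_mul, map_pow, map_natCast]
    exact heqN
  -- norms
  obtain ⟨hd0, hdp⟩ := AUX_finrank_adjoin_lt hp hζ
  have hnorm := congrArg (Algebra.norm ℚ) heqK
  have hcast : ∀ m : ℕ, ((m : ℕ) : ℚ⟮ζ⟯) = algebraMap ℚ ℚ⟮ζ⟯ (m : ℚ) := fun m =>
    (map_natCast (algebraMap ℚ ℚ⟮ζ⟯) m).symm
  rw [map_mul, map_pow, map_pow, map_mul, map_pow, hcast qa, hcast qb,
    Algebra.norm_algebraMap, Algebra.norm_algebraMap] at hnorm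
  refine AUX_rat_core hp hqa hqb hab hd0 hdp (Algebra.norm ℚ δ) (e := e) (j := j) ?_
  rw [hnorm]
  ring

end Fermat.Agent.S14
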