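import Mathlib
import Fermat.Agent.S14.Iface
import Fermat.Agent.S14.D.AuxFrob
import Fermat.Agent.S14.D.AuxKummer

/-!
# D-AUX: auxiliary primes with prescribed `p`-th power residuosity (from weak Chebotarev)

`ifaceAux_of : IfaceChebE1 → IfaceAux`.  The unconditional `ifaceAux : IfaceAux` is in
`Fermat/Agent/S14/D/AuxPrime.lean`.
-/

set_option autoImplicit false

open NumberField IsDedekindDomain Polynomial

namespace Fermat.Agent.S14

/-- A power of an automorphism fixing `x` fixes `x`. -/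
theorem AUX_pow_apply_eq {N : Type*} [Field N] [Algebra ℚ N] (τ : Gal(N/ℚ)) {x : N}
    (h : τ x = x) (k : ℕ) : (τ ^ k) x = x := by
  induction k with
  | zero => simp
  | succ k ih => rw [pow_succ, AlgEquiv.mul_apply, h, ih]

/-- The splitting field of a rational polynomial is a number field. -/
theorem AUX_numberField_splittingField (f : ℚ[X]) : NumberField f.SplittingField :=
  { to_charZero := inferInstance, to_finiteDimensional := inferInstance }

/-- The splitting field of a rational polynomial is Galois over `ℚ`. -/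
theorem AUX_isGalois_splittingField (f : ℚ[X]) : IsGalois ℚ f.SplittingField := by
  have h0 : @IsSplittingField ℚ f.SplittingField _ _ (Polynomial.SplittingField.instAlgebra f) f :=
    Polynomial.IsSplittingField.splittingField f
  have hnorm : Normal ℚ f.SplittingField := @Normal.of_isSplittingField ℚ _ _ _ _ f h0
  exact ⟨⟩

/-- Roots of the three factors in a field where the product splits. -/
theorem AUX_roots_of_splits {N : Type*} [Field N] [CharZero N] (p qa c : ℕ) (hp : p.Prime)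
    (ι : ℚ →+* N)
    (h : ((cyclotomic p ℚ * (X ^ p - C (c : ℚ)) * (X ^ p - C (qa : ℚ))).map ι).Splits) :
    ∃ ζ α γ : N, IsPrimitiveRoot ζ p ∧ α ^ p = (qa : N) ∧ γ ^ p = (c : N) := by
  classical
  have hmap : (cyclotomic p ℚ * (X ^ p - C (c : ℚ)) * (X ^ p - C (qa : ℚ))).map ι =
      cyclotomic p N * (X ^ p - C (c : N)) * (X ^ p - C (qa : N)) := by
    simp only [Polynomial.map_mul, Polynomial.map_sub, Polynomial.map_pow, Polynomial.map_X,
      Polynomial.map_C, map_cyclotomic]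
    rw [map_natCast ι c, map_natCast ι qa]
  rw [hmap] at h
  have hm1 : (cyclotomic p N).Monic := cyclotomic.monic p _
  have hm2 : ∀ a : N, (X ^ p - C a).Monic := fun a => monic_X_pow_sub_C a hp.ne_zero
  have hne : cyclotomic p N * (X ^ p - C (c : N)) * (X ^ p - C (qa : N)) ≠ 0 :=
    ((hm1.mul (hm2 _)).mul (hm2 _)).ne_zero
  have hs1 : (cyclotomic p N).Splits :=
    h.of_dvd hne (Dvd.intro _ (mul_assoc _ _ _).symm)
  have hs2 : (X ^ p - C (c : N)).Splits :=
    h.of_dvd hne ⟨cyclotomic p N * (X ^ p - C (qa : N)), by ring⟩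
  have hs3 : (X ^ p - C (qa : N)).Splits :=
    h.of_dvd hne (Dvd.intro_left _ rfl)
  have hd1 : (cyclotomic p N).degree ≠ 0 := by
    rw [degree_cyclotomic, Nat.totient_prime hp]
    have := hp.two_le
    intro h
    have h' : p - 1 = 0 := by exact_mod_cast h
    omega
  have hd2 : ∀ a : N, (X ^ p - C a).degree ≠ 0 := by
    intro a
    rw [degree_X_pow_sub_C hp.pos]
    exact_mod_cast hp.ne_zero
  obtain ⟨ζ, hζ⟩ := hs1.exists_eval_eq_zero hd1
  obtain ⟨γ, hγ⟩ := hs2.exists_eval_eq_zero (hd2 _)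
  obtain ⟨α, hα⟩ := hs3.exists_eval_eq_zero (hd2 _)
  have hpne : NeZero ((p : ℕ) : N) := ⟨by exact_mod_cast hp.ne_zero⟩
  refine ⟨ζ, α, γ, (isRoot_cyclotomic_iff).mp hζ, ?_, ?_⟩
  · simpa [sub_eq_zero] using hα
  · simpa [sub_eq_zero] using hγ

/-- The splitting field used in D-AUX contains the required roots. -/
theorem AUX_exists_field (p qa c : ℕ) (hp : p.Prime) :
    ∃ (N : Type) (_ : Field N) (_ : NumberField N) (_ : IsGalois ℚ N) (ζ α γ : N),
      IsPrimitiveRoot ζ p ∧ α ^ p = (qa : N) ∧ γ ^ p = (c : N) :=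
  ⟨(cyclotomic p ℚ * (X ^ p - C (c : ℚ)) * (X ^ p - C (qa : ℚ))).SplittingField, inferInstance,
    AUX_numberField_splittingField _, AUX_isGalois_splittingField _,
    AUX_roots_of_splits p qa c hp _ (Polynomial.SplittingField.splits _)⟩

/-- **D-AUX** from weak Chebotarev. -/
theorem ifaceAux_of (hE1 : IfaceChebE1) : IfaceAux := by
  intro p hp _ qa qb e hqa hqb hab hqap hqbp T
  obtain ⟨N, _, _, _, ζ, α, γ, hζ, hα, hγ⟩ := AUX_exists_field p qa (qb * qa ^ e) hp
  have hγ' : γ ^ p = (qb : N) * (qa : N) ^ e := by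
    rw [hγ]; push_cast; rfl
  obtain ⟨τ, hτζ, hτγ, hτα⟩ := AUX_exists_aut hp hqa hqb hab hζ hα hγ'
  obtain ⟨r, 𝔓, k, hr, hrS, h𝔓, hr𝔓, -, hk, hfrob⟩ := hE1 N τ (T ∪ {p, qa, qb})
  have hrT : r ∉ T := fun h => hrS (Finset.mem_union_left _ h)
  have hrp : r ≠ p := by
    rintro rfl
    exact hrS (Finset.mem_union_right _ (by simp))
  have hrq : r ≠ qa := by
    rintro rfl
    exact hrS (Finset.mem_union_right _ (by simp))
  have hφα : (τ ^ k) α ≠ α := by
    intro h
    obtain ⟨m, hm⟩ := exists_pow_eq_self_of_coprime hk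
    apply hτα
    have := AUX_pow_apply_eq (τ ^ k) h m
    rwa [hm] at this
  obtain ⟨h1, h2, h3⟩ := AUX_frob_core hp hr hrp hrq hqa hζ hα hγ 𝔓 h𝔓 hr𝔓 (τ ^ k) hfrob
    (AUX_pow_apply_eq τ hτζ k) (AUX_pow_apply_eq τ hτγ k) hφα
  refine ⟨r, hr, hrT, h1, h2, ?_⟩
  obtain ⟨y, hy⟩ := h3
  exact ⟨y, by rw [hy]; push_cast; rfl⟩

end Fermat.Agent.S14
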