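import Mathlib
import Fermat.Agent.S14.Iface
import Fermat.Agent.S14.D.AuxPrimeOf
import Fermat.Agent.Cheb.Final

/-!
# D-AUX: auxiliary primes with prescribed `p`-th power residuosity

`ifaceAux : IfaceAux`, unconditional: `ifaceAux_of` applied to the weak Chebotarev theorem of
pillar P-CHEB (`Fermat.Agent.Cheb.WC_exists_isArithFrobAt_pow`).
-/

set_option autoImplicit false

namespace Fermat.Agent.S14

/-- The interface `IfaceChebE1` holds (weak Chebotarev over `ℚ`, pillar P-CHEB). -/
theorem AUX_ifaceChebE1 : IfaceChebE1 :=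
  fun L _ _ _ τ S => Fermat.Agent.Cheb.WC_exists_isArithFrobAt_pow L τ S

/-- **D-AUX**: for distinct primes `qa, qb ≠ p` and any exponent `e` there is a prime
`r ≡ 1 mod p` outside any finite set such that `qa` is not a `p`-th power modulo `r` while
`qb * qa ^ e` is. -/
theorem ifaceAux : IfaceAux :=
  ifaceAux_of AUX_ifaceChebE1

end Fermat.Agent.S14
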