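import Mathlib
import Fermat.Agent.S14.Iface

/-!
# Pillar P-CFT (S14), part (D) = Artin crossing: shared definitions

Fixed data: number fields `K ⊆ L` (`L / K` Galois), a prime number `r`, and a field
`Mt = L(ζ_r)` (`[IsCyclotomicExtension {r} L Mt]`, with compatible `K`-algebra structure).

* `res K L Mt   : Gal(Mt/K) →* Gal(L/K)`     restriction.
* `kap K L r Mt : Gal(Mt/K) →* (ZMod r)ˣ`    cyclotomic character, `g ζ = ζ ^ (kap g)`.
* `Pr p r       : Subgroup (ZMod r)ˣ`        the `p`-th powers.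
* `rk p K L r Mt : Gal(Mt/K) →* Gal(L/K) × ((ZMod r)ˣ ⧸ Pr p r)`   `g ↦ (res g, [kap g])`.
* `GamM`  := `ker rk`;   `GamF s a` := preimage under `rk` of the cyclic group generated by
  `(s, [a])` ("diagonal" subgroup).
* `FF s a`  := fixed field of `GamF s a` (an intermediate field of `Mt / K`);
* `MM s a`  := fixed field of `GamM`, as an intermediate field of `Mt / FF s a`.
-/

set_option autoImplicit false

open NumberField IsDedekindDomain
open scoped nonZeroDivisors Pointwise

namespace Fermat.Agent.S14.D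

section Setup

variable (p : ℕ) (K L : Type) [Field K] [Field L] [Algebra K L] [Normal K L]
  (r : ℕ) [NeZero r] (Mt : Type) [Field Mt] [Algebra K Mt] [Algebra L Mt] [IsScalarTower K L Mt]
  [IsCyclotomicExtension {r} L Mt]

/-- Restriction `Gal(Mt/K) → Gal(L/K)`. -/
noncomputable def res : Gal(Mt/K) →* Gal(L/K) :=
  AlgEquiv.restrictNormalHom L

/-- The chosen primitive `r`-th root of unity of `Mt`. -/
noncomputable def zet : Mt := IsCyclotomicExtension.zeta r L Mt

theorem zet_spec : IsPrimitiveRoot (zet L r Mt) r :=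
  IsCyclotomicExtension.zeta_spec r L Mt

/-- The cyclotomic character `Gal(Mt/K) → (ZMod r)ˣ`. -/
noncomputable def kap : Gal(Mt/K) →* (ZMod r)ˣ :=
  (zet_spec L r Mt).autToPow K

/-- The subgroup of `p`-th powers of `(ZMod r)ˣ`. -/
def Pr : Subgroup (ZMod r)ˣ := (powMonoidHom p : (ZMod r)ˣ →* (ZMod r)ˣ).range

/-- `g ↦ (res g, [kap g])`. -/
noncomputable def rk : Gal(Mt/K) →* Gal(L/K) × ((ZMod r)ˣ ⧸ Pr p r) :=
  (res K L Mt).prod ((QuotientGroup.mk' (Pr p r)).comp (kap K L r Mt))

/-- The subgroup `{g | res g = 1 ∧ kap g ∈ Pr}` of `Gal(Mt/K)`. -/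
noncomputable def GamM : Subgroup Gal(Mt/K) := (rk p K L r Mt).ker

/-- The diagonal subgroup `{g | ∃ j, res g = s ^ j ∧ [kap g] = [a] ^ j}` of `Gal(Mt/K)`. -/
noncomputable def GamF (s : Gal(L/K)) (a : (ZMod r)ˣ) : Subgroup Gal(Mt/K) :=
  (Subgroup.zpowers ((s, (a : (ZMod r)ˣ ⧸ Pr p r)) : Gal(L/K) × ((ZMod r)ˣ ⧸ Pr p r))).comap
    (rk p K L r Mt)

/-- The field `F`: the fixed field of the diagonal subgroup. -/
noncomputable def FF (s : Gal(L/K)) (a : (ZMod r)ˣ) : IntermediateField K Mt :=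
  IntermediateField.fixedField (GamF p K L r Mt s a)

/-- The subgroup of `Gal(Mt/F)` of the automorphisms fixing `L` pointwise with cyclotomic
character a `p`-th power. -/
noncomputable def GamMF (s : Gal(L/K)) (a : (ZMod r)ˣ) : Subgroup Gal(Mt/(FF p K L r Mt s a)) :=
  (GamM p K L r Mt).comap
    (MonoidHom.mk' (fun h : Gal(Mt/(FF p K L r Mt s a)) => h.restrictScalars K)
      (fun _ _ => rfl))

/-- The field `M`, as an extension of `F`. -/
noncomputable def MM (s : Gal(L/K)) (a : (ZMod r)ˣ) :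
    IntermediateField (FF p K L r Mt s a) Mt :=
  IntermediateField.fixedField (GamMF p K L r Mt s a)

end Setup

end Fermat.Agent.S14.D
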