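import Mathlib
import Fermat.Agent.S14.D.Defs

/-!
# Pillar P-CFT (S14), part (D): basic API for the definitions of `D/Defs.lean`
-/

set_option autoImplicit false

open NumberField IsDedekindDomain
open scoped nonZeroDivisors Pointwise

namespace Fermat.Agent.S14.D

section Setup

variable (p : ℕ) (K L : Type) [Field K] [Field L] [Algebra K L] [Normal K L]
  (r : ℕ) [NeZero r] (Mt : Type) [Field Mt] [Algebra K Mt] [Algebra L Mt] [IsScalarTower K L Mt]
  [IsCyclotomicExtension {r} L Mt]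

theorem mem_Pr_iff (u : (ZMod r)ˣ) : u ∈ Pr p r ↔ ∃ y : (ZMod r)ˣ, y ^ p = u := by
  simp [Pr, MonoidHom.mem_range]

theorem pow_mem_Pr (y : (ZMod r)ˣ) : y ^ p ∈ Pr p r := (mem_Pr_iff p r _).2 ⟨y, rfl⟩

/-- The quotient `(ZMod r)ˣ ⧸ Pr p r` is killed by `p`. -/
theorem quot_pow_eq_one (c : (ZMod r)ˣ ⧸ Pr p r) : c ^ p = 1 := by
  obtain ⟨u, rfl⟩ := QuotientGroup.mk_surjective c
  rw [← QuotientGroup.mk_pow, QuotientGroup.eq_one_iff]
  exact pow_mem_Pr p r u

theorem res_commutes (g : Gal(Mt/K)) (x : L) :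
    algebraMap L Mt (res K L Mt g x) = g (algebraMap L Mt x) :=
  AlgEquiv.restrictNormal_commutes g L x

theorem res_eq_one_iff (g : Gal(Mt/K)) :
    res K L Mt g = 1 ↔ ∀ x : L, g (algebraMap L Mt x) = algebraMap L Mt x := by
  constructor
  · intro h x
    rw [← res_commutes, h]
    rfl
  · intro h
    ext x
    apply (algebraMap L Mt).injective
    rw [res_commutes, h]
    rfl

theorem kap_spec (g : Gal(Mt/K)) :
    g (zet L r Mt) = zet L r Mt ^ ((kap K L r Mt g : (ZMod r)ˣ) : ZMod r).val := by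
  have := (zet_spec L r Mt).autToPow_spec K g
  exact this.symm

theorem rk_apply (g : Gal(Mt/K)) :
    rk p K L r Mt g = (res K L Mt g, ((kap K L r Mt g : (ZMod r)ˣ) : (ZMod r)ˣ ⧸ Pr p r)) :=
  rfl

theorem mem_GamM_iff (g : Gal(Mt/K)) :
    g ∈ GamM p K L r Mt ↔ res K L Mt g = 1 ∧ kap K L r Mt g ∈ Pr p r := by
  rw [GamM, MonoidHom.mem_ker, rk_apply, Prod.mk_eq_one, QuotientGroup.eq_one_iff]

theorem prod_zpow_eq {G H : Type*} [Group G] [Group H] (x : G) (y : H) (j : ℤ) :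
    ((x, y) : G × H) ^ j = (x ^ j, y ^ j) := by
  refine Prod.ext ?_ ?_
  · exact map_zpow (MonoidHom.fst G H) (x, y) j
  · exact map_zpow (MonoidHom.snd G H) (x, y) j

theorem mem_GamF_iff (s : Gal(L/K)) (a : (ZMod r)ˣ) (g : Gal(Mt/K)) :
    g ∈ GamF p K L r Mt s a ↔
      ∃ j : ℤ, res K L Mt g = s ^ j ∧ kap K L r Mt g * (a ^ j)⁻¹ ∈ Pr p r := by
  rw [GamF, Subgroup.mem_comap, Subgroup.mem_zpowers_iff]
  constructor
  · rintro ⟨j, hj⟩
    have e := prod_zpow_eq s ((a : (ZMod r)ˣ) : (ZMod r)ˣ ⧸ Pr p r) j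
    rw [rk_apply] at hj
    have hj' := e.symm.trans hj
    rw [Prod.mk.injEq] at hj'
    clear hj
    rename' hj' => hj
    refine ⟨j, hj.1.symm, ?_⟩
    rw [← QuotientGroup.eq_one_iff, QuotientGroup.mk_mul, QuotientGroup.mk_inv,
      QuotientGroup.mk_zpow, ← hj.2, mul_inv_cancel]
  · rintro ⟨j, h1, h2⟩
    refine ⟨j, ?_⟩
    have e := prod_zpow_eq s ((a : (ZMod r)ˣ) : (ZMod r)ˣ ⧸ Pr p r) j
    refine e.trans ?_
    rw [rk_apply, Prod.mk.injEq]
    refine ⟨h1.symm, ?_⟩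
    rw [← QuotientGroup.eq_one_iff, QuotientGroup.mk_mul, QuotientGroup.mk_inv,
      QuotientGroup.mk_zpow, mul_inv_eq_one] at h2
    exact h2.symm

theorem GamM_le_GamF (s : Gal(L/K)) (a : (ZMod r)ˣ) :
    GamM p K L r Mt ≤ GamF p K L r Mt s a := by
  intro g hg
  rw [mem_GamM_iff] at hg
  rw [mem_GamF_iff]
  exact ⟨0, by simpa using hg.1, by simpa using hg.2⟩

/-- A lift `γ` of `(s, a)` lies in the diagonal subgroup. -/
theorem mem_GamF_of_lift (s : Gal(L/K)) (a : (ZMod r)ˣ) (γ : Gal(Mt/K))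
    (h1 : res K L Mt γ = s) (h2 : kap K L r Mt γ = a) : γ ∈ GamF p K L r Mt s a := by
  rw [mem_GamF_iff]
  exact ⟨1, by simpa using h1, by simp [h2, (Pr p r).one_mem]⟩

theorem mem_FF_iff (s : Gal(L/K)) (a : (ZMod r)ˣ) (x : Mt) :
    x ∈ FF p K L r Mt s a ↔ ∀ g ∈ GamF p K L r Mt s a, g x = x := by
  unfold FF
  rw [IntermediateField.mem_fixedField_iff]

theorem mem_GamMF_iff (s : Gal(L/K)) (a : (ZMod r)ˣ) (h : Gal(Mt/(FF p K L r Mt s a))) :
    h ∈ GamMF p K L r Mt s a ↔ (h.restrictScalars K : Gal(Mt/K)) ∈ GamM p K L r Mt :=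
  Iff.rfl

/-- An automorphism of `Mt` over `F` lies in the diagonal subgroup. -/
theorem restrictScalars_mem_GamF [FiniteDimensional K Mt] (s : Gal(L/K)) (a : (ZMod r)ˣ)
    (h : Gal(Mt/(FF p K L r Mt s a))) :
    (h.restrictScalars K : Gal(Mt/K)) ∈ GamF p K L r Mt s a := by
  have h1 : (h.restrictScalars K : Gal(Mt/K)) ∈ (FF p K L r Mt s a).fixingSubgroup := by
    rw [IntermediateField.mem_fixingSubgroup_iff]
    intro x hx
    exact h.commutes ⟨x, hx⟩
  unfold FF at h1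
  rwa [IntermediateField.fixingSubgroup_fixedField] at h1

/-- Every element of the diagonal subgroup comes from an automorphism of `Mt` over `F`. -/
theorem exists_restrictScalars_eq (s : Gal(L/K)) (a : (ZMod r)ˣ)
    (g : Gal(Mt/K)) (hg : g ∈ GamF p K L r Mt s a) :
    ∃ h : Gal(Mt/(FF p K L r Mt s a)), (h.restrictScalars K : Gal(Mt/K)) = g := by
  have hfix : g ∈ (FF p K L r Mt s a).fixingSubgroup := by
    rw [IntermediateField.mem_fixingSubgroup_iff]
    intro x hx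
    exact (mem_FF_iff p K L r Mt s a x).1 hx g hg
  refine ⟨IntermediateField.fixingSubgroupEquiv (FF p K L r Mt s a) ⟨g, hfix⟩, ?_⟩
  ext x
  rfl

/-- The elements of `L` (inside `Mt`) are fixed by `GamM`. -/
theorem GamM_fixes_L (g : Gal(Mt/K)) (hg : g ∈ GamM p K L r Mt) (x : L) :
    g (algebraMap L Mt x) = algebraMap L Mt x :=
  (res_eq_one_iff K L Mt g).1 ((mem_GamM_iff p K L r Mt g).1 hg).1 x

end Setup

end Fermat.Agent.S14.D
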