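import Mathlib
import Fermat.Agent.S14.Iface
import Fermat.Agent.S14.D.Defs

/-!
# Pillar P-CFT (S14), part (D) = Artin crossing: frozen internal interfaces

Notation (see `D/Defs.lean`): `Mt = L(ζ_r)`, `res : Gal(Mt/K) → Gal(L/K)`,
`kap : Gal(Mt/K) → (ZMod r)ˣ`, `Pr p r` = `p`-th powers in `(ZMod r)ˣ`,
`GamM = {res = 1, kap ∈ Pr}`, `GamF s a = {∃ j, res = s ^ j, [kap] = [a] ^ j}`,
`FF s a` = fixed field of `GamF s a`, `MM s a` = fixed field of `GamM` as an extension of `FF s a`.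

Each interface is a closed `Prop`; the owner of a module proves `theorem <name> : Iface…`.
The assembly `ifaceD_of : IfaceA → IfaceAux → IfaceD` (module D-CROSS) uses exactly these.
-/

set_option autoImplicit false

open NumberField IsDedekindDomain
open scoped nonZeroDivisors Pointwise

namespace Fermat.Agent.S14.D

/-! ## D-GAL : Galois theory of `Mt / K` -/

/-- (D-GAL 1) `Mt = L(ζ_r)` is Galois over `K`. -/
def IfaceDGalois : Prop :=
  ∀ (K L : Type) [Field K] [NumberField K] [Field L] [NumberField L] [Algebra K L]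
    [IsGalois K L] (r : ℕ) [NeZero r] (Mt : Type) [Field Mt] [NumberField Mt] [Algebra K Mt]
    [Algebra L Mt] [IsScalarTower K L Mt] [IsCyclotomicExtension {r} L Mt],
    IsGalois K Mt

/-- (D-GAL 2) `M / F` is Galois of degree `p`. -/
def IfaceDDeg : Prop :=
  ∀ (p : ℕ) (K L : Type) [Field K] [NumberField K] [Field L] [NumberField L] [Algebra K L]
    [IsGalois K L] (r : ℕ) [NeZero r] (Mt : Type) [Field Mt] [NumberField Mt] [Algebra K Mt]
    [Algebra L Mt] [IsScalarTower K L Mt] [IsCyclotomicExtension {r} L Mt] [IsGalois K Mt]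
    (s : Gal(L/K)) (a : (ZMod r)ˣ),
    p.Prime → Module.finrank K L = p → s ≠ 1 →
    (∃ γ : Gal(Mt/K), res K L Mt γ = s ∧ kap K L r Mt γ = a) →
    IsGalois (FF p K L r Mt s a) (MM p K L r Mt s a) ∧
      Module.finrank (FF p K L r Mt s a) (MM p K L r Mt s a) = p

/-! ## D-FROB : Frobenius lifts -/

/-- (D-FROB 1) a Frobenius of `L / K` at a degree one prime `𝔮 ∤ r` lifts to a Frobenius of
`Mt / K` with the same restriction to `L` and cyclotomic character `N𝔮 mod r`. -/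
def IfaceDFrob : Prop :=
  ∀ (K L : Type) [Field K] [NumberField K] [Field L] [NumberField L] [Algebra K L]
    [IsGalois K L] (r : ℕ) [NeZero r] (Mt : Type) [Field Mt] [NumberField Mt] [Algebra K Mt]
    [Algebra L Mt] [IsScalarTower K L Mt] [IsCyclotomicExtension {r} L Mt] [IsGalois K Mt],
    r.Prime → UnramifiedEverywhere K L →
    ∀ (𝔮 : HeightOneSpectrum (𝓞 K)) (q : ℕ) (g : Gal(L/K)), q.Prime → q ≠ r →
      Ideal.absNorm 𝔮.asIdeal = q → IsFrobAt K L 𝔮 g →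
      ∃ (φ : Gal(Mt/K)) (ℜ : Ideal (𝓞 Mt)), ℜ.IsPrime ∧ ℜ.under (𝓞 K) = 𝔮.asIdeal ∧
        (∀ x : 𝓞 Mt, φ • x - x ^ q ∈ ℜ) ∧ res K L Mt φ = g ∧
        ((kap K L r Mt φ : (ZMod r)ˣ) : ZMod r) = (q : ZMod r)

/-- (D-FROB 2) if a Frobenius `φ` at `ℜ` (for the prime number `q`) fixes the subfield `E`
pointwise, then the prime of `E` under `ℜ` has absolute norm `q`. -/
def IfaceDFix : Prop :=
  ∀ (K E Mt : Type) [Field K] [Field E] [NumberField E] [Field Mt] [NumberField Mt]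
    [Algebra K Mt] [Algebra E Mt] (φ : Gal(Mt/K)) (ℜ : Ideal (𝓞 Mt)) (q : ℕ),
    q.Prime → ℜ.IsPrime → (q : 𝓞 Mt) ∈ ℜ → (∀ x : 𝓞 Mt, φ • x - x ^ q ∈ ℜ) →
    (∀ x : E, φ (algebraMap E Mt x) = algebraMap E Mt x) →
    Ideal.absNorm (ℜ.under (𝓞 E)) = q

/-! ## D-SPLIT : primes of `F` which split completely in `M` -/

/-- (D-SPLIT 1) above a prime `𝔓` of `F` which splits completely in `M` there is a prime `ℜ` of
`Mt` with a Frobenius (over `F`, i.e. for the exponent `N𝔓`) lying in `GamM`. -/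
def IfaceDSplit : Prop :=
  ∀ (p : ℕ) (K L : Type) [Field K] [NumberField K] [Field L] [NumberField L] [Algebra K L]
    [IsGalois K L] (r : ℕ) [NeZero r] (Mt : Type) [Field Mt] [NumberField Mt] [Algebra K Mt]
    [Algebra L Mt] [IsScalarTower K L Mt] [IsCyclotomicExtension {r} L Mt] [IsGalois K Mt]
    (s : Gal(L/K)) (a : (ZMod r)ˣ),
    p.Prime → Module.finrank K L = p →
    ∀ 𝔓 : HeightOneSpectrum (𝓞 (FF p K L r Mt s a)),
      Cheb.SplitsCompletely (FF p K L r Mt s a) (MM p K L r Mt s a) 𝔓 →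
      ∃ (φ : Gal(Mt/K)) (ℜ : Ideal (𝓞 Mt)), ℜ.IsPrime ∧
        ℜ.under (𝓞 (FF p K L r Mt s a)) = 𝔓.asIdeal ∧ φ ∈ GamM p K L r Mt ∧
        ∀ x : 𝓞 Mt, φ • x - x ^ Ideal.absNorm 𝔓.asIdeal ∈ ℜ

/-- (D-SPLIT 2 = ν1) the absolute norm of a prime `𝔓 ∤ r` of `F` which splits completely in `M`
is a `p`-th power modulo `r`. -/
def IfaceDNuOne : Prop :=
  ∀ (p : ℕ) (K L : Type) [Field K] [NumberField K] [Field L] [NumberField L] [Algebra K L]
    [IsGalois K L] (r : ℕ) [NeZero r] (Mt : Type) [Field Mt] [NumberField Mt] [Algebra K Mt]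
    [Algebra L Mt] [IsScalarTower K L Mt] [IsCyclotomicExtension {r} L Mt] [IsGalois K Mt]
    (s : Gal(L/K)) (a : (ZMod r)ˣ),
    p.Prime → r.Prime → Module.finrank K L = p →
    ∀ 𝔓 : HeightOneSpectrum (𝓞 (FF p K L r Mt s a)),
      (r : 𝓞 (FF p K L r Mt s a)) ∉ 𝔓.asIdeal →
      Cheb.SplitsCompletely (FF p K L r Mt s a) (MM p K L r Mt s a) 𝔓 →
      ∀ u : (ZMod r)ˣ, (u : ZMod r) = (Ideal.absNorm 𝔓.asIdeal : ZMod r) → u ∈ Pr p r

/-! ## D-RAM : ramification at `r` -/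

/-- (D-RAM) `Gal(Mt/L)` is the inertia group of every prime of `Mt` above `r`
(`r` is unramified in `L` and totally ramified in `L(ζ_r) / L`). -/
def IfaceDInertia : Prop :=
  ∀ (p : ℕ) (K L : Type) [Field K] [NumberField K] [Field L] [NumberField L] [Algebra K L]
    [IsGalois K L] [IsCyclotomicExtension {p} ℚ K] (r : ℕ) [NeZero r] (Mt : Type) [Field Mt]
    [NumberField Mt] [Algebra K Mt] [Algebra L Mt] [IsScalarTower K L Mt]
    [IsCyclotomicExtension {r} L Mt] [IsGalois K Mt],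
    p.Prime → r.Prime → r ≠ p → UnramifiedEverywhere K L →
    ∀ (ℜ : Ideal (𝓞 Mt)), ℜ.IsPrime → (r : 𝓞 Mt) ∈ ℜ →
      ∀ γ : Gal(Mt/K), res K L Mt γ = 1 → ∀ x : 𝓞 Mt, γ • x - x ∈ ℜ

/-! ## D-NORM : norms of elements of `F` are `p`-th powers modulo `r` (= ν2) -/

/-- (D-NORM = ν2) the absolute norm of a principal ideal of `𝓞 F` prime to `r` is a `p`-th power
modulo `r`. -/
def IfaceDNorm : Prop :=
  ∀ (p : ℕ) (K L : Type) [Field K] [NumberField K] [Field L] [NumberField L] [Algebra K L]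
    [IsGalois K L] [IsCyclotomicExtension {p} ℚ K] (r : ℕ) [NeZero r] (Mt : Type) [Field Mt]
    [NumberField Mt] [Algebra K Mt] [Algebra L Mt] [IsScalarTower K L Mt]
    [IsCyclotomicExtension {r} L Mt] [IsGalois K Mt] (s : Gal(L/K)) (a : (ZMod r)ˣ),
    p.Prime → 3 ≤ p → r.Prime → r % p = 1 → Module.finrank K L = p →
    UnramifiedEverywhere K L → s ≠ 1 →
    (∃ γ : Gal(Mt/K), res K L Mt γ = s ∧ kap K L r Mt γ = a) →
    ∀ (β : 𝓞 (FF p K L r Mt s a)) (u : (ZMod r)ˣ),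
      (u : ZMod r) = (Ideal.absNorm (Ideal.span {β}) : ZMod r) → u ∈ Pr p r

/-! ## D-NU : the invariant `ν` on the class group -/

/-- (D-NU) if the absolute norms of all principal ideals prime to `r` lie in the subgroup `P` of
`(ZMod r)ˣ`, then `I ↦ [N I mod r]` induces a homomorphism `ClassGroup (𝓞 F) →* (ZMod r)ˣ ⧸ P`. -/
def IfaceDNu : Prop :=
  ∀ (F : Type) [Field F] [NumberField F] (r : ℕ) [NeZero r] (P : Subgroup (ZMod r)ˣ),
    r.Prime →
    (∀ (β : 𝓞 F) (u : (ZMod r)ˣ),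
      (u : ZMod r) = (Ideal.absNorm (Ideal.span {β}) : ZMod r) → u ∈ P) →
    ∃ ν : ClassGroup (𝓞 F) →* (ZMod r)ˣ ⧸ P, ∀ (I : (Ideal (𝓞 F))⁰) (u : (ZMod r)ˣ),
      (u : ZMod r) = (Ideal.absNorm (I : Ideal (𝓞 F)) : ZMod r) →
      ν (ClassGroup.mk0 I) = (u : (ZMod r)ˣ ⧸ P)

/-! ## D-DOWN : pushing down along the relative norm -/

/-- (D-DOWN 1) the relative norm induces a homomorphism of class groups. -/
def IfaceDNormHom : Prop :=
  ∀ (K F : Type) [Field K] [NumberField K] [Field F] [NumberField F] [Algebra K F],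
    ∃ N : ClassGroup (𝓞 F) →* ClassGroup (𝓞 K), ∀ (I : (Ideal (𝓞 F))⁰) (J : (Ideal (𝓞 K))⁰),
      (J : Ideal (𝓞 K)) = Ideal.relNorm (𝓞 K) (I : Ideal (𝓞 F)) →
      N (ClassGroup.mk0 I) = ClassGroup.mk0 J

/-- (D-DOWN 2) the relative norm of a prime of residue degree one is the prime below. -/
def IfaceDRelNormPrime : Prop :=
  ∀ (K F : Type) [Field K] [NumberField K] [Field F] [NumberField F] [Algebra K F]
    (𝔓 : Ideal (𝓞 F)), 𝔓.IsPrime → 𝔓 ≠ ⊥ →
    Ideal.absNorm 𝔓 = Ideal.absNorm (𝔓.under (𝓞 K)) →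
    Ideal.relNorm (𝓞 K) 𝔓 = 𝔓.under (𝓞 K)

/-- (D-DOWN 3) the relative norm to `K` of a degree one prime of `F` which splits completely in
`M` is the relative norm of an ideal of `L`, in particular its class is a norm class. -/
def IfaceDDown : Prop :=
  ∀ (p : ℕ) (K L : Type) [Field K] [NumberField K] [Field L] [NumberField L] [Algebra K L]
    [IsGalois K L] (r : ℕ) [NeZero r] (Mt : Type) [Field Mt] [NumberField Mt] [Algebra K Mt]
    [Algebra L Mt] [IsScalarTower K L Mt] [IsCyclotomicExtension {r} L Mt] [IsGalois K Mt]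
    (s : Gal(L/K)) (a : (ZMod r)ˣ),
    p.Prime → Module.finrank K L = p →
    ∀ 𝔓 : HeightOneSpectrum (𝓞 (FF p K L r Mt s a)),
      Cheb.IsDegOne (FF p K L r Mt s a) 𝔓 →
      Cheb.SplitsCompletely (FF p K L r Mt s a) (MM p K L r Mt s a) 𝔓 →
      ∀ J : (Ideal (𝓞 K))⁰, (J : Ideal (𝓞 K)) = Ideal.relNorm (𝓞 K) 𝔓.asIdeal →
        ClassGroup.mk0 J ∈ normClassSubgroup K L

end Fermat.Agent.S14.D
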