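import Mathlib
import Fermat.Agent.S14.D.Iface
import Fermat.Agent.S14.D.Basic

/-!
# Pillar P-CFT (S14), part (D): pushing down along the relative norm

`ifaceDDown_of : IfaceDSplit → IfaceDFix → IfaceDRelNormPrime → IfaceDDown`.

A degree one prime `𝔓` of `F` which splits completely in `M` has a prime `ℜ` of `Mt` above it
with a Frobenius `φ ∈ GamM`; `φ` fixes `L` and `K` pointwise, so the primes `ℜ ∩ 𝓞 L` and
`ℜ ∩ 𝓞 K` have the same absolute norm as `𝔓`, and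
`relNorm_{F/K} 𝔓 = ℜ ∩ 𝓞 K = relNorm_{L/K} (ℜ ∩ 𝓞 L)`.
-/

set_option autoImplicit false

open NumberField IsDedekindDomain
open scoped nonZeroDivisors Pointwise

namespace Fermat.Agent.S14.D

theorem ifaceDDown_of (hSplit : IfaceDSplit) (hFix : IfaceDFix) (hRel : IfaceDRelNormPrime) :
    IfaceDDown := by
  intro p K L _ _ _ _ _ _ r _ Mt _ _ _ _ _ _ _ s a hp hdeg 𝔓 hdeg1 hsplit J hJ
  obtain ⟨φ, ℜ, hℜprime, hunderF, hφ, hfrob⟩ :=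
    hSplit p K L r Mt s a hp hdeg 𝔓 hsplit
  have hℓprime : (Ideal.absNorm 𝔓.asIdeal).Prime := hdeg1
  -- `ℓ ∈ ℜ`
  have hℓmem : ((Ideal.absNorm 𝔓.asIdeal : ℕ) : 𝓞 Mt) ∈ ℜ := by
    have h1 : ((Ideal.absNorm 𝔓.asIdeal : ℕ) : 𝓞 (FF p K L r Mt s a)) ∈
        ℜ.under (𝓞 (FF p K L r Mt s a)) := by
      rw [hunderF]
      exact Ideal.absNorm_mem 𝔓.asIdeal
    rw [Ideal.under_def, Ideal.mem_comap, map_natCast] at h1
    exact h1
  -- the primes of `L` and `K` below `ℜ`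
  have hNL : Ideal.absNorm (ℜ.under (𝓞 L)) = Ideal.absNorm 𝔓.asIdeal :=
    hFix K L Mt φ ℜ _ hℓprime hℜprime hℓmem hfrob (GamM_fixes_L p K L r Mt φ hφ)
  have hNK : Ideal.absNorm (ℜ.under (𝓞 K)) = Ideal.absNorm 𝔓.asIdeal :=
    hFix K K Mt φ ℜ _ hℓprime hℜprime hℓmem hfrob (fun x => φ.commutes x)
  have hLK : (ℜ.under (𝓞 L)).under (𝓞 K) = ℜ.under (𝓞 K) := Ideal.under_under ℜ
  have hFK : 𝔓.asIdeal.under (𝓞 K) = ℜ.under (𝓞 K) := by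
    rw [← hunderF]
    exact Ideal.under_under ℜ
  have hLprime : (ℜ.under (𝓞 L)).IsPrime := Ideal.IsPrime.under (𝓞 L) ℜ
  have hLne : ℜ.under (𝓞 L) ≠ ⊥ := by
    intro h0
    rw [h0, Ideal.absNorm_bot] at hNL
    exact hℓprime.ne_zero hNL.symm
  have h1 : Ideal.relNorm (𝓞 K) (ℜ.under (𝓞 L)) = ℜ.under (𝓞 K) := by
    rw [hRel K L (ℜ.under (𝓞 L)) hLprime hLne (by rw [hLK, hNL, hNK]), hLK]
  have h2 : Ideal.relNorm (𝓞 K) 𝔓.asIdeal = ℜ.under (𝓞 K) := by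
    rw [hRel K (FF p K L r Mt s a) 𝔓.asIdeal 𝔓.isPrime 𝔓.ne_bot (by rw [hFK, hNK]), hFK]
  apply Subgroup.subset_closure
  refine ⟨⟨ℜ.under (𝓞 L), mem_nonZeroDivisors_of_ne_zero hLne⟩, J, ?_, rfl⟩
  rw [hJ, h2]
  exact h1.symm

end Fermat.Agent.S14.D
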