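import Mathlib
import Fermat.Agent.S14.Iface

/-!
# P-CFT (S14), module D-FROB: lifting Frobenius elements to a bigger Galois extension

Setting: number fields `K ⊆ L ⊆ Mt` with `L / K` and `Mt / K` Galois (in the application
`Mt = L(ζ_r)`).  If `g ∈ Gal(L/K)` is a Frobenius at a prime `𝔔` of `𝓞 L` above the prime `𝔮` of
`𝓞 K`, and `𝔮` is unramified in `L`, then there are a prime `ℜ` of `𝓞 Mt` above `𝔔` and a
Frobenius `φ ∈ Gal(Mt/K)` at `ℜ` whose restriction to `L` is `g`, and `φ ζ = ζ ^ N(𝔮)` for every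
root of unity `ζ` of order prime to `N(𝔮)`.

Main statements (namespace `Fermat.Agent.S14.DFrob`):

* `algebraMap_restrict_smul` : restriction is compatible with the actions on rings of integers.
* `restrict_frob`            : the restriction of a Frobenius is a Frobenius.
* `frob_unique`              : uniqueness of the Frobenius at an unramified prime.
* `exists_frob_above`        : existence of a Frobenius of `Mt / K` above a prime of `L`.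
* `apply_rootOfUnity`        : a Frobenius raises roots of unity of order prime to `N(𝔮)` to the
                               power `N(𝔮)`.
* `exists_frob_lift_above`, `exists_frob_lift` : the packaged statements.
* `absNorm_under_of_fixed`   : the prime below `ℜ` in a field fixed by `φ` has the same norm.
-/

set_option autoImplicit false
set_option linter.unusedSectionVars false

open NumberField IsDedekindDomain
open scoped nonZeroDivisors Pointwise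

namespace Fermat.Agent.S14.DFrob

section
variable (K L Mt : Type*) [Field K] [NumberField K] [Field L] [NumberField L]
  [Field Mt] [NumberField Mt] [Algebra K L] [Algebra L Mt] [Algebra K Mt] [IsScalarTower K L Mt]
  [IsGalois K L] [IsGalois K Mt]

theorem coe_gal_smul (g : Gal(L/K)) (x : 𝓞 L) : ((g • x : 𝓞 L) : L) = g (x : L) := rfl

/-- The restriction of `φ ∈ Gal(Mt/K)` to `L` acts on `𝓞 L` compatibly with the action of `φ`
on `𝓞 Mt`. -/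
theorem algebraMap_restrict_smul (φ : Gal(Mt/K)) (x : 𝓞 L) :
    algebraMap (𝓞 L) (𝓞 Mt) (AlgEquiv.restrictNormalHom L φ • x) =
      φ • algebraMap (𝓞 L) (𝓞 Mt) x := by
  apply RingOfIntegers.ext
  have h1 : ((algebraMap (𝓞 L) (𝓞 Mt) (AlgEquiv.restrictNormalHom L φ • x) : 𝓞 Mt) : Mt) =
      algebraMap L Mt ((AlgEquiv.restrictNormalHom L φ • x : 𝓞 L) : L) := rfl
  have h3 : ((φ • algebraMap (𝓞 L) (𝓞 Mt) x : 𝓞 Mt) : Mt) = φ (algebraMap L Mt (x : L)) := rfl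
  rw [h1, coe_gal_smul, h3]
  exact AlgEquiv.restrictNormal_commutes φ L (x : L)

/-- If `φ` is a Frobenius at `ℜ`, then its restriction to `L` is a Frobenius at `ℜ ∩ 𝓞 L`
(formulated with an arbitrary exponent). -/
theorem restrict_frob (φ : Gal(Mt/K)) (ℜ : Ideal (𝓞 Mt)) (n : ℕ)
    (hφ : ∀ x : 𝓞 Mt, φ • x - x ^ n ∈ ℜ) (x : 𝓞 L) :
    AlgEquiv.restrictNormalHom L φ • x - x ^ n ∈ ℜ.under (𝓞 L) := by
  rw [Ideal.under_def, Ideal.mem_comap, map_sub, map_pow, algebraMap_restrict_smul]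
  exact hφ _

/-- In an extension unramified at `𝔮`, two Frobenius elements at the same prime `𝔔` above `𝔮`
agree. -/
theorem frob_unique (𝔮 : Ideal (𝓞 K)) [𝔮.IsPrime] (𝔔 : Ideal (𝓞 L)) [𝔔.IsPrime]
    (h𝔔 : 𝔔.under (𝓞 K) = 𝔮) (hunr : 𝔮.ramificationIdxIn (𝓞 L) = 1) (n : ℕ) (g g' : Gal(L/K))
    (hg : ∀ x : 𝓞 L, g • x - x ^ n ∈ 𝔔) (hg' : ∀ x : 𝓞 L, g' • x - x ^ n ∈ 𝔔) : g = g' := by
  have hmem : g * g'⁻¹ ∈ 𝔔.inertia Gal(L/K) := by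
    intro x
    have := sub_mem (hg (g'⁻¹ • x)) (hg' (g'⁻¹ • x))
    simpa [mul_smul] using this
  have : 𝔔.LiesOver 𝔮 := ⟨h𝔔.symm⟩
  have hcard := Ideal.card_inertia_eq_ramificationIdxIn (G := Gal(L/K)) 𝔮 𝔔
  rw [hunr] at hcard
  have hbot : 𝔔.inertia Gal(L/K) = ⊥ := Subgroup.card_eq_one.mp hcard
  rw [hbot, Subgroup.mem_bot] at hmem
  exact mul_inv_eq_one.mp hmem

/-- Existence: a Frobenius of the big extension `Mt / K` at some prime `ℜ` above a given prime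
`𝔔` of `L`. -/
theorem exists_frob_above (𝔮 : HeightOneSpectrum (𝓞 K)) (𝔔 : Ideal (𝓞 L)) [𝔔.IsPrime]
    (h𝔔 : 𝔔.under (𝓞 K) = 𝔮.asIdeal) :
    ∃ (φ : Gal(Mt/K)) (ℜ : Ideal (𝓞 Mt)), ℜ.IsPrime ∧ ℜ.under (𝓞 L) = 𝔔 ∧
      ℜ.under (𝓞 K) = 𝔮.asIdeal ∧
      (∀ x : 𝓞 Mt, φ • x - x ^ Ideal.absNorm 𝔮.asIdeal ∈ ℜ) := by
  have h𝔔ne : 𝔔 ≠ ⊥ := by
    rintro rfl
    apply 𝔮.ne_bot
    rw [← h𝔔]
    exact Ideal.under_bot (𝓞 K) (𝓞 L)
  have h𝔔max : 𝔔.IsMaximal := Ring.DimensionLEOne.maximalOfPrime h𝔔ne inferInstance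
  obtain ⟨ℜ, hℜmax, hℜover⟩ :=
    Ideal.exists_maximal_ideal_liesOver_of_isIntegral (S := 𝓞 Mt) 𝔔
  have hℜL : ℜ.under (𝓞 L) = 𝔔 := hℜover.over.symm
  have hℜK : ℜ.under (𝓞 K) = 𝔮.asIdeal := by
    rw [← h𝔔, ← hℜL, Ideal.under_under]
  have hℜne : ℜ ≠ ⊥ := by
    rintro rfl
    apply h𝔔ne
    rw [← hℜL]
    exact Ideal.under_bot (𝓞 L) (𝓞 Mt)
  have : Finite (𝓞 Mt ⧸ ℜ) := Ideal.finiteQuotientOfFreeOfNeBot ℜ hℜne
  have : ℜ.IsPrime := hℜmax.isPrime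
  obtain ⟨φ, hφ⟩ := IsArithFrobAt.exists_of_isInvariant (𝓞 K) Gal(Mt/K) ℜ
  refine ⟨φ, ℜ, hℜmax.isPrime, hℜL, hℜK, fun x => ?_⟩
  have h := hφ x
  rw [hℜK] at h
  rw [Ideal.absNorm_apply, Submodule.cardQuot_apply]
  exact h

end

section RootsOfUnity

variable (K Mt : Type*) [Field K] [NumberField K] [Field Mt] [NumberField Mt] [Algebra K Mt]
  [IsGalois K Mt]

/-- A Frobenius `φ` at a prime `ℜ` above `𝔮` raises every root of unity of order prime to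
`N(𝔮)` to the power `N(𝔮)`. -/
theorem apply_rootOfUnity (𝔮 : HeightOneSpectrum (𝓞 K)) (φ : Gal(Mt/K)) (ℜ : Ideal (𝓞 Mt))
    [ℜ.IsPrime] (hℜK : ℜ.under (𝓞 K) = 𝔮.asIdeal)
    (hφ : ∀ x : 𝓞 Mt, φ • x - x ^ Ideal.absNorm 𝔮.asIdeal ∈ ℜ)
    (m : ℕ) (ζ : Mt) (hζ : ζ ^ m = 1) (hm : Nat.Coprime m (Ideal.absNorm 𝔮.asIdeal)) :
    φ ζ = ζ ^ Ideal.absNorm 𝔮.asIdeal := by
  have hN1 : Ideal.absNorm 𝔮.asIdeal ≠ 1 := by
    rw [Ne, Ideal.absNorm_eq_one_iff]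
    exact 𝔮.isPrime.ne_top
  have hm0 : m ≠ 0 := by
    rintro rfl
    rw [Nat.coprime_zero_left] at hm
    exact hN1 hm
  -- `ζ` is an algebraic integer
  have hint : IsIntegral ℤ ζ := by
    refine ⟨Polynomial.X ^ m - 1, Polynomial.monic_X_pow_sub_C (1 : ℤ) hm0, ?_⟩
    simp [hζ]
  let z : 𝓞 Mt := ⟨ζ, hint⟩
  have hz : z ^ m = 1 := by
    apply RingOfIntegers.ext
    rw [RingOfIntegers.coe_eq_algebraMap, map_pow, RingOfIntegers.coe_eq_algebraMap, map_one]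
    exact hζ
  -- `m ∉ ℜ`
  have hNmem : ((Ideal.absNorm 𝔮.asIdeal : ℕ) : 𝓞 Mt) ∈ ℜ := by
    have h1 : ((Ideal.absNorm 𝔮.asIdeal : ℕ) : 𝓞 K) ∈ 𝔮.asIdeal := Ideal.absNorm_mem 𝔮.asIdeal
    have h2 : ((Ideal.absNorm 𝔮.asIdeal : ℕ) : 𝓞 K) ∈ ℜ.under (𝓞 K) := by
      rw [hℜK]; exact h1
    rw [Ideal.under_def, Ideal.mem_comap, map_natCast] at h2
    exact h2
  have hmnot : (m : 𝓞 Mt) ∉ ℜ := by
    intro hmem
    have hone : ((1 : ℤ) : 𝓞 Mt) ∈ ℜ := by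
      have hg : (Nat.gcd m (Ideal.absNorm 𝔮.asIdeal) : ℤ) = 1 := by exact_mod_cast hm
      rw [← hg, Nat.gcd_eq_gcd_ab]
      push_cast
      exact ℜ.add_mem (ℜ.mul_mem_right _ hmem) (ℜ.mul_mem_right _ hNmem)
    apply (inferInstance : ℜ.IsPrime).ne_top
    rw [Ideal.eq_top_iff_one]
    simpa using hone
  -- apply Mathlib
  have hFrob : IsArithFrobAt (𝓞 K) φ ℜ := by
    intro x
    have h := hφ x
    rw [hℜK, ← Submodule.cardQuot_apply, ← Ideal.absNorm_apply]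
    exact h
  have key := AlgHom.IsArithFrobAt.apply_of_pow_eq_one hFrob hz hmnot
  rw [hℜK, ← Submodule.cardQuot_apply, ← Ideal.absNorm_apply] at key
  have h5 := congrArg (algebraMap (𝓞 Mt) Mt) key
  rw [map_pow] at h5
  exact h5

end RootsOfUnity

section Main

variable (K L Mt : Type*) [Field K] [NumberField K] [Field L] [NumberField L]
  [Field Mt] [NumberField Mt] [Algebra K L] [Algebra L Mt] [Algebra K Mt] [IsScalarTower K L Mt]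
  [IsGalois K L] [IsGalois K Mt]

/-- **D-FROB, precise form.**  Let `g ∈ Gal(L/K)` be a Frobenius at the prime `𝔔` of `𝓞 L` above
the prime `𝔮` of `𝓞 K`, with `𝔮` unramified in `L`.  Then there are a prime `ℜ` of `𝓞 Mt` above
`𝔔` and `φ ∈ Gal(Mt/K)`, a Frobenius at `ℜ`, with `φ|_L = g` and `φ ζ = ζ ^ N(𝔮)` for all roots of
unity `ζ ∈ Mt` of order prime to `N(𝔮)`. -/
theorem exists_frob_lift_above (𝔮 : HeightOneSpectrum (𝓞 K))
    (hunr : 𝔮.asIdeal.ramificationIdxIn (𝓞 L) = 1) (𝔔 : Ideal (𝓞 L)) [𝔔.IsPrime]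
    (h𝔔 : 𝔔.under (𝓞 K) = 𝔮.asIdeal) (g : Gal(L/K))
    (hg : ∀ x : 𝓞 L, g • x - x ^ Ideal.absNorm 𝔮.asIdeal ∈ 𝔔) :
    ∃ (φ : Gal(Mt/K)) (ℜ : Ideal (𝓞 Mt)), ℜ.IsPrime ∧ ℜ.under (𝓞 L) = 𝔔 ∧
      ℜ.under (𝓞 K) = 𝔮.asIdeal ∧
      (∀ x : 𝓞 Mt, φ • x - x ^ Ideal.absNorm 𝔮.asIdeal ∈ ℜ) ∧
      AlgEquiv.restrictNormalHom L φ = g ∧
      ∀ (m : ℕ) (ζ : Mt), ζ ^ m = 1 → Nat.Coprime m (Ideal.absNorm 𝔮.asIdeal) →
        φ ζ = ζ ^ Ideal.absNorm 𝔮.asIdeal := by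
  obtain ⟨φ, ℜ, hℜp, hℜL, hℜK, hφ⟩ := exists_frob_above K L Mt 𝔮 𝔔 h𝔔
  refine ⟨φ, ℜ, hℜp, hℜL, hℜK, hφ, ?_, fun m ζ hζ hm => ?_⟩
  · have hres : ∀ x : 𝓞 L,
        AlgEquiv.restrictNormalHom L φ • x - x ^ Ideal.absNorm 𝔮.asIdeal ∈ 𝔔 := by
      intro x
      have := restrict_frob K L Mt φ ℜ _ hφ x
      rwa [hℜL] at this
    exact frob_unique K L 𝔮.asIdeal 𝔔 h𝔔 hunr _ _ _ hres hg
  · exact apply_rootOfUnity K Mt 𝔮 φ ℜ hℜK hφ m ζ hζ hm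

/-- **D-FROB, interface form** (D-LEAD item 3).  If `IsFrobAt K L 𝔮 g`, `𝔮` is unramified in `L`
and `N(𝔮) = q` is a prime different from the prime `r`, then there is `φ ∈ Gal(Mt/K)` with
`IsFrobAt K Mt 𝔮 φ` (at a prime `ℜ` which we also return), `φ|_L = g`, and `φ ζ = ζ ^ q` for every
`ζ ∈ Mt` with `ζ ^ r = 1`. -/
theorem exists_frob_lift (𝔮 : HeightOneSpectrum (𝓞 K))
    (hunr : 𝔮.asIdeal.ramificationIdxIn (𝓞 L) = 1) (g : Gal(L/K)) (hg : IsFrobAt K L 𝔮 g)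
    (q r : ℕ) (hq : q.Prime) (hr : r.Prime) (hqr : q ≠ r)
    (hN : Ideal.absNorm 𝔮.asIdeal = q) :
    ∃ (φ : Gal(Mt/K)) (ℜ : Ideal (𝓞 Mt)), ℜ.IsPrime ∧ ℜ.under (𝓞 K) = 𝔮.asIdeal ∧
      (∀ x : 𝓞 Mt, φ • x - x ^ q ∈ ℜ) ∧ IsFrobAt K Mt 𝔮 φ ∧
      AlgEquiv.restrictNormalHom L φ = g ∧
      ∀ ζ : Mt, ζ ^ r = 1 → φ ζ = ζ ^ q := by
  obtain ⟨𝔔, h𝔔p, h𝔔, hg'⟩ := hg
  obtain ⟨φ, ℜ, hℜp, -, hℜK, hφ, hres, hroot⟩ :=
    exists_frob_lift_above K L Mt 𝔮 hunr 𝔔 h𝔔 g hg'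
  refine ⟨φ, ℜ, hℜp, hℜK, ?_, ⟨ℜ, hℜp, hℜK, hφ⟩, hres, fun ζ hζ => ?_⟩
  · rw [← hN]; exact hφ
  · rw [← hN]
    refine hroot r ζ hζ ?_
    rw [hN]
    exact (Nat.coprime_primes hr hq).mpr (Ne.symm hqr)

end Main

section Fixed

variable (K F Mt : Type*) [Field K] [NumberField K] [Field F] [NumberField F]
  [Field Mt] [NumberField Mt] [Algebra K F] [Algebra F Mt] [Algebra K Mt] [IsScalarTower K F Mt]
  [IsGalois K Mt]

/-- A finite field in which every element satisfies `y ^ q = y` (`2 ≤ q`) has at most `q`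
elements. -/
theorem card_le_of_forall_pow_eq (k : Type*) [Field k] [Finite k] (q : ℕ) (hq : 1 < q)
    (h : ∀ y : k, y ^ q = y) : Nat.card k ≤ q := by
  classical
  have := Fintype.ofFinite k
  rw [Nat.card_eq_fintype_card, ← Finset.card_univ]
  have hdeg : (Polynomial.X ^ q - Polynomial.X : Polynomial k).natDegree = q :=
    FiniteField.X_pow_card_sub_X_natDegree_eq k hq
  have hne : (Polynomial.X ^ q - Polynomial.X : Polynomial k) ≠ 0 :=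
    FiniteField.X_pow_card_sub_X_ne_zero k hq
  have hsub : (Finset.univ : Finset k).val ⊆ (Polynomial.X ^ q - Polynomial.X : Polynomial k).roots := by
    intro y _
    rw [Polynomial.mem_roots hne]
    simp [h y]
  calc (Finset.univ : Finset k).card ≤ (Polynomial.X ^ q - Polynomial.X : Polynomial k).natDegree :=
        Polynomial.card_le_degree_of_subset_roots hsub
    _ = q := hdeg

/-- If the Frobenius `φ` at `ℜ` (over the prime `𝔮` of `K`) fixes the intermediate field `F`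
pointwise, then the prime `ℜ ∩ 𝓞 F` of `F` has the same absolute norm as `𝔮`. -/
theorem absNorm_under_of_fixed (𝔮 : HeightOneSpectrum (𝓞 K)) (φ : Gal(Mt/K))
    (ℜ : Ideal (𝓞 Mt)) [ℜ.IsPrime] (hℜK : ℜ.under (𝓞 K) = 𝔮.asIdeal)
    (hφ : ∀ x : 𝓞 Mt, φ • x - x ^ Ideal.absNorm 𝔮.asIdeal ∈ ℜ)
    (hfix : ∀ x : F, φ (algebraMap F Mt x) = algebraMap F Mt x) :
    Ideal.absNorm (ℜ.under (𝓞 F)) = Ideal.absNorm 𝔮.asIdeal := by
  set 𝔓 : Ideal (𝓞 F) := ℜ.under (𝓞 F) with h𝔓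
  have h𝔓K : 𝔓.under (𝓞 K) = 𝔮.asIdeal := by
    rw [h𝔓, Ideal.under_under, hℜK]
  have h𝔓ne : 𝔓 ≠ ⊥ := by
    intro h0
    apply 𝔮.ne_bot
    rw [← h𝔓K, h0]
    exact Ideal.under_bot (𝓞 K) (𝓞 F)
  have h𝔓p : 𝔓.IsPrime := by rw [h𝔓]; infer_instance
  have h𝔓max : 𝔓.IsMaximal := Ring.DimensionLEOne.maximalOfPrime h𝔓ne h𝔓p
  let _ : Field (𝓞 F ⧸ 𝔓) := Ideal.Quotient.field 𝔓
  have hfin : Finite (𝓞 F ⧸ 𝔓) := Ideal.finiteQuotientOfFreeOfNeBot 𝔓 h𝔓ne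
  have hN1 : 1 < Ideal.absNorm 𝔮.asIdeal := by
    have h0 : Ideal.absNorm 𝔮.asIdeal ≠ 0 := by
      rw [Ne, Ideal.absNorm_eq_zero_iff]; exact 𝔮.ne_bot
    have h1 : Ideal.absNorm 𝔮.asIdeal ≠ 1 := by
      rw [Ne, Ideal.absNorm_eq_one_iff]; exact 𝔮.isPrime.ne_top
    omega
  -- every element of `𝓞 F` satisfies `x ^ q ≡ x mod 𝔓`
  have hpow : ∀ y : 𝓞 F ⧸ 𝔓, y ^ Ideal.absNorm 𝔮.asIdeal = y := by
    intro y
    obtain ⟨x, rfl⟩ := Ideal.Quotient.mk_surjective y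
    rw [← map_pow, Ideal.Quotient.eq, h𝔓, Ideal.under_def, Ideal.mem_comap, map_sub, map_pow]
    have hx : φ • algebraMap (𝓞 F) (𝓞 Mt) x = algebraMap (𝓞 F) (𝓞 Mt) x := by
      apply RingOfIntegers.ext
      exact hfix (x : F)
    have := hφ (algebraMap (𝓞 F) (𝓞 Mt) x)
    rw [hx] at this
    have h2 := ℜ.neg_mem this
    rwa [neg_sub] at h2
  have hle : Nat.card (𝓞 F ⧸ 𝔓) ≤ Ideal.absNorm 𝔮.asIdeal :=
    card_le_of_forall_pow_eq _ _ hN1 hpow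
  have hge : Ideal.absNorm 𝔮.asIdeal ≤ Nat.card (𝓞 F ⧸ 𝔓) := by
    have hinj : Function.Injective (algebraMap (𝓞 K ⧸ 𝔓.under (𝓞 K)) (𝓞 F ⧸ 𝔓)) :=
      Ideal.algebraMap_quotient_injective
    have := Nat.card_le_card_of_injective _ hinj
    rwa [h𝔓K, ← Submodule.cardQuot_apply, ← Ideal.absNorm_apply] at this
  rw [Ideal.absNorm_apply, Submodule.cardQuot_apply]
  exact le_antisymm hle hge

end Fixed

end Fermat.Agent.S14.DFrob
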