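import Mathlib
import Fermat.Agent.S14.D.Iface
import Fermat.Agent.S14.D.Frob

/-!
# P-CFT (S14), module D-FROB: the two frozen interfaces `IfaceDFrob` and `IfaceDFix`

* `Fermat.Agent.S14.D.ifaceDFrob : IfaceDFrob`
* `Fermat.Agent.S14.D.ifaceDFix  : IfaceDFix`
-/

set_option autoImplicit false
set_option linter.unusedSectionVars false

open NumberField IsDedekindDomain
open scoped nonZeroDivisors Pointwise

namespace Fermat.Agent.S14.D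

/-- If `g ζ = ζ ^ q` for the chosen primitive `r`-th root of unity, then the cyclotomic
character of `g` is `q mod r`. -/
theorem DFrob_kap_eq (K L : Type) [Field K] [Field L] [Algebra K L] [Normal K L]
    (r : ℕ) [NeZero r] (Mt : Type) [Field Mt] [Algebra K Mt] [Algebra L Mt] [IsScalarTower K L Mt]
    [IsCyclotomicExtension {r} L Mt] (φ : Gal(Mt/K)) (q : ℕ)
    (h : φ (zet L r Mt) = zet L r Mt ^ q) :
    ((kap K L r Mt φ : (ZMod r)ˣ) : ZMod r) = (q : ZMod r) := by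
  have hspec := IsPrimitiveRoot.autToPow_spec K (zet_spec L r Mt) φ
  have h1 : zet L r Mt ^ ((kap K L r Mt φ : (ZMod r)ˣ) : ZMod r).val = zet L r Mt ^ q := by
    rw [← h]
    exact hspec
  have hz : zet L r Mt ≠ 0 := (zet_spec L r Mt).ne_zero (NeZero.ne r)
  set a : ℕ := ((kap K L r Mt φ : (ZMod r)ˣ) : ZMod r).val with ha
  have h2 : zet L r Mt ^ ((a : ℤ) - (q : ℤ)) = 1 := by
    rw [zpow_sub₀ hz, zpow_natCast, zpow_natCast, h1, div_self (pow_ne_zero _ hz)]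
  have h3 : (r : ℤ) ∣ (a : ℤ) - (q : ℤ) := ((zet_spec L r Mt).zpow_eq_one_iff_dvd _).mp h2
  have h4 : (((q : ℤ) : ZMod r)) = (((a : ℤ)) : ZMod r) :=
    (ZMod.intCast_eq_intCast_iff_dvd_sub (q : ℤ) (a : ℤ) r).mpr h3
  have h5 : ((a : ℕ) : ZMod r) = (q : ZMod r) := by
    have := h4.symm
    push_cast at this
    exact this
  rwa [ha, ZMod.natCast_zmod_val] at h5

/-- **D-FROB 1.** -/
theorem ifaceDFrob : IfaceDFrob := by
  intro K L _ _ _ _ _ _ r _ Mt _ _ _ _ _ _ _ hr hunr 𝔮 q g hq hqr hN hg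
  obtain ⟨φ, ℜ, hℜp, hℜK, hφ, -, hres, hroot⟩ :=
    DFrob.exists_frob_lift K L Mt 𝔮 (hunr 𝔮) g hg q r hq hr hqr hN
  refine ⟨φ, ℜ, hℜp, hℜK, hφ, hres, ?_⟩
  exact DFrob_kap_eq K L r Mt φ q (hroot _ (zet_spec L r Mt).pow_eq_one)

/-- **D-FROB 2.** -/
theorem ifaceDFix : IfaceDFix := by
  intro K E Mt _ _ _ _ _ _ _ φ ℜ q hq hℜp hqℜ hφ hfix
  set 𝔓 : Ideal (𝓞 E) := ℜ.under (𝓞 E) with h𝔓
  have hq𝔓 : (q : 𝓞 E) ∈ 𝔓 := by
    rw [h𝔓, Ideal.under_def, Ideal.mem_comap, map_natCast]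
    exact hqℜ
  have h𝔓ne : 𝔓 ≠ ⊥ := by
    intro h0
    rw [h0, Ideal.mem_bot] at hq𝔓
    exact hq.ne_zero (by exact_mod_cast hq𝔓)
  have h𝔓p : 𝔓.IsPrime := by rw [h𝔓]; infer_instance
  have h𝔓max : 𝔓.IsMaximal := Ring.DimensionLEOne.maximalOfPrime h𝔓ne h𝔓p
  let _ : Field (𝓞 E ⧸ 𝔓) := Ideal.Quotient.field 𝔓
  have hfin : Finite (𝓞 E ⧸ 𝔓) := Ideal.finiteQuotientOfFreeOfNeBot 𝔓 h𝔓ne
  -- every element of `𝓞 E` satisfies `x ^ q ≡ x mod 𝔓`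
  have hpow : ∀ y : 𝓞 E ⧸ 𝔓, y ^ q = y := by
    intro y
    obtain ⟨x, rfl⟩ := Ideal.Quotient.mk_surjective y
    rw [← map_pow, Ideal.Quotient.eq, h𝔓, Ideal.under_def, Ideal.mem_comap, map_sub, map_pow]
    have hx : φ • algebraMap (𝓞 E) (𝓞 Mt) x = algebraMap (𝓞 E) (𝓞 Mt) x := by
      apply RingOfIntegers.ext
      exact hfix (x : E)
    have := hφ (algebraMap (𝓞 E) (𝓞 Mt) x)
    rw [hx] at this
    have h2 := ℜ.neg_mem this
    rwa [neg_sub] at h2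
  have hle : Nat.card (𝓞 E ⧸ 𝔓) ≤ q :=
    DFrob.card_le_of_forall_pow_eq _ _ hq.one_lt hpow
  -- the residue field has characteristic `q`
  have hchar : CharP (𝓞 E ⧸ 𝔓) q := by
    have h0 : ((q : ℕ) : 𝓞 E ⧸ 𝔓) = 0 := by
      rw [← map_natCast (Ideal.Quotient.mk 𝔓), Ideal.Quotient.eq_zero_iff_mem]
      exact hq𝔓
    exact (CharP.charP_iff_prime_eq_zero hq).mpr h0
  have hge : q ≤ Nat.card (𝓞 E ⧸ 𝔓) := by
    have := Fintype.ofFinite (𝓞 E ⧸ 𝔓)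
    obtain ⟨n, hn⟩ := FiniteField.card (𝓞 E ⧸ 𝔓) q
    rw [Nat.card_eq_fintype_card, hn.2]
    calc q = q ^ 1 := (pow_one q).symm
      _ ≤ q ^ (n : ℕ) := Nat.pow_le_pow_right hq.pos n.pos
  rw [Ideal.absNorm_apply, Submodule.cardQuot_apply]
  exact le_antisymm hle hge

end Fermat.Agent.S14.D
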