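import Mathlib

/-!
# P-CFT, module D-GAL (part 1): irreducibility of `Φ_r` over a number field unramified at `r`

If `𝔯` is a prime ideal of the integrally closed domain `R` with `r ∈ 𝔯`, `r ∉ 𝔯 ^ 2`
(`r` a prime number), then `Φ_r(X + 1)` is Eisenstein at `𝔯`, so the cyclotomic polynomial `Φ_r` is
irreducible over the fraction field of `R`.
-/

set_option autoImplicit false

open Polynomial

namespace Fermat.Agent.S14

/-- Irreducibility can be checked after the substitution `X ↦ X + t`. -/
theorem DGAL_irreducible_of_comp_X_add_C {F : Type*} [CommRing F] (t : F) {f : F[X]}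
    (h : Irreducible (f.comp (X + C t))) : Irreducible f := by
  have h' : Irreducible ((algEquivAevalXAddC t) f) := by
    have e : (algEquivAevalXAddC t) f = f.comp (X + C t) := by
      simp [algEquivAevalXAddC, aeval_def, eval₂_eq_eval_map, comp]
    rw [e]; exact h
  exact (MulEquiv.irreducible_iff (algEquivAevalXAddC t : F[X] ≃* F[X])).1 h'

/-- `Φ_r(X + 1)` over an integral domain `R` is Eisenstein at a prime ideal `𝔯` containing the
prime number `r` but with `r ∉ 𝔯 ^ 2`. -/
theorem DGAL_isEisensteinAt {R : Type*} [CommRing R] (r : ℕ) [hr : Fact r.Prime]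
    (𝔯 : Ideal R) (h𝔯 : 𝔯 ≠ ⊤) (h1 : (r : R) ∈ 𝔯) (h2 : (r : R) ∉ 𝔯 ^ 2) :
    ((cyclotomic r R).comp (X + 1)).IsEisensteinAt 𝔯 := by
  have hZ := cyclotomic_comp_X_add_one_isEisensteinAt r
  have hmonZ : ((cyclotomic r ℤ).comp (X + 1)).Monic := by
    rw [show (X + 1 : ℤ[X]) = X + C 1 by simp]
    refine (cyclotomic.monic r ℤ).comp (monic_X_add_C 1) fun h => ?_
    rw [natDegree_X_add_C] at h
    exact zero_ne_one h.symm
  have hmap : ((cyclotomic r ℤ).comp (X + 1)).map (Int.castRingHom R) =
      (cyclotomic r R).comp (X + 1) := by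
    rw [Polynomial.map_comp, map_cyclotomic]
    simp
  have hmon : ((cyclotomic r R).comp (X + 1)).Monic := by
    rw [← hmap]; exact hmonZ.map _
  have hdeg : ((cyclotomic r R).comp (X + 1)).natDegree =
      ((cyclotomic r ℤ).comp (X + 1)).natDegree := by
    by_cases hR : Nontrivial R
    · rw [← hmap, hmonZ.natDegree_map]
    · exfalso
      rw [not_nontrivial_iff_subsingleton] at hR
      exact h𝔯 (Subsingleton.elim _ _)
  have hcoeff : ∀ n, ((cyclotomic r R).comp (X + 1)).coeff n =
      (((cyclotomic r ℤ).comp (X + 1)).coeff n : R) := by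
    intro n
    rw [← hmap, coeff_map]; simp
  refine Monic.isEisensteinAt_of_mem_of_notMem hmon h𝔯 (fun {n} hn => ?_) ?_
  · rw [hdeg] at hn
    have := hZ.mem hn
    rw [Ideal.submodule_span_eq, Ideal.mem_span_singleton] at this
    obtain ⟨c, hc⟩ := this
    rw [hcoeff, hc]
    push_cast
    exact Ideal.mul_mem_right _ _ h1
  · rw [hcoeff]
    have h0 : ((cyclotomic r ℤ).comp (X + 1)).coeff 0 = (r : ℤ) := by
      rw [coeff_zero_eq_eval_zero, eval_comp, cyclotomic_prime, eval_add, eval_X, eval_one,
        zero_add, eval_geom_sum, one_geom_sum]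
    rw [h0]
    simpa using h2

/-- **D-GAL, part 1.** Let `R` be an integrally closed domain with fraction field `L` and `𝔯` a
prime ideal of `R` with `r ∈ 𝔯`, `r ∉ 𝔯 ^ 2`.  Then `Φ_r` is irreducible over `L`. -/
theorem DGAL_cyclotomic_irreducible_of_prime {R L : Type*} [CommRing R] [IsDomain R]
    [IsIntegrallyClosed R] [Field L] [Algebra R L] [IsFractionRing R L]
    (r : ℕ) [hr : Fact r.Prime] (𝔯 : Ideal R) (hp : 𝔯.IsPrime) (h1 : (r : R) ∈ 𝔯)
    (h2 : (r : R) ∉ 𝔯 ^ 2) : Irreducible (cyclotomic r L) := by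
  have hE := DGAL_isEisensteinAt r 𝔯 hp.ne_top h1 h2
  have hmon : ((cyclotomic r R).comp (X + 1)).Monic := by
    rw [show (X + 1 : R[X]) = X + C 1 by simp]
    refine (cyclotomic.monic r R).comp (monic_X_add_C 1) fun h => ?_
    rw [natDegree_X_add_C] at h
    exact zero_ne_one h.symm
  have hdeg : 0 < ((cyclotomic r R).comp (X + 1)).natDegree := by
    rw [show (X + 1 : R[X]) = X + C 1 by simp, natDegree_comp, natDegree_X_add_C, mul_one,
      natDegree_cyclotomic, Nat.totient_prime hr.out]
    have := hr.out.two_le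
    omega
  have hirr : Irreducible ((cyclotomic r R).comp (X + 1)) :=
    hE.irreducible hp hmon.isPrimitive hdeg
  have hirrL := (Monic.irreducible_iff_irreducible_map_fraction_map (K := L) hmon).1 hirr
  rw [Polynomial.map_comp, map_cyclotomic] at hirrL
  apply DGAL_irreducible_of_comp_X_add_C (1 : L)
  simpa using hirrL

end Fermat.Agent.S14
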