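import Mathlib
import Fermat.Agent.S14.Iface
import Fermat.Agent.S14.D.GalIrr

/-!
# P-CFT, module D-GAL (part 2): a prime `r ≠ p` is unramified in an everywhere unramified
extension `L` of `ℚ(ζ_p)`; hence `Φ_r` is irreducible over `L`.
-/

set_option autoImplicit false

open Polynomial NumberField Ideal

namespace Fermat.Agent.S14

/-- In an everywhere unramified Galois extension `L` of `K = ℚ(ζ_p)`, every prime `𝔯` of `𝓞 L`
above a rational prime `r ≠ p` has ramification index one over `ℤ`. -/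
theorem DGAL_ramificationIdx_eq_one (p : ℕ) (hp : p.Prime) (K L : Type*) [Field K]
    [NumberField K] [Field L] [NumberField L] [Algebra K L] [IsGalois K L]
    [IsCyclotomicExtension {p} ℚ K] (hunr : UnramifiedEverywhere K L)
    (r : ℕ) [hr : Fact r.Prime] (hrp : r ≠ p) (𝔯 : Ideal (𝓞 L)) [h𝔯 : 𝔯.IsPrime]
    [h𝔯r : 𝔯.LiesOver (span {(r : ℤ)})] : 𝔯.ramificationIdx ℤ = 1 := by
  have : NeZero p := ⟨hp.ne_zero⟩
  have hr0 : (span {(r : ℤ)}) ≠ ⊥ := by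
    simp [hr.out.ne_zero]
  have h𝔯0 : 𝔯 ≠ ⊥ := by
    intro h
    have := h𝔯r.over
    rw [h] at this
    apply hr0
    rw [this]
    exact Ideal.under_bot (A := ℤ) (B := 𝓞 L)
  -- the prime of `K` below
  let 𝔮 : Ideal (𝓞 K) := 𝔯.under (𝓞 K)
  have h𝔮 : 𝔮.IsPrime := inferInstance
  have h𝔯𝔮 : 𝔯.LiesOver 𝔮 := ⟨rfl⟩
  have h𝔮r : 𝔮.LiesOver (span {(r : ℤ)}) := LiesOver.tower_bot 𝔯 𝔮 (span {(r : ℤ)})
  have h𝔮0 : 𝔮 ≠ ⊥ := by
    intro h
    have := h𝔮r.over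
    rw [h] at this
    apply hr0
    rw [this]
    exact Ideal.under_bot (A := ℤ) (B := 𝓞 K)
  have e1 : 𝔮.ramificationIdx ℤ = 1 :=
    IsCyclotomicExtension.Rat.ramificationIdx_eq_of_not_dvd r K 𝔮
      (fun h => hrp ((Nat.prime_dvd_prime_iff_eq hr.out hp).1 h))
  have e2 : 𝔯.ramificationIdx (𝓞 K) = 1 := by
    have := hunr ⟨𝔮, h𝔮, h𝔮0⟩
    rwa [ramificationIdxIn_eq_ramificationIdx 𝔮 𝔯 Gal(L/K)] at this
  rw [ramificationIdx_tower (R := ℤ) 𝔮 𝔯, e1, e2]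

/-- In an everywhere unramified Galois extension `L` of `K = ℚ(ζ_p)`, every rational prime
`r ≠ p` has a prime `𝔯` of `𝓞 L` above it with `r ∉ 𝔯 ^ 2`. -/
theorem DGAL_exists_prime_sq (p : ℕ) (hp : p.Prime) (K L : Type*) [Field K]
    [NumberField K] [Field L] [NumberField L] [Algebra K L] [IsGalois K L]
    [IsCyclotomicExtension {p} ℚ K] (hunr : UnramifiedEverywhere K L)
    (r : ℕ) [hr : Fact r.Prime] (hrp : r ≠ p) :
    ∃ 𝔯 : Ideal (𝓞 L), 𝔯.IsPrime ∧ (r : 𝓞 L) ∈ 𝔯 ∧ (r : 𝓞 L) ∉ 𝔯 ^ 2 := by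
  have hr0 : (span {(r : ℤ)}) ≠ ⊥ := by
    simp [hr.out.ne_zero]
  have : (span {(r : ℤ)}).IsPrime :=
    (Ideal.span_singleton_prime (by exact_mod_cast hr.out.ne_zero)).2
      (Nat.prime_iff_prime_int.1 hr.out)
  obtain ⟨⟨𝔯, h𝔯, h𝔯r⟩⟩ := (span {(r : ℤ)}).nonempty_primesOver (S := 𝓞 L)
  have he := DGAL_ramificationIdx_eq_one p hp K L hunr r hrp 𝔯
  rw [← ramificationIdx'_eq_ramificationIdx (span {(r : ℤ)}) 𝔯 hr0] at he
  have hmem : (r : 𝓞 L) ∈ 𝔯 := by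
    have : ((r : ℤ) : 𝓞 L) ∈ 𝔯 := by
      have h1 : (r : ℤ) ∈ 𝔯.under ℤ := by
        rw [← h𝔯r.over]; exact Ideal.mem_span_singleton_self _
      exact h1
    simpa using this
  have hle : map (algebraMap ℤ (𝓞 L)) (span {(r : ℤ)}) ≤ 𝔯 := by
    rw [Ideal.map_span, Set.image_singleton, Ideal.span_singleton_le_iff_mem]
    simpa using hmem
  refine ⟨𝔯, h𝔯, hmem, fun h2 => ?_⟩
  have := (ramificationIdx'_ne_one_iff hle).2 (by
    rw [Ideal.map_span, Set.image_singleton, Ideal.span_singleton_le_iff_mem]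
    simpa using h2)
  exact this he

/-- **D-GAL, irreducibility.** In an everywhere unramified Galois extension `L` of
`K = ℚ(ζ_p)`, the cyclotomic polynomial `Φ_r` is irreducible for every prime `r ≠ p`. -/
theorem DGAL_cyclotomic_irreducible (p : ℕ) (hp : p.Prime) (K L : Type*) [Field K]
    [NumberField K] [Field L] [NumberField L] [Algebra K L] [IsGalois K L]
    [IsCyclotomicExtension {p} ℚ K] (hunr : UnramifiedEverywhere K L)
    (r : ℕ) [hr : Fact r.Prime] (hrp : r ≠ p) : Irreducible (cyclotomic r L) := by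
  obtain ⟨𝔯, h𝔯, h1, h2⟩ := DGAL_exists_prime_sq p hp K L hunr r hrp
  exact DGAL_cyclotomic_irreducible_of_prime (R := 𝓞 L) r 𝔯 h𝔯 h1 h2

end Fermat.Agent.S14
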