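import Mathlib
import Fermat.Agent.S14.Iface
import Fermat.Agent.S14.D.GalUnram

/-!
# P-CFT, module D-GAL: the Galois group of `L(ζ_r) / K`

For a tower `K ⊆ L ⊆ M` with `L / K` finite Galois and `M = L(ζ_r)` (`r` prime) such that `Φ_r` is
irreducible over `L`:

* `DGAL_finrank`   : `[M : L] = r - 1`;
* `DGAL_isGalois`  : `M / K` is Galois;
* `DGAL_bijective` : `g ↦ (g|_L, κ g)` is a bijection `Gal(M/K) → Gal(L/K) × (ZMod r)ˣ`, where
  `κ = hζ.autToPow K` is the cyclotomic character (`g ζ = ζ ^ κ g`);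
* `DGAL_mulEquiv`  : the same as a `MulEquiv`;
* `DGAL_exists`    : every pair `(g₀, u)` is realised by a unique `g`.

`DGAL_cyclotomic_irreducible` (file `GalUnram`) provides the irreducibility hypothesis in the
situation of the Artin crossing.
-/

set_option autoImplicit false

open Polynomial

namespace Fermat.Agent.S14

section Tower

variable {K L M : Type*} [Field K] [Field L] [Field M] [Algebra K L] [Algebra L M] [Algebra K M]
  [IsScalarTower K L M]

/-- `[L(ζ_r) : L] = r - 1` when `Φ_r` is irreducible over `L`. -/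
theorem DGAL_finrank (r : ℕ) [hr : Fact r.Prime] [IsCyclotomicExtension {r} L M]
    (hirr : Irreducible (cyclotomic r L)) : Module.finrank L M = r - 1 := by
  have : NeZero r := ⟨hr.out.ne_zero⟩
  rw [IsCyclotomicExtension.finrank M hirr, Nat.totient_prime hr.out]

/-- `L(ζ_r) / K` is normal when `L / K` is finite and normal. -/
theorem DGAL_normal (r : ℕ) [NeZero r] [FiniteDimensional K L] [Normal K L]
    [IsCyclotomicExtension {r} L M] : Normal K M := by
  obtain ⟨f, hf⟩ := Normal.exists_isSplittingField K L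
  -- we may assume `f ≠ 0`
  obtain ⟨f', hf'0, hf'⟩ : ∃ f' : K[X], f' ≠ 0 ∧ IsSplittingField K L f' := by
    by_cases h0 : f = 0
    · refine ⟨1, one_ne_zero, ⟨?_, ?_⟩⟩
      · rw [Polynomial.map_one]; exact Splits.one
      · have := hf.adjoin_rootSet
        rw [h0, rootSet_zero] at this
        rw [rootSet_one]; exact this
    · exact ⟨f, h0, hf⟩
  have hg0 : (X ^ r - 1 : K[X]) ≠ 0 := by
    have := X_pow_sub_C_ne_zero (NeZero.pos r) (1 : K)
    simpa using this
  have : IsSplittingField L M ((X ^ r - 1 : K[X]).map (algebraMap K L)) := by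
    have := IsCyclotomicExtension.isSplittingField_X_pow_sub_one r L M
    simpa using this
  have := IsSplittingField.mul (F := K) (K := L) (L := M) f' (X ^ r - 1) hf'0 hg0
  exact Normal.of_isSplittingField (F := K) (E := M) (f' * (X ^ r - 1))

/-- `L(ζ_r) / K` is Galois when `L / K` is finite Galois. -/
theorem DGAL_isGalois (r : ℕ) [NeZero r] [FiniteDimensional K L] [IsGalois K L]
    [IsCyclotomicExtension {r} L M] : IsGalois K M := by
  have : IsGalois L M := IsCyclotomicExtension.isGalois {r} L M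
  have : Normal K M := DGAL_normal (K := K) (L := L) (M := M) r
  have : Algebra.IsSeparable K M := Algebra.IsSeparable.trans K L M
  exact ⟨⟩

/-- `L(ζ_r) / K` is finite-dimensional. -/
theorem DGAL_finiteDimensional (r : ℕ) [NeZero r] [FiniteDimensional K L]
    [IsCyclotomicExtension {r} L M] : FiniteDimensional K M := by
  have : FiniteDimensional L M := IsCyclotomicExtension.finiteDimensional {r} L M
  exact FiniteDimensional.trans K L M

/-- The map `g ↦ (g|_L, κ g)` from `Gal(L(ζ_r)/K)` to `Gal(L/K) × (ZMod r)ˣ`. -/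
noncomputable def DGAL_hom (r : ℕ) [NeZero r] [Normal K L] {ζ : M}
    (hζ : IsPrimitiveRoot ζ r) : Gal(M/K) →* Gal(L/K) × (ZMod r)ˣ :=
  (AlgEquiv.restrictNormalHom (F := K) (K₁ := M) L).prod (hζ.autToPow K)

@[simp]
theorem DGAL_hom_apply (r : ℕ) [NeZero r] [Normal K L] {ζ : M}
    (hζ : IsPrimitiveRoot ζ r) (g : Gal(M/K)) :
    DGAL_hom (L := L) r hζ g = (AlgEquiv.restrictNormalHom L g, hζ.autToPow K g) := rfl

/-- An element of `Gal(L(ζ_r)/K)` is determined by its restriction to `L` and its value of the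
cyclotomic character. -/
theorem DGAL_hom_injective (r : ℕ) [NeZero r] [Normal K L]
    [IsCyclotomicExtension {r} L M] {ζ : M} (hζ : IsPrimitiveRoot ζ r) :
    Function.Injective (DGAL_hom (K := K) (L := L) r hζ) := by
  rw [injective_iff_map_eq_one]
  intro g hg
  rw [DGAL_hom_apply, Prod.mk_eq_one] at hg
  obtain ⟨hres, hκ⟩ := hg
  -- `g` fixes `L` pointwise
  have hL : ∀ x : L, g (algebraMap L M x) = algebraMap L M x := by
    intro x
    have := AlgEquiv.restrictNormal_commutes g L x
    rw [← this]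
    have h1 : g.restrictNormal L = 1 := hres
    rw [h1]; rfl
  -- `g` fixes `ζ`
  have hζg : g ζ = ζ := by
    have := hζ.autToPow_spec K g
    rw [hκ] at this
    rw [← this]
    have h1 : ((1 : (ZMod r)ˣ) : ZMod r).val = 1 % r := by
      rw [Units.val_one, ZMod.val_one_eq_one_mod]
    rw [h1]
    rcases Nat.lt_or_ge 1 r with h | h
    · rw [Nat.mod_eq_of_lt h, pow_one]
    · have hr1 : r = 1 := le_antisymm h (NeZero.pos r)
      subst hr1
      have : ζ = 1 := by simpa using hζ.pow_eq_one
      simp [this]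
  -- view `g` as an `L`-automorphism
  let g' : M ≃ₐ[L] M := { g.toRingEquiv with commutes' := hL }
  have hg' : hζ.autToPow L g' = 1 := by
    apply Units.ext
    apply ZMod.val_injective
    have h1 := hζ.autToPow_spec L g'
    have h2 : g' ζ = ζ := hζg
    rw [h2] at h1
    have h3 : ((1 : (ZMod r)ˣ) : ZMod r).val = 1 % r := by
      rw [Units.val_one, ZMod.val_one_eq_one_mod]
    rw [h3]
    rcases Nat.lt_or_ge 1 r with h | h
    · rw [Nat.mod_eq_of_lt h]
      have h4 : ζ ^ ((hζ.autToPow L g' : (ZMod r)ˣ) : ZMod r).val = ζ ^ 1 := by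
        rw [h1, pow_one]
      exact hζ.pow_inj (ZMod.val_lt _) h h4
    · have hr1 : r = 1 := le_antisymm h (NeZero.pos r)
      subst hr1
      rw [Nat.mod_self]
      exact Nat.lt_one_iff.mp (ZMod.val_lt _)
  have hg'1 : g' = 1 := hζ.autToPow_injective L (by rw [hg', map_one])
  ext x
  have : g' x = x := by rw [hg'1]; rfl
  exact this

/-- **D-GAL.** `g ↦ (g|_L, κ g)` is a bijection `Gal(L(ζ_r)/K) → Gal(L/K) × (ZMod r)ˣ` when
`Φ_r` is irreducible over `L`. -/
theorem DGAL_hom_bijective (r : ℕ) [hr : Fact r.Prime] [FiniteDimensional K L] [IsGalois K L]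
    [IsCyclotomicExtension {r} L M] (hirr : Irreducible (cyclotomic r L)) {ζ : M}
    (hζ : IsPrimitiveRoot ζ r) :
    haveI : NeZero r := ⟨hr.out.ne_zero⟩
    Function.Bijective (DGAL_hom (K := K) (L := L) r hζ) := by
  have : NeZero r := ⟨hr.out.ne_zero⟩
  have : FiniteDimensional K M := DGAL_finiteDimensional (K := K) (L := L) (M := M) r
  have : IsGalois K M := DGAL_isGalois (K := K) (L := L) (M := M) r
  refine Function.Injective.bijective_of_nat_card_le (DGAL_hom_injective r hζ) ?_
  rw [Nat.card_prod, IsGalois.card_aut_eq_finrank, IsGalois.card_aut_eq_finrank,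
    ← Module.finrank_mul_finrank K L M, DGAL_finrank r hirr, Nat.card_eq_fintype_card,
    ZMod.card_units]

/-- **D-GAL**, as a group isomorphism. -/
noncomputable def DGAL_mulEquiv (r : ℕ) [hr : Fact r.Prime] [FiniteDimensional K L]
    [IsGalois K L] [IsCyclotomicExtension {r} L M] (hirr : Irreducible (cyclotomic r L))
    {ζ : M} (hζ : IsPrimitiveRoot ζ r) : Gal(M/K) ≃* Gal(L/K) × (ZMod r)ˣ :=
  haveI : NeZero r := ⟨hr.out.ne_zero⟩
  MulEquiv.ofBijective (DGAL_hom (K := K) (L := L) r hζ) (DGAL_hom_bijective r hirr hζ)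

/-- **D-GAL**, existence form: every pair `(g₀, u)` is realised. -/
theorem DGAL_exists (r : ℕ) [hr : Fact r.Prime] [FiniteDimensional K L] [IsGalois K L]
    [IsCyclotomicExtension {r} L M] (hirr : Irreducible (cyclotomic r L)) {ζ : M}
    (hζ : IsPrimitiveRoot ζ r) (g₀ : Gal(L/K)) (u : (ZMod r)ˣ) :
    haveI : NeZero r := ⟨hr.out.ne_zero⟩
    ∃ g : Gal(M/K), AlgEquiv.restrictNormalHom L g = g₀ ∧ hζ.autToPow K g = u := by
  have : NeZero r := ⟨hr.out.ne_zero⟩
  obtain ⟨g, hg⟩ := (DGAL_hom_bijective (K := K) (L := L) r hirr hζ).2 (g₀, u)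
  rw [DGAL_hom_apply, Prod.mk.injEq] at hg
  exact ⟨g, hg.1, hg.2⟩

/-- `Gal(L(ζ_r)/K)` is commutative when `Gal(L/K)` is. -/
theorem DGAL_comm (r : ℕ) [NeZero r] [Normal K L] [IsCyclotomicExtension {r} L M]
    (hcomm : ∀ a b : Gal(L/K), a * b = b * a) (g h : Gal(M/K)) : g * h = h * g := by
  obtain ⟨ζ, hζ⟩ := IsCyclotomicExtension.exists_isPrimitiveRoot L M (Set.mem_singleton r)
    (NeZero.ne r)
  apply DGAL_hom_injective (K := K) (L := L) r hζ
  rw [map_mul, map_mul]
  exact Prod.ext (hcomm _ _) (mul_comm _ _)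

end Tower

end Fermat.Agent.S14
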