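import Mathlib
import Fermat.Agent.S14.Iface
import Fermat.Agent.S14.D.Defs
import Fermat.Agent.S14.D.Iface
import Fermat.Agent.S14.D.Gal

/-!
# P-CFT, module D-GAL: the interfaces `IfaceDGalois`, `IfaceDDeg` and the existence of
automorphisms of `L(ζ_r) / K` with prescribed restriction and cyclotomic character
-/

set_option autoImplicit false

open Polynomial NumberField

namespace Fermat.Agent.S14

/-- **(D-GAL 1)** `L(ζ_r)` is Galois over `K`. -/
theorem ifaceDGalois : D.IfaceDGalois := by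
  intro K L _ _ _ _ _ _ r _ Mt _ _ _ _ _ _
  exact DGAL_isGalois (K := K) (L := L) (M := Mt) r

/-- `rk γ = (res γ, [kap γ])`. -/
theorem DGAL_rk_apply (p : ℕ) (K L : Type) [Field K] [Field L] [Algebra K L] [Normal K L]
    (r : ℕ) [NeZero r] (Mt : Type) [Field Mt] [Algebra K Mt] [Algebra L Mt]
    [IsScalarTower K L Mt] [IsCyclotomicExtension {r} L Mt] (γ : Gal(Mt/K)) :
    D.rk p K L r Mt γ =
      (D.res K L Mt γ, ((D.kap K L r Mt γ : (ZMod r)ˣ) : (ZMod r)ˣ ⧸ D.Pr p r)) := rfl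

/-- The class of a `p`-th power is trivial in `(ZMod r)ˣ ⧸ Pr`. -/
theorem DGAL_mk_pow_eq_one (p r : ℕ) (a : (ZMod r)ˣ) :
    ((a : (ZMod r)ˣ ⧸ D.Pr p r)) ^ p = 1 := by
  rw [← QuotientGroup.mk_pow, QuotientGroup.eq_one_iff]
  exact ⟨a, rfl⟩

/-- **(D-GAL 2)** `M / F` is Galois of degree `p`. -/
theorem ifaceDDeg : D.IfaceDDeg := by
  intro p K L _ _ _ _ _ _ r _ Mt _ _ _ _ _ _ _ s a hp hdeg hs hγ
  obtain ⟨γ, hγs, hγa⟩ := hγ
  have : Fact p.Prime := ⟨hp⟩
  have hMM : D.MM p K L r Mt s a =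
      IntermediateField.fixedField (D.GamMF p K L r Mt s a) := rfl
  have hFF : D.FF p K L r Mt s a = IntermediateField.fixedField (D.GamF p K L r Mt s a) := rfl
  have hnorm : (D.GamMF p K L r Mt s a).Normal := by
    unfold D.GamMF D.GamM
    infer_instance
  refine ⟨?_, ?_⟩
  · rw [hMM]; infer_instance
  · rw [IntermediateField.finrank_eq_fixingSubgroup_index, hMM,
      IntermediateField.fixingSubgroup_fixedField]
    -- the index of `GamMF`
    let ι : Gal(Mt/(D.FF p K L r Mt s a)) →* Gal(Mt/K) :=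
      MonoidHom.mk' (fun h : Gal(Mt/(D.FF p K L r Mt s a)) => h.restrictScalars K)
        (fun _ _ => rfl)
    have h1 : D.GamMF p K L r Mt s a = ((D.rk p K L r Mt).comp ι).ker := by
      unfold D.GamMF D.GamM
      rw [MonoidHom.comap_ker]
    have hrkγ : D.rk p K L r Mt γ = (s, ((a : (ZMod r)ˣ) : (ZMod r)ˣ ⧸ D.Pr p r)) := by
      rw [DGAL_rk_apply, hγs, hγa]
    have hfix : IntermediateField.fixingSubgroup (D.FF p K L r Mt s a) =
        D.GamF p K L r Mt s a := by
      rw [hFF, IntermediateField.fixingSubgroup_fixedField]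
    have h2 : ((D.rk p K L r Mt).comp ι).range =
        Subgroup.zpowers ((s, ((a : (ZMod r)ˣ) : (ZMod r)ˣ ⧸ D.Pr p r)) :
          Gal(L/K) × ((ZMod r)ˣ ⧸ D.Pr p r)) := by
      ext x
      constructor
      · rintro ⟨h, rfl⟩
        have hmem : ι h ∈ D.GamF p K L r Mt s a := by
          rw [← hfix, IntermediateField.mem_fixingSubgroup_iff]
          intro y hy
          exact h.commutes ⟨y, hy⟩
        exact hmem
      · rintro ⟨j, rfl⟩
        have hmem : γ ^ j ∈ D.GamF p K L r Mt s a := by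
          change D.rk p K L r Mt (γ ^ j) ∈ Subgroup.zpowers _
          rw [map_zpow, hrkγ]
          exact ⟨j, rfl⟩
        rw [← hfix] at hmem
        refine ⟨IntermediateField.fixingSubgroupEquiv (D.FF p K L r Mt s a) ⟨γ ^ j, hmem⟩, ?_⟩
        have hι : ι (IntermediateField.fixingSubgroupEquiv (D.FF p K L r Mt s a)
            ⟨γ ^ j, hmem⟩) = γ ^ j := by
          ext y; rfl
        rw [MonoidHom.comp_apply, hι, map_zpow, hrkγ]
    rw [h1]
    have h3 := Subgroup.index_ker (G := Gal(Mt/(D.FF p K L r Mt s a)))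
      (G' := Gal(L/K) × ((ZMod r)ˣ ⧸ D.Pr p r)) ((D.rk p K L r Mt).comp ι)
    rw [h2, Nat.card_zpowers] at h3
    refine h3.trans ?_
    apply orderOf_eq_prime
    · have hsp : s ^ p = 1 := by
        have hcard : Nat.card Gal(L/K) = p := by
          rw [IsGalois.card_aut_eq_finrank, hdeg]
        rw [← hcard]
        exact pow_card_eq_one'
      have e : ((s, ((a : (ZMod r)ˣ) : (ZMod r)ˣ ⧸ D.Pr p r)) :
          Gal(L/K) × ((ZMod r)ˣ ⧸ D.Pr p r)) ^ p =
          (s ^ p, ((a : (ZMod r)ˣ) : (ZMod r)ˣ ⧸ D.Pr p r) ^ p) := rfl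
      rw [e, hsp, DGAL_mk_pow_eq_one]
      rfl
    · intro h
      exact hs (congrArg Prod.fst h)

/-- **(D-GAL 3)** in the situation of the Artin crossing (`K = ℚ(ζ_p)`, `L / K` everywhere
unramified, `r ≠ p` prime), every pair `(s, a)` is `(res γ, kap γ)` for some `γ`. -/
theorem DGAL_exists_res_kap (p : ℕ) (hp : p.Prime) (K L : Type) [Field K] [NumberField K]
    [Field L] [NumberField L] [Algebra K L] [IsGalois K L] [IsCyclotomicExtension {p} ℚ K]
    (hunr : UnramifiedEverywhere K L) (r : ℕ) [NeZero r] (hr : r.Prime) (hrp : r ≠ p)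
    (Mt : Type) [Field Mt] [Algebra K Mt] [Algebra L Mt] [IsScalarTower K L Mt]
    [IsCyclotomicExtension {r} L Mt] (s : Gal(L/K)) (a : (ZMod r)ˣ) :
    ∃ γ : Gal(Mt/K), D.res K L Mt γ = s ∧ D.kap K L r Mt γ = a := by
  have : Fact r.Prime := ⟨hr⟩
  have hirr := DGAL_cyclotomic_irreducible p hp K L hunr r hrp
  exact DGAL_exists (K := K) (L := L) (M := Mt) r hirr (D.zet_spec L r Mt) s a

/-- In the situation of the Artin crossing, `γ ↦ (res γ, kap γ)` is injective. -/
theorem DGAL_res_kap_injective (K L : Type) [Field K] [Field L] [Algebra K L] [Normal K L]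
    (r : ℕ) [NeZero r] (Mt : Type) [Field Mt] [Algebra K Mt] [Algebra L Mt]
    [IsScalarTower K L Mt] [IsCyclotomicExtension {r} L Mt] {γ γ' : Gal(Mt/K)}
    (h1 : D.res K L Mt γ = D.res K L Mt γ') (h2 : D.kap K L r Mt γ = D.kap K L r Mt γ') :
    γ = γ' :=
  DGAL_hom_injective (K := K) (L := L) (M := Mt) r (D.zet_spec L r Mt) (Prod.ext h1 h2)

/-- `Gal(L(ζ_r)/K)` is commutative when `[L : K]` is prime. -/
theorem DGAL_comm_of_prime (p : ℕ) (hp : p.Prime) (K L : Type) [Field K] [Field L]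
    [Algebra K L] [FiniteDimensional K L] [IsGalois K L] (hdeg : Module.finrank K L = p)
    (r : ℕ) [NeZero r] (Mt : Type) [Field Mt] [Algebra K Mt] [Algebra L Mt]
    [IsScalarTower K L Mt] [IsCyclotomicExtension {r} L Mt] (g h : Gal(Mt/K)) :
    g * h = h * g := by
  have : Fact p.Prime := ⟨hp⟩
  have hcard : Nat.card Gal(L/K) = p := by
    rw [IsGalois.card_aut_eq_finrank, hdeg]
  have : IsCyclic Gal(L/K) := isCyclic_of_prime_card hcard
  exact DGAL_comm (K := K) (L := L) (M := Mt) r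
    (fun a b => IsCyclic.commGroup.mul_comm a b) g h

end Fermat.Agent.S14
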