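import Mathlib
import Fermat.Agent.S14.D.Iface

/-!
# Pillar P-CFT (S14), part (D): the relative norm on class groups

`h60_ifaceDNormHom : IfaceDNormHom` : the relative norm induces a homomorphism of class groups.
-/

set_option autoImplicit false

open NumberField IsDedekindDomain
open scoped nonZeroDivisors Pointwise

namespace Fermat.Agent.S14.D

section

variable (K F : Type) [Field K] [NumberField K] [Field F] [NumberField F] [Algebra K F]

/-- the relative norm of a nonzero ideal, as a nonzero ideal -/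
noncomputable def h60_relNormNZ (I : (Ideal (𝓞 F))⁰) : (Ideal (𝓞 K))⁰ :=
  ⟨Ideal.relNorm (𝓞 K) (I : Ideal (𝓞 F)), by
    apply mem_nonZeroDivisors_of_ne_zero
    rw [Ne, Ideal.zero_eq_bot, Ideal.relNorm_eq_bot_iff]
    exact nonZeroDivisors.coe_ne_zero I⟩

theorem h60_relNormNZ_mul (I J : (Ideal (𝓞 F))⁰) :
    h60_relNormNZ K F (I * J) = h60_relNormNZ K F I * h60_relNormNZ K F J := by
  apply Subtype.ext
  simp [h60_relNormNZ, map_mul]

/-- the class of the relative norm depends only on the class -/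
theorem h60_mk0_relNormNZ_congr {I J : (Ideal (𝓞 F))⁰}
    (h : ClassGroup.mk0 I = ClassGroup.mk0 J) :
    ClassGroup.mk0 (h60_relNormNZ K F I) = ClassGroup.mk0 (h60_relNormNZ K F J) := by
  rw [ClassGroup.mk0_eq_mk0_iff] at h ⊢
  obtain ⟨x, y, hx, hy, hxy⟩ := h
  refine ⟨Algebra.intNorm (𝓞 K) (𝓞 F) x, Algebra.intNorm (𝓞 K) (𝓞 F) y,
    Algebra.intNorm_ne_zero.mpr hx, Algebra.intNorm_ne_zero.mpr hy, ?_⟩
  have h2 := congrArg (Ideal.relNorm (𝓞 K)) hxy
  rw [map_mul, map_mul, Ideal.relNorm_singleton, Ideal.relNorm_singleton] at h2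
  exact h2

/-- the norm map on class groups, as a function -/
noncomputable def h60_normFun (c : ClassGroup (𝓞 F)) : ClassGroup (𝓞 K) :=
  ClassGroup.mk0 (h60_relNormNZ K F (Classical.choose (ClassGroup.mk0_surjective c)))

theorem h60_normFun_mk0 (I : (Ideal (𝓞 F))⁰) :
    h60_normFun K F (ClassGroup.mk0 I) = ClassGroup.mk0 (h60_relNormNZ K F I) := by
  unfold h60_normFun
  apply h60_mk0_relNormNZ_congr
  exact Classical.choose_spec (ClassGroup.mk0_surjective (ClassGroup.mk0 I))

theorem h60_normFun_mul (c d : ClassGroup (𝓞 F)) :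
    h60_normFun K F (c * d) = h60_normFun K F c * h60_normFun K F d := by
  obtain ⟨I, rfl⟩ := ClassGroup.mk0_surjective c
  obtain ⟨J, rfl⟩ := ClassGroup.mk0_surjective d
  rw [← map_mul, h60_normFun_mk0, h60_normFun_mk0, h60_normFun_mk0, h60_relNormNZ_mul, map_mul]

end

theorem h60_ifaceDNormHom : IfaceDNormHom := by
  intro K F _ _ _ _ _
  refine ⟨MonoidHom.mk' (h60_normFun K F) (h60_normFun_mul K F), fun I J hJ => ?_⟩
  rw [MonoidHom.mk'_apply, h60_normFun_mk0]
  congr 1
  apply Subtype.ext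
  rw [hJ]
  rfl

end Fermat.Agent.S14.D
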