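import Mathlib
import Fermat.Agent.S14.D.Iface

/-!
# Pillar P-CFT (S14), part (D): the relative norm of a prime of relative degree one

`h60_ifaceDRelNormPrime : IfaceDRelNormPrime` : the relative norm of a prime with the same
absolute norm as the prime below is the prime below.
-/

set_option autoImplicit false

open NumberField IsDedekindDomain
open scoped nonZeroDivisors Pointwise

namespace Fermat.Agent.S14.D

theorem h60_ifaceDRelNormPrime : IfaceDRelNormPrime := by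
  intro K F _ _ _ _ _ 𝔓 h𝔓 h𝔓ne hN
  have := h𝔓
  have hp : (𝔓.under (𝓞 K)).IsPrime := Ideal.IsPrime.under (𝓞 K) 𝔓
  obtain ⟨s, hs⟩ := Ideal.exists_relNorm_eq_pow_of_isPrime 𝔓 (𝔓.under (𝓞 K))
  have h1 : Ideal.absNorm (Ideal.relNorm (𝓞 K) 𝔓) = Ideal.absNorm 𝔓 :=
    Ideal.absNorm_relNorm (𝓞 K) (𝓞 F) 𝔓
  rw [hs, map_pow, hN] at h1
  have hne0 : Ideal.absNorm 𝔓 ≠ 0 := by
    rw [Ne, Ideal.absNorm_eq_zero_iff]
    exact h𝔓ne
  have hne1 : Ideal.absNorm (𝔓.under (𝓞 K)) ≠ 1 := by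
    rw [Ne, Ideal.absNorm_eq_one_iff]
    exact hp.ne_top
  have h2 : 2 ≤ Ideal.absNorm (𝔓.under (𝓞 K)) := by
    rw [hN] at hne0
    omega
  have hs1 : s = 1 := by
    have h3 : Ideal.absNorm (𝔓.under (𝓞 K)) ^ s = Ideal.absNorm (𝔓.under (𝓞 K)) ^ 1 := by
      rw [h1, pow_one]
    exact Nat.pow_right_injective h2 h3
  rw [hs, hs1, pow_one]

end Fermat.Agent.S14.D
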