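import Mathlib
import Fermat.Agent.S14.Iface

/-!
# P-CFT, module D-NU, part 2: norms of integers of `F` are `p`-th powers modulo `r`

Let `K ⊆ F` be number fields with `K / ℚ` and `F / K` Galois, `[F : K] = p`, and let `r` be a
prime number such that at every prime `𝔯` of `F` above `r`

* the whole group `Gal(F/K)` acts trivially on `𝓞 F ⧸ 𝔯` (total ramification), and
* every element of `𝓞 F` is congruent to a rational integer modulo `𝔯` (residue degree one).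

Then the norm `N_{F/ℚ} β` of every `β ∈ 𝓞 F` is congruent to a `p`-th power modulo `r`.
-/

set_option autoImplicit false

open NumberField
open scoped Pointwise

namespace Fermat.Agent.S14

/-- A product of elements all congruent to `b` is congruent to a power of `b`. -/
theorem DNU_prod_congr {R ι : Type*} [CommRing R] [Fintype ι] (I : Ideal R) (f : ι → R) (b : R)
    (h : ∀ i, f i - b ∈ I) : ∏ i, f i - b ^ Fintype.card ι ∈ I := by
  rw [← Ideal.Quotient.eq, map_prod, map_pow]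
  have : ∀ i, Ideal.Quotient.mk I (f i) = Ideal.Quotient.mk I b := fun i =>
    Ideal.Quotient.eq.mpr (h i)
  simp [this]

/-- A product of elements congruent to `p`-th powers of integers is congruent to the `p`-th power
of an integer. -/
theorem DNU_prod_pow_congr {R ι : Type*} [CommRing R] [Fintype ι] (I : Ideal R) (f : ι → R)
    (p : ℕ) (h : ∀ i, ∃ n : ℤ, f i - (n : R) ^ p ∈ I) :
    ∃ m : ℤ, ∏ i, f i - (m : R) ^ p ∈ I := by
  choose n hn using h
  refine ⟨∏ i, n i, ?_⟩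
  rw [← Ideal.Quotient.eq, map_prod]
  push_cast
  rw [map_pow, map_prod, ← Finset.prod_pow]
  refine Finset.prod_congr rfl fun i _ => ?_
  have := Ideal.Quotient.eq.mpr (hn i)
  rw [map_pow] at this
  exact this

section NumberField

variable (K F : Type*) [Field K] [NumberField K] [Field F] [NumberField F] [Algebra K F]

/-- The relative norm of an integer as a product over the Galois group. -/
theorem DNU_algebraMap_norm [IsGalois K F] (β : 𝓞 F) :
    algebraMap (𝓞 K) (𝓞 F) (RingOfIntegers.norm K β) = ∏ h : Gal(F/K), h • β := by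
  apply RingOfIntegers.ext
  have h1 : ((algebraMap (𝓞 K) (𝓞 F) (RingOfIntegers.norm K β) : 𝓞 F) : F) =
      algebraMap K F ((RingOfIntegers.norm K β : 𝓞 K) : K) := rfl
  rw [h1, RingOfIntegers.coe_norm, Algebra.norm_eq_prod_automorphisms]
  rw [show ((∏ h : Gal(F/K), h • β : 𝓞 F) : F) = ∏ h : Gal(F/K), ((h • β : 𝓞 F) : F) from
    map_prod (algebraMap (𝓞 F) F) _ _]
  rfl

/-- The absolute norm of an integer as a product over the Galois group. -/
theorem DNU_intCast_norm [IsGalois ℚ K] (γ : 𝓞 K) :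
    ((Algebra.norm ℤ γ : ℤ) : 𝓞 K) = ∏ τ : Gal(K/ℚ), τ • γ := by
  apply RingOfIntegers.ext
  have h1 : (((Algebra.norm ℤ γ : ℤ) : 𝓞 K) : K) = algebraMap ℚ K ((Algebra.norm ℤ γ : ℤ) : ℚ) := by
    simp
  rw [h1, Algebra.coe_norm_int, Algebra.norm_eq_prod_automorphisms]
  rw [show ((∏ τ : Gal(K/ℚ), τ • γ : 𝓞 K) : K) = ∏ τ : Gal(K/ℚ), ((τ • γ : 𝓞 K) : K) from
    map_prod (algebraMap (𝓞 K) K) _ _]
  rfl

/-- Transitivity of the norm, for integers. -/
theorem DNU_norm_norm (β : 𝓞 F) :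
    Algebra.norm ℤ (RingOfIntegers.norm K β) = Algebra.norm ℤ β := by
  have h : ((Algebra.norm ℤ (RingOfIntegers.norm K β) : ℤ) : ℚ) = ((Algebra.norm ℤ β : ℤ) : ℚ) := by
    rw [Algebra.coe_norm_int, Algebra.coe_norm_int, RingOfIntegers.coe_norm, Algebra.norm_norm]
  exact_mod_cast h

end NumberField

end Fermat.Agent.S14

namespace Fermat.Agent.S14

section Main

variable (K F : Type*) [Field K] [NumberField K] [Field F] [NumberField F] [Algebra K F]

/-- An integer whose image lies in a proper ideal containing the prime `r` is divisible by `r`. -/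
theorem DNU_dvd_of_mem {R : Type*} [CommRing R] (I : Ideal R) (hI : I ≠ ⊤) {r : ℕ} (hr : r.Prime)
    (hrI : (r : R) ∈ I) {k : ℤ} (hk : (k : R) ∈ I) : (r : ℤ) ∣ k := by
  by_contra hnd
  have hcop : IsCoprime (r : ℤ) k :=
    (Prime.coprime_iff_not_dvd (Nat.prime_iff_prime_int.mp hr)).mpr hnd
  obtain ⟨u, v, huv⟩ := hcop
  have h1 : (1 : R) ∈ I := by
    have h2 := congrArg (Int.cast : ℤ → R) huv
    push_cast at h2
    rw [← h2]
    exact I.add_mem (I.mul_mem_left _ hrI) (I.mul_mem_left _ hk)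
  exact hI ((Ideal.eq_top_iff_one _).mpr h1)

theorem DNU_smul_intCast {G R : Type*} [Group G] [CommRing R] [MulSemiringAction G R] (g : G)
    (n : ℤ) : g • (n : R) = (n : R) :=
  map_intCast (MulSemiringAction.toRingHom G R g) n

theorem DNU_smul_natCast {G R : Type*} [Group G] [CommRing R] [MulSemiringAction G R] (g : G)
    (n : ℕ) : g • (n : R) = (n : R) :=
  map_natCast (MulSemiringAction.toRingHom G R g) n

/-- **(ν2)**: the norm of every integer of `F` is a `p`-th power modulo `r`. -/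
theorem DNU_principal [IsGalois K F] [IsGalois ℚ K] (r p : ℕ) (hr : r.Prime)
    (hcard : Nat.card Gal(F/K) = p)
    (hin : ∀ 𝔯 : Ideal (𝓞 F), 𝔯.IsPrime → (r : 𝓞 F) ∈ 𝔯 →
      ∀ (h : Gal(F/K)) (x : 𝓞 F), h • x - x ∈ 𝔯)
    (hdeg : ∀ 𝔯 : Ideal (𝓞 F), 𝔯.IsPrime → (r : 𝓞 F) ∈ 𝔯 →
      ∀ x : 𝓞 F, ∃ n : ℤ, x - (n : 𝓞 F) ∈ 𝔯)
    (β : 𝓞 F) : ∃ m : ℤ, (r : ℤ) ∣ Algebra.norm ℤ β - m ^ p := by
  classical
  set γ : 𝓞 K := RingOfIntegers.norm K β with hγ
  have hcard' : Fintype.card Gal(F/K) = p := by rw [← hcard, Nat.card_eq_fintype_card]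
  -- Step A: modulo every prime of `K` above `r`, `γ` is a `p`-th power of an integer.
  have hA : ∀ 𝔯K : Ideal (𝓞 K), 𝔯K.IsPrime → (r : 𝓞 K) ∈ 𝔯K →
      ∃ n : ℤ, γ - (n : 𝓞 K) ^ p ∈ 𝔯K := by
    intro 𝔯K h𝔯K hr𝔯K
    obtain ⟨𝔯F, -, h𝔯F, hcomap⟩ :=
      Ideal.exists_ideal_over_prime_of_isIntegral 𝔯K (⊥ : Ideal (𝓞 F)) (by
        rw [Ideal.comap_bot_of_injective _ (FaithfulSMul.algebraMap_injective (𝓞 K) (𝓞 F))]
        exact bot_le)
    have hrF : (r : 𝓞 F) ∈ 𝔯F := by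
      have h1 : algebraMap (𝓞 K) (𝓞 F) (r : 𝓞 K) ∈ 𝔯F := by
        rw [← Ideal.mem_comap, hcomap]
        exact hr𝔯K
      simpa using h1
    obtain ⟨n, hn⟩ := hdeg 𝔯F h𝔯F hrF β
    refine ⟨n, ?_⟩
    rw [← hcomap, Ideal.mem_comap, map_sub, map_pow, map_intCast, hγ, DNU_algebraMap_norm]
    have h1 := DNU_prod_congr 𝔯F (fun h : Gal(F/K) => h • β) β (fun h => hin 𝔯F h𝔯F hrF h β)
    rw [hcard'] at h1
    have h2 : β ^ p - (n : 𝓞 F) ^ p ∈ 𝔯F := by
      obtain ⟨c, hc⟩ := sub_dvd_pow_sub_pow β (n : 𝓞 F) p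
      rw [hc]
      exact 𝔯F.mul_mem_right _ hn
    have h3 := 𝔯F.add_mem h1 h2
    simpa using h3
  -- Step B: a prime of `K` above `r`.
  have hrprime : (Ideal.span {(r : ℤ)}).IsPrime :=
    (Ideal.span_singleton_prime (by exact_mod_cast hr.ne_zero)).mpr (Nat.prime_iff_prime_int.mp hr)
  obtain ⟨𝔯0, -, h𝔯0, hcomap0⟩ :=
    Ideal.exists_ideal_over_prime_of_isIntegral (Ideal.span {(r : ℤ)}) (⊥ : Ideal (𝓞 K)) (by
      rw [Ideal.comap_bot_of_injective _ (FaithfulSMul.algebraMap_injective ℤ (𝓞 K))]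
      exact bot_le)
  have hr0 : (r : 𝓞 K) ∈ 𝔯0 := by
    have h1 : algebraMap ℤ (𝓞 K) (r : ℤ) ∈ 𝔯0 := by
      rw [← Ideal.mem_comap, hcomap0]
      exact Ideal.mem_span_singleton_self _
    simpa using h1
  -- Step C: every conjugate of `γ` is a `p`-th power modulo `𝔯0`.
  have hC : ∀ τ : Gal(K/ℚ), ∃ n : ℤ, τ • γ - (n : 𝓞 K) ^ p ∈ 𝔯0 := by
    intro τ
    have hmem : (r : 𝓞 K) ∈ τ⁻¹ • 𝔯0 := by
      have h1 : τ⁻¹ • (r : 𝓞 K) ∈ τ⁻¹ • 𝔯0 := Ideal.smul_mem_pointwise_smul_iff.mpr hr0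
      rwa [DNU_smul_natCast] at h1
    obtain ⟨n, hn⟩ := hA (τ⁻¹ • 𝔯0) inferInstance hmem
    refine ⟨n, ?_⟩
    have h1 : τ • (γ - (n : 𝓞 K) ^ p) ∈ 𝔯0 := by
      rw [Ideal.mem_pointwise_smul_iff_inv_smul_mem, inv_inv] at hn
      exact hn
    rwa [smul_sub, smul_pow', DNU_smul_intCast] at h1
  obtain ⟨m, hm⟩ := DNU_prod_pow_congr 𝔯0 (fun τ : Gal(K/ℚ) => τ • γ) p hC
  rw [← DNU_intCast_norm, hγ, DNU_norm_norm] at hm
  refine ⟨m, DNU_dvd_of_mem 𝔯0 h𝔯0.ne_top hr hr0 ?_⟩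
  push_cast
  exact hm

end Main

end Fermat.Agent.S14
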