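import Mathlib
import Fermat.Agent.S14.Iface

/-!
# P-CFT / D-RAM : ramification at the auxiliary prime `r`

Setting: `K ⊆ L ⊆ M = L(ζ_r)` number fields, `L / K` Galois and unramified everywhere, `K / ℚ`
unramified at `r`.

* `DRAM_inertia_eq_top` : every element of `Gal(M/L)` lies in the inertia group of every prime of
  `M` above `r` ("inertia ⊇ ker res").
* `DRAM_finrank_eq` : `[L(ζ_r) : L] = r - 1`.
* `DRAM_hin` : for `K ⊆ F ⊆ M` with `Gal(M/L) → Gal(F/K)` onto, `Gal(F/K)` acts trivially modulo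
  every prime of `F` above `r`.
* `DRAM_hdeg` : in the same situation, if the primes of `K` above `r` have residue degree one,
  every integer of `F` is congruent to a rational integer modulo every prime of `F` above `r`.
* `DRAM_hK`, `DRAM_hK1` : the hypotheses on `K` for `K = ℚ(ζ_p)`, `r ≠ p`, `r ≡ 1 mod p`.
-/

set_option autoImplicit false

open NumberField IsDedekindDomain IntermediateField
open scoped nonZeroDivisors Pointwise

namespace Fermat.Agent.S14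

/-- A prime of `𝓞 M` containing the rational prime `r` lies over `(r)`. -/
theorem DRAM_liesOver_span (r : ℕ) [hr : Fact r.Prime] (M : Type) [Field M] [NumberField M]
    (ℜ : Ideal (𝓞 M)) [ℜ.IsPrime] (hℜ : (r : 𝓞 M) ∈ ℜ) :
    ℜ.LiesOver (Ideal.span {(r : ℤ)}) := by
  constructor
  have hmax : (Ideal.span {(r : ℤ)}).IsMaximal :=
    (Int.prime_iff_natAbs_prime.mpr (by simpa using hr.out)) |>.irreducible |>
      PrincipalIdealRing.isMaximal_of_irreducible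
  have hle : Ideal.span {(r : ℤ)} ≤ ℜ.under ℤ := by
    rw [Ideal.span_singleton_le_iff_mem, Ideal.mem_comap]
    simpa using hℜ
  have hne : ℜ.under ℤ ≠ ⊤ := by
    intro h
    have h1 : (1 : ℤ) ∈ ℜ.under ℤ := h ▸ Submodule.mem_top
    rw [Ideal.under, Ideal.mem_comap, map_one] at h1
    exact (Ideal.IsPrime.ne_top ‹_›) ((Ideal.eq_top_iff_one _).mpr h1)
  exact hmax.eq_of_le hne hle

/-- If `M` contains a primitive `r`-th root of unity, `r - 1` divides the ramification index over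
`ℤ` of every prime of `M` above `r`. -/
theorem DRAM_sub_one_dvd_ramificationIdx (r : ℕ) [hr : Fact r.Prime] (M : Type) [Field M]
    [NumberField M] (ζ : M) (hζ : IsPrimitiveRoot ζ r) (ℜ : Ideal (𝓞 M)) [ℜ.IsPrime]
    (hℜ : (r : 𝓞 M) ∈ ℜ) : (r - 1) ∣ ℜ.ramificationIdx ℤ := by
  have : NeZero r := ⟨hr.out.ne_zero⟩
  let C : IntermediateField ℚ M := ℚ⟮ζ⟯
  have : IsCyclotomicExtension {r} ℚ C :=
    (isCyclotomicExtension_singleton_iff_eq_adjoin _ _ _ _ hζ).mpr rfl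
  have := DRAM_liesOver_span r M ℜ hℜ
  let q : Ideal (𝓞 C) := ℜ.under (𝓞 C)
  have : q.IsPrime := inferInstance
  have : ℜ.LiesOver q := ⟨rfl⟩
  have : q.LiesOver (Ideal.span {(r : ℤ)}) := Ideal.LiesOver.tower_bot ℜ q _
  have h1 := IsCyclotomicExtension.Rat.ramificationIdx_eq_of_prime r C q
  rw [← h1]
  exact Ideal.ramificationIdx_below_dvd q ℜ

/-- The ramification index over `ℤ` of a prime of `𝓞 L` above `r` is one, when `K / ℚ` is
unramified at `r` and `L / K` is unramified everywhere. -/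
theorem DRAM_ramificationIdx_int_eq_one (K L : Type) [Field K] [NumberField K] [Field L]
    [NumberField L] [Algebra K L] [IsGalois K L] (r : ℕ) [hr : Fact r.Prime]
    (hK : ∀ 𝔭 : Ideal (𝓞 K), 𝔭.IsPrime → (r : 𝓞 K) ∈ 𝔭 → 𝔭.ramificationIdx ℤ = 1)
    (hL : UnramifiedEverywhere K L) (𝔯 : Ideal (𝓞 L)) [𝔯.IsPrime] (h𝔯 : (r : 𝓞 L) ∈ 𝔯) :
    𝔯.ramificationIdx ℤ = 1 := by
  let 𝔭 : Ideal (𝓞 K) := 𝔯.under (𝓞 K)
  have : 𝔭.IsPrime := inferInstance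
  have : 𝔯.LiesOver 𝔭 := ⟨rfl⟩
  have hr𝔭 : (r : 𝓞 K) ∈ 𝔭 := by
    change algebraMap (𝓞 K) (𝓞 L) (r : 𝓞 K) ∈ 𝔯
    simpa using h𝔯
  have h𝔭0 : 𝔭 ≠ ⊥ := by
    intro h
    rw [h, Ideal.mem_bot] at hr𝔭
    exact hr.out.ne_zero (by exact_mod_cast hr𝔭)
  rw [Ideal.ramificationIdx_tower (R := ℤ) 𝔭 𝔯, hK 𝔭 inferInstance hr𝔭, one_mul]
  have h1 := hL ⟨𝔭, inferInstance, h𝔭0⟩
  rw [Ideal.ramificationIdxIn_eq_ramificationIdx 𝔭 𝔯 Gal(L/K)] at h1
  exact h1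

/-- `[L(ζ_r) : L] ≤ r - 1`. -/
theorem DRAM_finrank_le (L M : Type) [Field L] [Field M] [CharZero M] [Algebra L M] (r : ℕ)
    [hr : Fact r.Prime] [IsCyclotomicExtension {r} L M] :
    Module.finrank L M ≤ r - 1 := by
  have : NeZero r := ⟨hr.out.ne_zero⟩
  have hζ := IsCyclotomicExtension.zeta_spec r L M
  rw [(hζ.powerBasis L).finrank, IsPrimitiveRoot.powerBasis_dim]
  have hroot : Polynomial.aeval (IsCyclotomicExtension.zeta r L M) (Polynomial.cyclotomic r L)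
      = 0 := by
    rw [Polynomial.aeval_def, Polynomial.eval₂_eq_eval_map, Polynomial.map_cyclotomic]
    exact (Polynomial.isRoot_cyclotomic_iff).mpr hζ
  have hdvd : minpoly L (IsCyclotomicExtension.zeta r L M) ∣ Polynomial.cyclotomic r L :=
    minpoly.dvd _ _ hroot
  have := Polynomial.natDegree_le_of_dvd hdvd (Polynomial.cyclotomic_ne_zero r L)
  rwa [Polynomial.natDegree_cyclotomic, Nat.totient_prime hr.out] at this

/-- Common core of `DRAM_inertia_eq_top` and `DRAM_finrank_eq`: the inertia group in `Gal(M/L)`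
of a prime of `M = L(ζ_r)` above `r` has at least `r - 1` elements. -/
theorem DRAM_le_card_inertia (K L M : Type) [Field K] [NumberField K] [Field L] [NumberField L]
    [Field M] [NumberField M] [Algebra K L] [Algebra K M] [Algebra L M] [IsScalarTower K L M]
    [IsGalois K L] [IsGalois K M] (r : ℕ) [hr : Fact r.Prime] [IsCyclotomicExtension {r} L M]
    (hK : ∀ 𝔭 : Ideal (𝓞 K), 𝔭.IsPrime → (r : 𝓞 K) ∈ 𝔭 → 𝔭.ramificationIdx ℤ = 1)
    (hL : UnramifiedEverywhere K L) (ℜ : Ideal (𝓞 M)) [ℜ.IsPrime] (hℜ : (r : 𝓞 M) ∈ ℜ) :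
    r - 1 ≤ Nat.card (Ideal.inertia Gal(M/L) ℜ) := by
  have : NeZero r := ⟨hr.out.ne_zero⟩
  have : IsGalois L M := IsGalois.tower_top_of_isGalois K L M
  let 𝔯 : Ideal (𝓞 L) := ℜ.under (𝓞 L)
  have : 𝔯.IsPrime := inferInstance
  have : ℜ.LiesOver 𝔯 := ⟨rfl⟩
  have hr𝔯 : (r : 𝓞 L) ∈ 𝔯 := by
    change algebraMap (𝓞 L) (𝓞 M) (r : 𝓞 L) ∈ ℜ
    simpa using hℜ
  have h1 : 𝔯.ramificationIdx ℤ = 1 := DRAM_ramificationIdx_int_eq_one K L r hK hL 𝔯 hr𝔯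
  have h2 : ℜ.ramificationIdx ℤ = ℜ.ramificationIdx (𝓞 L) := by
    rw [Ideal.ramificationIdx_tower (R := ℤ) 𝔯 ℜ, h1, one_mul]
  have hζ := IsCyclotomicExtension.zeta_spec r L M
  have h3 : (r - 1) ∣ ℜ.ramificationIdx (𝓞 L) :=
    h2 ▸ DRAM_sub_one_dvd_ramificationIdx r M _ hζ ℜ hℜ
  have h4 : Nat.card (Ideal.inertia Gal(M/L) ℜ) = ℜ.ramificationIdx (𝓞 L) := by
    rw [Ideal.card_inertia_eq_ramificationIdxIn 𝔯 ℜ,
      Ideal.ramificationIdxIn_eq_ramificationIdx 𝔯 ℜ Gal(M/L)]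
  have hpos : 0 < ℜ.ramificationIdx (𝓞 L) := Ideal.ramificationIdx_pos ℜ (𝓞 L)
  rw [h4]
  exact Nat.le_of_dvd hpos h3

/-- **Ramification at `r`**: in `M = L(ζ_r)`, with `L / ℚ` unramified at `r`, every
element of `Gal(M/L)` lies in the inertia group of every prime of `M` above `r`. -/
theorem DRAM_inertia_eq_top (K L M : Type) [Field K] [NumberField K] [Field L] [NumberField L]
    [Field M] [NumberField M] [Algebra K L] [Algebra K M] [Algebra L M] [IsScalarTower K L M]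
    [IsGalois K L] [IsGalois K M] (r : ℕ) [hr : Fact r.Prime] [IsCyclotomicExtension {r} L M]
    (hK : ∀ 𝔭 : Ideal (𝓞 K), 𝔭.IsPrime → (r : 𝓞 K) ∈ 𝔭 → 𝔭.ramificationIdx ℤ = 1)
    (hL : UnramifiedEverywhere K L) (ℜ : Ideal (𝓞 M)) [ℜ.IsPrime] (hℜ : (r : 𝓞 M) ∈ ℜ) :
    Ideal.inertia Gal(M/L) ℜ = ⊤ := by
  have : IsGalois L M := IsGalois.tower_top_of_isGalois K L M
  have h5 : Nat.card Gal(M/L) ≤ r - 1 := by
    rw [IsGalois.card_aut_eq_finrank]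
    exact DRAM_finrank_le L M r
  exact Subgroup.eq_top_of_le_card _ (h5.trans (DRAM_le_card_inertia K L M r hK hL ℜ hℜ))

/-- By-product: `[L(ζ_r) : L] = r - 1` when `L / ℚ` is unramified at `r`. -/
theorem DRAM_finrank_eq (K L M : Type) [Field K] [NumberField K] [Field L] [NumberField L]
    [Field M] [NumberField M] [Algebra K L] [Algebra K M] [Algebra L M] [IsScalarTower K L M]
    [IsGalois K L] [IsGalois K M] (r : ℕ) [hr : Fact r.Prime] [IsCyclotomicExtension {r} L M]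
    (hK : ∀ 𝔭 : Ideal (𝓞 K), 𝔭.IsPrime → (r : 𝓞 K) ∈ 𝔭 → 𝔭.ramificationIdx ℤ = 1)
    (hL : UnramifiedEverywhere K L) : Module.finrank L M = r - 1 := by
  have : IsGalois L M := IsGalois.tower_top_of_isGalois K L M
  refine le_antisymm (DRAM_finrank_le L M r) ?_
  have hprime : (Ideal.span {(r : ℤ)}).IsPrime :=
    (Ideal.span_singleton_prime (by exact_mod_cast hr.out.ne_zero)).mpr
      (Nat.prime_iff_prime_int.mp hr.out)
  obtain ⟨⟨ℜ, hℜp, hℜl⟩⟩ := (Ideal.span {(r : ℤ)}).nonempty_primesOver (S := 𝓞 M)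
  have hℜ : (r : 𝓞 M) ∈ ℜ := by
    have h1 : (r : ℤ) ∈ ℜ.under ℤ := by
      rw [← hℜl.over]; exact Ideal.mem_span_singleton_self _
    simpa [Ideal.under, Ideal.mem_comap] using h1
  have h := DRAM_le_card_inertia K L M r hK hL ℜ hℜ
  rw [← IsGalois.card_aut_eq_finrank]
  exact h.trans (Subgroup.card_le_card_group _)

/-- **D-RAM, `hin`**: every element of `Gal(F/K)` acts trivially modulo every prime of `F`
above `r`, for `K ⊆ F ⊆ M = L(ζ_r)` with `Gal(M/L) → Gal(F/K)` onto. -/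
theorem DRAM_hin (K L M F : Type) [Field K] [NumberField K] [Field L] [NumberField L]
    [Field M] [NumberField M] [Field F] [NumberField F] [Algebra K L] [Algebra K M] [Algebra L M]
    [IsScalarTower K L M] [Algebra K F] [Algebra F M] [IsGalois K L] [IsGalois K M]
    (r : ℕ) [hr : Fact r.Prime] [IsCyclotomicExtension {r} L M]
    (hK : ∀ 𝔭 : Ideal (𝓞 K), 𝔭.IsPrime → (r : 𝓞 K) ∈ 𝔭 → 𝔭.ramificationIdx ℤ = 1)
    (hL : UnramifiedEverywhere K L)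
    (hsurj : ∀ h : Gal(F/K), ∃ g : Gal(M/L), ∀ z : F,
      g (algebraMap F M z) = algebraMap F M (h z)) :
    ∀ 𝔯 : Ideal (𝓞 F), 𝔯.IsPrime → (r : 𝓞 F) ∈ 𝔯 →
      ∀ (h : Gal(F/K)) (x : 𝓞 F), h • x - x ∈ 𝔯 := by
  intro 𝔯 h𝔯 hr𝔯 h x
  obtain ⟨⟨ℜ, hℜp, hℜl⟩⟩ := 𝔯.nonempty_primesOver (S := 𝓞 M)
  have hℜ : (r : 𝓞 M) ∈ ℜ := by
    have h1 : (r : 𝓞 F) ∈ ℜ.under (𝓞 F) := by rw [← hℜl.over]; exact hr𝔯
    simpa [Ideal.under, Ideal.mem_comap] using h1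
  have htop := DRAM_inertia_eq_top K L M r hK hL ℜ hℜ
  obtain ⟨g, hg⟩ := hsurj h
  have hgin : g ∈ Ideal.inertia Gal(M/L) ℜ := htop ▸ Subgroup.mem_top g
  have h1 := hgin (algebraMap (𝓞 F) (𝓞 M) x)
  have h2 : g • (algebraMap (𝓞 F) (𝓞 M) x) = algebraMap (𝓞 F) (𝓞 M) (h • x) := by
    apply RingOfIntegers.ext
    exact hg (x : F)
  rw [h2, ← map_sub] at h1
  rw [hℜl.over]
  exact h1

/-- A prime of residue degree one over `ℤ`: every integer of the field is congruent to a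
rational integer. -/
theorem DRAM_exists_int_of_inertiaDeg_eq_one (r : ℕ) [hr : Fact r.Prime] (F : Type) [Field F]
    [NumberField F] (𝔯 : Ideal (𝓞 F)) [𝔯.IsPrime] (hr𝔯 : (r : 𝓞 F) ∈ 𝔯)
    (hf : 𝔯.inertiaDeg ℤ = 1) (x : 𝓞 F) : ∃ n : ℤ, x - (n : 𝓞 F) ∈ 𝔯 := by
  have := DRAM_liesOver_span r F 𝔯 hr𝔯
  have hN : Ideal.absNorm 𝔯 = r := by
    rw [← Ideal.pow_inertiaDeg r 𝔯, hf, pow_one]
  have hcard : Nat.card (𝓞 F ⧸ 𝔯) = r := by
    rw [← hN, Ideal.absNorm_apply, Submodule.cardQuot_apply]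
  have hone : (1 : 𝓞 F ⧸ 𝔯) ≠ 0 := by
    intro h
    have : (1 : 𝓞 F) ∈ 𝔯 := by
      rw [← Ideal.Quotient.eq_zero_iff_mem, map_one]; exact h
    exact (Ideal.IsPrime.ne_top ‹_›) ((Ideal.eq_top_iff_one _).mpr this)
  have htop := zmultiples_eq_top_of_prime_card hcard hone
  have hx : Ideal.Quotient.mk 𝔯 x ∈ AddSubgroup.zmultiples (1 : 𝓞 F ⧸ 𝔯) :=
    htop ▸ AddSubgroup.mem_top _
  obtain ⟨n, hn⟩ := AddSubgroup.mem_zmultiples_iff.mp hx
  refine ⟨n, ?_⟩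
  rw [← Ideal.Quotient.eq_zero_iff_mem, map_sub, ← hn]
  simp

/-- If `Gal(F/K)` acts trivially modulo the prime `𝔯` of `F` (total ramification) and the prime
of `K` below has residue degree one over `ℤ`, then so has `𝔯`. -/
theorem DRAM_inertiaDeg_eq_one (K F : Type) [Field K] [NumberField K] [Field F] [NumberField F]
    [Algebra K F] [IsGalois K F] (𝔯 : Ideal (𝓞 F)) [𝔯.IsPrime]
    (hin : ∀ (h : Gal(F/K)) (x : 𝓞 F), h • x - x ∈ 𝔯)
    (hK1 : (𝔯.under (𝓞 K)).inertiaDeg ℤ = 1) : 𝔯.inertiaDeg ℤ = 1 := by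
  let 𝔭 : Ideal (𝓞 K) := 𝔯.under (𝓞 K)
  have : 𝔭.IsPrime := inferInstance
  have : 𝔯.LiesOver 𝔭 := ⟨rfl⟩
  have htop : Ideal.inertia Gal(F/K) 𝔯 = ⊤ := by
    rw [eq_top_iff]; intro h _; exact hin h
  have h4 : Nat.card (Ideal.inertia Gal(F/K) 𝔯) = 𝔭.ramificationIdxIn (𝓞 F) :=
    Ideal.card_inertia_eq_ramificationIdxIn 𝔭 𝔯
  rw [htop, Subgroup.card_top] at h4
  have h5 := Ideal.ncard_primesOver_mul_ramificationIdxIn_mul_inertiaDegIn 𝔭 (𝓞 F) Gal(F/K)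
  rw [← h4] at h5
  have hpos : 0 < Nat.card Gal(F/K) := Nat.card_pos
  have h6 : (𝔭.primesOver (𝓞 F)).ncard * 𝔭.inertiaDegIn (𝓞 F) = 1 := by
    have : Nat.card Gal(F/K) * ((𝔭.primesOver (𝓞 F)).ncard * 𝔭.inertiaDegIn (𝓞 F)) =
        Nat.card Gal(F/K) * 1 := by
      rw [mul_one, mul_left_comm]; exact h5
    exact Nat.eq_of_mul_eq_mul_left hpos this
  have h7 : 𝔭.inertiaDegIn (𝓞 F) = 1 := Nat.eq_one_of_mul_eq_one_left h6
  rw [Ideal.inertiaDegIn_eq_inertiaDeg 𝔭 𝔯 Gal(F/K)] at h7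
  rw [Ideal.inertiaDeg_tower (R := ℤ) 𝔭 𝔯, hK1, h7]

/-- **D-RAM, `hdeg`**: for `K ⊆ F ⊆ M = L(ζ_r)` with `Gal(M/L) → Gal(F/K)` onto and the primes
of `K` above `r` of residue degree one, every integer of `F` is congruent to a rational integer
modulo every prime of `F` above `r`. -/
theorem DRAM_hdeg (K L M F : Type) [Field K] [NumberField K] [Field L] [NumberField L]
    [Field M] [NumberField M] [Field F] [NumberField F] [Algebra K L] [Algebra K M] [Algebra L M]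
    [IsScalarTower K L M] [Algebra K F] [Algebra F M] [IsGalois K L] [IsGalois K M]
    [IsGalois K F] (r : ℕ) [hr : Fact r.Prime] [IsCyclotomicExtension {r} L M]
    (hK : ∀ 𝔭 : Ideal (𝓞 K), 𝔭.IsPrime → (r : 𝓞 K) ∈ 𝔭 → 𝔭.ramificationIdx ℤ = 1)
    (hK1 : ∀ 𝔭 : Ideal (𝓞 K), 𝔭.IsPrime → (r : 𝓞 K) ∈ 𝔭 → 𝔭.inertiaDeg ℤ = 1)
    (hL : UnramifiedEverywhere K L)
    (hsurj : ∀ h : Gal(F/K), ∃ g : Gal(M/L), ∀ z : F,
      g (algebraMap F M z) = algebraMap F M (h z)) :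
    ∀ 𝔯 : Ideal (𝓞 F), 𝔯.IsPrime → (r : 𝓞 F) ∈ 𝔯 →
      ∀ x : 𝓞 F, ∃ n : ℤ, x - (n : 𝓞 F) ∈ 𝔯 := by
  intro 𝔯 h𝔯 hr𝔯 x
  have hin := DRAM_hin K L M F r hK hL hsurj 𝔯 h𝔯 hr𝔯
  have hr𝔭 : (r : 𝓞 K) ∈ 𝔯.under (𝓞 K) := by
    change algebraMap (𝓞 K) (𝓞 F) (r : 𝓞 K) ∈ 𝔯
    simpa using hr𝔯
  have hf : 𝔯.inertiaDeg ℤ = 1 :=
    DRAM_inertiaDeg_eq_one K F 𝔯 hin (hK1 _ inferInstance hr𝔭)
  exact DRAM_exists_int_of_inertiaDeg_eq_one r F 𝔯 hr𝔯 hf x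

/-- `K = ℚ(ζ_p)` is unramified at every prime `r ≠ p`. -/
theorem DRAM_hK (p r : ℕ) [hp : Fact p.Prime] [hr : Fact r.Prime] (hrp : r ≠ p) (K : Type)
    [Field K] [NumberField K] [IsCyclotomicExtension {p} ℚ K] :
    ∀ 𝔭 : Ideal (𝓞 K), 𝔭.IsPrime → (r : 𝓞 K) ∈ 𝔭 → 𝔭.ramificationIdx ℤ = 1 := by
  intro 𝔭 h𝔭 hr𝔭
  have : NeZero p := ⟨hp.out.ne_zero⟩
  have := DRAM_liesOver_span r K 𝔭 hr𝔭
  exact IsCyclotomicExtension.Rat.ramificationIdx_eq_of_not_dvd r K 𝔭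
    (fun h ↦ hrp ((Nat.prime_dvd_prime_iff_eq hr.out hp.out).mp h))

/-- The primes of `K = ℚ(ζ_p)` above a prime `r ≡ 1 mod p` have residue degree one. -/
theorem DRAM_hK1 (p r : ℕ) [hp : Fact p.Prime] [hr : Fact r.Prime] (hrp : r % p = 1) (K : Type)
    [Field K] [NumberField K] [IsCyclotomicExtension {p} ℚ K] :
    ∀ 𝔭 : Ideal (𝓞 K), 𝔭.IsPrime → (r : 𝓞 K) ∈ 𝔭 → 𝔭.inertiaDeg ℤ = 1 := by
  intro 𝔭 h𝔭 hr𝔭
  have : NeZero p := ⟨hp.out.ne_zero⟩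
  have := DRAM_liesOver_span r K 𝔭 hr𝔭
  have hne : r ≠ p := by
    rintro rfl
    rw [Nat.mod_self] at hrp
    exact zero_ne_one hrp
  rw [IsCyclotomicExtension.Rat.inertiaDeg_eq_of_not_dvd r K 𝔭
    (fun h ↦ hne ((Nat.prime_dvd_prime_iff_eq hr.out hp.out).mp h))]
  have h1 : (r : ZMod p) = 1 := by
    have h2 : ((r % p : ℕ) : ZMod p) = (r : ZMod p) := ZMod.natCast_mod r p
    rw [← h2, hrp, Nat.cast_one]
  rw [h1, orderOf_one]

end Fermat.Agent.S14
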