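import Mathlib
import Fermat.Agent.S14.D.Iface
import Fermat.Agent.S14.D.Ram

/-!
# P-CFT / D-RAM : the frozen interface `IfaceDInertia`

`ifaceDInertia : IfaceDInertia` : `ker res = Gal(Mt/L)` is contained in the inertia group of every
prime of `Mt = L(ζ_r)` above `r`.
-/

set_option autoImplicit false

open NumberField IsDedekindDomain IntermediateField
open scoped nonZeroDivisors Pointwise

namespace Fermat.Agent.S14.D

/-- An element of `Gal(Mt/K)` with trivial restriction to `L` fixes `L` pointwise. -/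
theorem DRAM_apply_of_res_eq_one (K L Mt : Type) [Field K] [Field L] [Algebra K L] [Normal K L]
    [Field Mt] [Algebra K Mt] [Algebra L Mt] [IsScalarTower K L Mt] (γ : Gal(Mt/K))
    (hγ : res K L Mt γ = 1) (y : L) : γ (algebraMap L Mt y) = algebraMap L Mt y := by
  have h := AlgEquiv.restrictNormal_commutes γ L y
  have h1 : γ.restrictNormal L = 1 := hγ
  rw [h1] at h
  exact h.symm

/-- An element of `Gal(Mt/K)` with trivial restriction to `L`, as an element of `Gal(Mt/L)`. -/
noncomputable def DRAM_toGalL (K L Mt : Type) [Field K] [Field L] [Algebra K L] [Normal K L]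
    [Field Mt] [Algebra K Mt] [Algebra L Mt] [IsScalarTower K L Mt] (γ : Gal(Mt/K))
    (hγ : res K L Mt γ = 1) : Gal(Mt/L) :=
  { γ.toRingEquiv with
    commutes' := fun y ↦ DRAM_apply_of_res_eq_one K L Mt γ hγ y }

theorem DRAM_toGalL_apply (K L Mt : Type) [Field K] [Field L] [Algebra K L] [Normal K L]
    [Field Mt] [Algebra K Mt] [Algebra L Mt] [IsScalarTower K L Mt] (γ : Gal(Mt/K))
    (hγ : res K L Mt γ = 1) (x : Mt) : DRAM_toGalL K L Mt γ hγ x = γ x := rfl

/-- **D-RAM**: the frozen interface `IfaceDInertia`. -/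
theorem ifaceDInertia : IfaceDInertia := by
  intro p K L _ _ _ _ _ _ _ r _ Mt _ _ _ _ _ _ _ hp hr hrp hL ℜ hℜ hrℜ γ hγ x
  have : Fact p.Prime := ⟨hp⟩
  have : Fact r.Prime := ⟨hr⟩
  have := hℜ
  have htop := DRAM_inertia_eq_top K L Mt r (DRAM_hK p r hrp K) hL ℜ hrℜ
  have hg : DRAM_toGalL K L Mt γ hγ ∈ Ideal.inertia Gal(Mt/L) ℜ := htop ▸ Subgroup.mem_top _
  have h1 := hg x
  have h2 : DRAM_toGalL K L Mt γ hγ • x = γ • x := by
    apply RingOfIntegers.ext
    rfl
  rw [h2] at h1
  exact h1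

end Fermat.Agent.S14.D
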