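import Mathlib
import Fermat.Agent.S14.D.Iface
import Fermat.Agent.S14.D.Basic
import Fermat.Agent.S14.D.GalDeg
import Fermat.Agent.S14.D.Ram
import Fermat.Agent.S14.D.RamIface
import Fermat.Agent.S14.D.NuPrincipal

/-!
# P-CFT / D-NORM : glue for the frozen interface `IfaceDNorm` (= ν2)

`ifaceDNorm_of : DNORM_Principal → IfaceDNorm`, where `DNORM_Principal` is the abstract statement
"norms are `[F : K]`-th powers modulo `r`" for a totally ramified Galois extension `F / K`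
(module D-NU, `DNU_principal`).  The glue provides, for `F = FF p K L r Mt s a`:

* `DNORM_isGalois` : `F / K` is Galois;
* `DNORM_card`     : `#Gal(F/K) = p`;
* `DNORM_hsurj`    : `Gal(Mt/L) → Gal(F/K)` is onto;
* the hypotheses `hin`, `hdeg` from `DRAM_hin`, `DRAM_hdeg`.
-/

set_option autoImplicit false
set_option linter.unusedSectionVars false

open NumberField IsDedekindDomain IntermediateField
open scoped nonZeroDivisors Pointwise

namespace Fermat.Agent.S14.D

/-- The abstract statement of `DNU_principal` (module D-NU): in a Galois extension `F / K` of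
number fields, `K / ℚ` Galois, in which `Gal(F/K)` acts trivially modulo every prime of `F` above
`r` and these primes have residue field `𝔽_r`, the norm of every integer of `F` is congruent
modulo `r` to a `#Gal(F/K)`-th power. -/
def DNORM_Principal : Prop :=
  ∀ (K F : Type) [Field K] [NumberField K] [Field F] [NumberField F] [Algebra K F]
    [IsGalois K F] [IsGalois ℚ K] (r p : ℕ), r.Prime → Nat.card Gal(F/K) = p →
    (∀ 𝔯 : Ideal (𝓞 F), 𝔯.IsPrime → (r : 𝓞 F) ∈ 𝔯 →
      ∀ (h : Gal(F/K)) (x : 𝓞 F), h • x - x ∈ 𝔯) →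
    (∀ 𝔯 : Ideal (𝓞 F), 𝔯.IsPrime → (r : 𝓞 F) ∈ 𝔯 → ∀ x : 𝓞 F, ∃ n : ℤ, x - (n : 𝓞 F) ∈ 𝔯) →
    ∀ β : 𝓞 F, ∃ m : ℤ, (r : ℤ) ∣ Algebra.norm ℤ β - m ^ p

section Setup

variable (p : ℕ) (K L : Type) [Field K] [NumberField K] [Field L] [NumberField L] [Algebra K L]
  [IsGalois K L] (r : ℕ) [NeZero r] (Mt : Type) [Field Mt] [NumberField Mt] [Algebra K Mt]
  [Algebra L Mt] [IsScalarTower K L Mt] [IsCyclotomicExtension {r} L Mt] [IsGalois K Mt]
  (s : Gal(L/K)) (a : (ZMod r)ˣ)

/-- The diagonal subgroup is normal (the group is commutative). -/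
theorem DNORM_normal (hp : p.Prime) (hfin : Module.finrank K L = p) :
    (GamF p K L r Mt s a).Normal := by
  refine ⟨fun n hn g ↦ ?_⟩
  rw [DGAL_comm_of_prime p hp K L hfin r Mt g n, mul_inv_cancel_right]
  exact hn

/-- `F / K` is Galois. -/
theorem DNORM_isGalois (hp : p.Prime) (hfin : Module.finrank K L = p) :
    IsGalois K (FF p K L r Mt s a) := by
  have := DNORM_normal p K L r Mt s a hp hfin
  exact IsGalois.of_fixedField_normal_subgroup (GamF p K L r Mt s a)

/-- Every element of `Gal(L/K)` is a power of `s ≠ 1`. -/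
theorem DNORM_exists_zpow (hp : p.Prime) (hfin : Module.finrank K L = p) (hs : s ≠ 1)
    (t : Gal(L/K)) : ∃ j : ℤ, s ^ j = t := by
  have : Fact p.Prime := ⟨hp⟩
  have hcard : Nat.card Gal(L/K) = p := by
    rw [IsGalois.card_aut_eq_finrank, hfin]
  have htop := zpowers_eq_top_of_prime_card hcard hs
  have ht : t ∈ Subgroup.zpowers s := htop ▸ Subgroup.mem_top t
  exact Subgroup.mem_zpowers_iff.mp ht

/-- `Gal(Mt/L) → Gal(F/K)` is onto. -/
theorem DNORM_hsurj (hp : p.Prime) (hfin : Module.finrank K L = p) (hs : s ≠ 1)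
    (hγ : ∃ γ : Gal(Mt/K), res K L Mt γ = s ∧ kap K L r Mt γ = a)
    [IsGalois K (FF p K L r Mt s a)] (h : Gal((FF p K L r Mt s a)/K)) :
    ∃ g : Gal(Mt/L), ∀ z : FF p K L r Mt s a,
      g (algebraMap (FF p K L r Mt s a) Mt z) = algebraMap (FF p K L r Mt s a) Mt (h z) := by
  obtain ⟨γ, hγs, hγa⟩ := hγ
  obtain ⟨ht, rfl⟩ := AlgEquiv.restrictNormalHom_surjective (F := K)
    (K₁ := FF p K L r Mt s a) Mt h
  obtain ⟨j, hj⟩ := DNORM_exists_zpow p K L s hp hfin hs (res K L Mt ht)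
  have hγF : γ ∈ GamF p K L r Mt s a := mem_GamF_of_lift p K L r Mt s a γ hγs hγa
  have hγjF : (γ ^ j)⁻¹ ∈ GamF p K L r Mt s a :=
    (GamF p K L r Mt s a).inv_mem ((GamF p K L r Mt s a).zpow_mem hγF j)
  have hres : res K L Mt (ht * (γ ^ j)⁻¹) = 1 := by
    rw [map_mul, map_inv, map_zpow, hγs, hj, mul_inv_cancel]
  refine ⟨DRAM_toGalL K L Mt _ hres, fun z ↦ ?_⟩
  rw [DRAM_toGalL_apply]
  have hz : (γ ^ j)⁻¹ (algebraMap (FF p K L r Mt s a) Mt z) =
      algebraMap (FF p K L r Mt s a) Mt z :=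
    (mem_FF_iff p K L r Mt s a _).1 z.2 _ hγjF
  rw [AlgEquiv.mul_apply, hz]
  exact (AlgEquiv.restrictNormal_commutes ht (FF p K L r Mt s a) z).symm

/-- `rk` is onto in the situation of the Artin crossing. -/
theorem DNORM_rk_surjective [IsCyclotomicExtension {p} ℚ K] (hp : p.Prime) (hr : r.Prime)
    (hrp : r ≠ p) (hL : UnramifiedEverywhere K L) : Function.Surjective (rk p K L r Mt) := by
  rintro ⟨t, q⟩
  obtain ⟨b, rfl⟩ := QuotientGroup.mk_surjective q
  obtain ⟨γ, hγ1, hγ2⟩ := DGAL_exists_res_kap p hp K L hL r hr hrp Mt t b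
  exact ⟨γ, by rw [rk_apply, hγ1, hγ2]⟩

/-- The group `(ZMod r)ˣ ⧸ Pr p r` has `p` elements when `r ≡ 1 mod p`. -/
theorem DNORM_card_quot (hp : p.Prime) (hr : r.Prime) (hrp : r % p = 1) :
    Nat.card ((ZMod r)ˣ ⧸ Pr p r) = p := by
  have : Fact r.Prime := ⟨hr⟩
  rw [← Subgroup.index_eq_card, Pr, IsCyclic.index_powMonoidHom_range,
    Nat.card_eq_fintype_card, ZMod.card_units_eq_totient, Nat.totient_prime hr]
  apply Nat.gcd_eq_right
  have h1 : r % p = 1 % p := by rw [hrp, Nat.mod_eq_of_lt hp.one_lt]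
  exact (Nat.modEq_iff_dvd' hr.one_lt.le).mp h1.symm

/-- The cyclic subgroup generated by `(s, [a])` has index `p`. -/
theorem DNORM_index_zpowers (hp : p.Prime) (hr : r.Prime) (hrp : r % p = 1)
    (hfin : Module.finrank K L = p) (hs : s ≠ 1) :
    (Subgroup.zpowers
      ((s, (a : (ZMod r)ˣ ⧸ Pr p r)) : Gal(L/K) × ((ZMod r)ˣ ⧸ Pr p r))).index = p := by
  have : Fact p.Prime := ⟨hp⟩
  have hcardG : Nat.card Gal(L/K) = p := by
    rw [IsGalois.card_aut_eq_finrank, hfin]
  have hsp : s ^ p = 1 := by rw [← hcardG]; exact pow_card_eq_one'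
  have hos : orderOf s = p := orderOf_eq_prime hsp hs
  have hoa : orderOf (a : (ZMod r)ˣ ⧸ Pr p r) ∣ p :=
    orderOf_dvd_of_pow_eq_one (quot_pow_eq_one p r _)
  have hcardZ : Nat.card (Subgroup.zpowers
      ((s, (a : (ZMod r)ˣ ⧸ Pr p r)) : Gal(L/K) × ((ZMod r)ˣ ⧸ Pr p r))) = p := by
    rw [Nat.card_zpowers, Prod.orderOf, hos]
    exact Nat.lcm_eq_left hoa
  have h := Subgroup.card_mul_index (Subgroup.zpowers
      ((s, (a : (ZMod r)ˣ ⧸ Pr p r)) : Gal(L/K) × ((ZMod r)ˣ ⧸ Pr p r)))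
  rw [hcardZ, Nat.card_prod, hcardG, DNORM_card_quot p r hp hr hrp] at h
  exact Nat.eq_of_mul_eq_mul_left hp.pos h

/-- `[F : K] = p`. -/
theorem DNORM_finrank [IsCyclotomicExtension {p} ℚ K] (hp : p.Prime) (hr : r.Prime)
    (hrp : r % p = 1) (hfin : Module.finrank K L = p) (hL : UnramifiedEverywhere K L)
    (hs : s ≠ 1) : Module.finrank K (FF p K L r Mt s a) = p := by
  have hne : r ≠ p := by
    rintro rfl
    rw [Nat.mod_self] at hrp
    exact zero_ne_one hrp
  have hidx : (GamF p K L r Mt s a).index = p := by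
    rw [GamF, Subgroup.index_comap_of_surjective _ (DNORM_rk_surjective p K L r Mt hp hr hne hL)]
    exact DNORM_index_zpowers p K L r s a hp hr hrp hfin hs
  have h1 : Module.finrank (FF p K L r Mt s a) Mt = Nat.card (GamF p K L r Mt s a) :=
    IntermediateField.finrank_fixedField_eq_card (GamF p K L r Mt s a)
  have h2 := Module.finrank_mul_finrank K (FF p K L r Mt s a) Mt
  have h3 := IsGalois.card_aut_eq_finrank K Mt
  have h4 := Subgroup.card_mul_index (GamF p K L r Mt s a)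
  rw [hidx] at h4
  rw [h1, ← h3, ← h4, mul_comm] at h2
  have hpos : 0 < Nat.card (GamF p K L r Mt s a) := Nat.card_pos
  exact Nat.eq_of_mul_eq_mul_left hpos h2

end Setup

/-- **D-NORM (= ν2)**: the frozen interface `IfaceDNorm`, from the abstract statement
`DNORM_Principal` of module D-NU. -/
theorem ifaceDNorm_of (hNU : DNORM_Principal) : IfaceDNorm := by
  intro p K L _ _ _ _ _ _ _ r _ Mt _ _ _ _ _ _ _ s a hp hp3 hr hrp hfin hL hs hγ β u hu
  have : Fact p.Prime := ⟨hp⟩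
  have : Fact r.Prime := ⟨hr⟩
  have hne : r ≠ p := by
    rintro rfl
    rw [Nat.mod_self] at hrp
    exact zero_ne_one hrp
  have hGal : IsGalois K (FF p K L r Mt s a) := DNORM_isGalois p K L r Mt s a hp hfin
  have hQK : IsGalois ℚ K := IsCyclotomicExtension.isGalois {p} ℚ K
  have hcard : Nat.card Gal((FF p K L r Mt s a)/K) = p := by
    rw [IsGalois.card_aut_eq_finrank]
    exact DNORM_finrank p K L r Mt s a hp hr hrp hfin hL hs
  have hsurj := DNORM_hsurj p K L r Mt s a hp hfin hs hγ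
  have hin := DRAM_hin K L Mt (FF p K L r Mt s a) r (DRAM_hK p r hne K) hL hsurj
  have hdeg := DRAM_hdeg K L Mt (FF p K L r Mt s a) r (DRAM_hK p r hne K)
    (DRAM_hK1 p r hrp K) hL hsurj
  obtain ⟨m, hm⟩ := hNU K (FF p K L r Mt s a) r p hr hcard hin hdeg β
  -- the norm is `m ^ p` modulo `r`
  have h1 : ((Algebra.norm ℤ β : ℤ) : ZMod r) = (m : ZMod r) ^ p := by
    have := (ZMod.intCast_eq_intCast_iff_dvd_sub (m ^ p) (Algebra.norm ℤ β) r).mpr hm
    rw [← this]; push_cast; rfl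
  have hodd : Odd p := hp.odd_of_ne_two (by omega)
  -- the absolute norm is `± m ^ p`
  have h2 : ∃ y : ZMod r, y ^ p = (u : ZMod r) := by
    rw [hu, Ideal.absNorm_span_singleton]
    have hn : (((Algebra.norm ℤ β).natAbs : ℕ) : ZMod r) =
        ((((Algebra.norm ℤ β).natAbs : ℕ) : ℤ) : ZMod r) := (Int.cast_natCast _).symm
    rcases Int.natAbs_eq (Algebra.norm ℤ β) with h | h
    · refine ⟨m, ?_⟩
      rw [hn, ← h, h1]
    · refine ⟨-m, ?_⟩
      have h' : (((Algebra.norm ℤ β).natAbs : ℕ) : ℤ) = -(Algebra.norm ℤ β) := by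
        rw [eq_neg_iff_add_eq_zero, add_comm, ← eq_neg_iff_add_eq_zero]; exact h
      rw [hn, h', hodd.neg_pow, Int.cast_neg, h1]
  obtain ⟨y, hy⟩ := h2
  have hyu : IsUnit y := by
    have : IsUnit (y ^ p) := hy ▸ u.isUnit
    exact (isUnit_pow_iff hp.ne_zero).mp this
  obtain ⟨y', rfl⟩ := hyu
  rw [mem_Pr_iff]
  refine ⟨y', Units.ext ?_⟩
  rw [Units.val_pow_eq_pow_val]
  exact hy

/-- The abstract statement `DNORM_Principal` holds (module D-NU, `DNU_principal`). -/
theorem DNORM_principal : DNORM_Principal := by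
  intro K F _ _ _ _ _ _ _ r p hr hcard hin hdeg β
  exact DNU_principal K F r p hr hcard hin hdeg β

/-- **D-NORM (= ν2)**: the frozen interface `IfaceDNorm`. -/
theorem ifaceDNorm : IfaceDNorm := ifaceDNorm_of DNORM_principal

end Fermat.Agent.S14.D
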