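import Mathlib
import Fermat.Agent.S14.Iface

/-!
# P-CFT, module D-NU, part 1: the `ν`-lemma (pure ideal arithmetic)

Let `F` be a number field, `r` a prime number and `P` a subgroup of `(ZMod r)ˣ` (in the
application: the `p`-th powers).  Call a natural number `n` *good* if its class modulo `r` is
(the image of) an element of `P`.  Assume that the absolute norms of the primes in a set `S` are
good, and that the absolute norm of every principal ideal prime to `r` is good.  Then two nonzero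
ideals prime to `r` whose classes differ by an element of the subgroup generated by the classes of
the primes in `S` have the same norm modulo `P`.
-/

set_option autoImplicit false

open NumberField IsDedekindDomain
open scoped nonZeroDivisors

namespace Fermat.Agent.S14

/-- `n` is congruent modulo `r` to an element of the subgroup `P` of `(ZMod r)ˣ`. -/
def DNU_Good (r : ℕ) (P : Subgroup (ZMod r)ˣ) (n : ℕ) : Prop :=
  ∃ u ∈ P, ((u : (ZMod r)ˣ) : ZMod r) = (n : ZMod r)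

theorem DNU_good_one (r : ℕ) (P : Subgroup (ZMod r)ˣ) : DNU_Good r P 1 :=
  ⟨1, P.one_mem, by simp⟩

theorem DNU_good_mul {r : ℕ} {P : Subgroup (ZMod r)ˣ} {m n : ℕ}
    (hm : DNU_Good r P m) (hn : DNU_Good r P n) : DNU_Good r P (m * n) := by
  obtain ⟨u, hu, hum⟩ := hm
  obtain ⟨v, hv, hvn⟩ := hn
  exact ⟨u * v, P.mul_mem hu hv, by push_cast; rw [hum, hvn]⟩

/-- A good number is prime to `r`. -/
theorem DNU_good_coprime {r : ℕ} [Fact r.Prime] {P : Subgroup (ZMod r)ˣ} {n : ℕ}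
    (hn : DNU_Good r P n) : n.Coprime r := by
  obtain ⟨u, -, hu⟩ := hn
  have hunit : IsUnit (n : ZMod r) := hu ▸ u.isUnit
  exact (ZMod.isUnit_iff_coprime n r).mp hunit

/-- If `a * m * j = s * m' * i` with `a, j, s, i` good, then `m ≡ u * m'` for some `u ∈ P`. -/
theorem DNU_good_cancel {r : ℕ} {P : Subgroup (ZMod r)ˣ} {a j s i m m' : ℕ}
    (ha : DNU_Good r P a) (hj : DNU_Good r P j) (hs : DNU_Good r P s) (hi : DNU_Good r P i)
    (h : a * m * j = s * m' * i) :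
    ∃ u ∈ P, (m : ZMod r) = ((u : (ZMod r)ˣ) : ZMod r) * (m' : ZMod r) := by
  obtain ⟨ua, hua, ea⟩ := ha
  obtain ⟨uj, huj, ej⟩ := hj
  obtain ⟨us, hus, es⟩ := hs
  obtain ⟨ui, hui, ei⟩ := hi
  refine ⟨ua⁻¹ * uj⁻¹ * us * ui,
    P.mul_mem (P.mul_mem (P.mul_mem (P.inv_mem hua) (P.inv_mem huj)) hus) hui, ?_⟩
  have h' : (a : ZMod r) * m * j = s * m' * i := by exact_mod_cast congrArg (Nat.cast : ℕ → ZMod r) h
  rw [← ea, ← ej, ← es, ← ei] at h'
  have key : ((ua * uj : (ZMod r)ˣ) : ZMod r) * (m : ZMod r) =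
      ((ua * uj : (ZMod r)ˣ) : ZMod r) *
        (((ua⁻¹ * uj⁻¹ * us * ui : (ZMod r)ˣ) : ZMod r) * (m' : ZMod r)) := by
    rw [← mul_assoc, ← Units.val_mul]
    have e1 : ua * uj * (ua⁻¹ * uj⁻¹ * us * ui) = us * ui := by
      rw [mul_comm ua uj]
      group
    rw [e1]
    push_cast
    linear_combination h'
  exact (ua * uj).isUnit.mul_left_cancel key

/-- Ideal bookkeeping for the `ν`-lemma. -/
theorem DNU_ideal_aux {R : Type*} [CommRing R] {x y a s : R} {X Y : Ideal R}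
    (ha : a * y = x * s) (hxy : Ideal.span {x} * X = Ideal.span {y} * Y) :
    Ideal.span {y} * (Ideal.span {a} * X) = Ideal.span {y} * (Ideal.span {s} * Y) := by
  have e1 : Ideal.span {y} * Ideal.span {a} = Ideal.span {s} * Ideal.span {x} := by
    rw [Ideal.span_singleton_mul_span_singleton, Ideal.span_singleton_mul_span_singleton,
      mul_comm y a, ha, mul_comm x s]
  calc Ideal.span {y} * (Ideal.span {a} * X)
      = (Ideal.span {y} * Ideal.span {a}) * X := (mul_assoc _ _ _).symm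
    _ = (Ideal.span {s} * Ideal.span {x}) * X := by rw [e1]
    _ = Ideal.span {s} * (Ideal.span {x} * X) := mul_assoc _ _ _
    _ = Ideal.span {s} * (Ideal.span {y} * Y) := by rw [hxy]
    _ = Ideal.span {y} * (Ideal.span {s} * Y) := mul_left_comm _ _ _

section NumberField

variable {F : Type*} [Field F] [NumberField F]

/-- The absolute norm of the ideal generated by a natural number. -/
theorem DNU_absNorm_span_natCast (s : ℕ) :
    Ideal.absNorm (Ideal.span {(s : 𝓞 F)}) = s ^ Module.finrank ℤ (𝓞 F) := by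
  rw [Ideal.absNorm_span_singleton]
  have h : ((s : ℕ) : 𝓞 F) = algebraMap ℤ (𝓞 F) (s : ℤ) := by simp
  rw [h, Algebra.norm_algebraMap]
  simp [Int.natAbs_pow]

/-- **The `ν`-lemma.** -/
theorem DNU_lemma (r : ℕ) [Fact r.Prime] (P : Subgroup (ZMod r)ˣ)
    (S : Set (HeightOneSpectrum (𝓞 F)))
    (hS : ∀ 𝔓 ∈ S, ∃ u ∈ P, ((u : (ZMod r)ˣ) : ZMod r) = (Ideal.absNorm 𝔓.asIdeal : ZMod r))
    (hprin : ∀ β : 𝓞 F, (Ideal.absNorm (Ideal.span {β})).Coprime r →
      ∃ u ∈ P, ((u : (ZMod r)ˣ) : ZMod r) = (Ideal.absNorm (Ideal.span {β}) : ZMod r))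
    (𝔄 𝔄' : (Ideal (𝓞 F))⁰)
    (h𝔄 : (Ideal.absNorm (𝔄 : Ideal (𝓞 F))).Coprime r)
    (h𝔄' : (Ideal.absNorm (𝔄' : Ideal (𝓞 F))).Coprime r)
    (h : ClassGroup.mk0 𝔄 * (ClassGroup.mk0 𝔄')⁻¹ ∈ Subgroup.closure (primeClass '' S)) :
    ∃ u ∈ P, (Ideal.absNorm (𝔄 : Ideal (𝓞 F)) : ZMod r) =
      ((u : (ZMod r)ˣ) : ZMod r) * (Ideal.absNorm (𝔄' : Ideal (𝓞 F)) : ZMod r) := by
  classical
  -- Step 1: every element of the closure is `[I] [J]⁻¹` with `N I`, `N J` good.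
  have hcl : ∀ c ∈ Subgroup.closure (primeClass '' S),
      ∃ I J : (Ideal (𝓞 F))⁰, DNU_Good r P (Ideal.absNorm (I : Ideal (𝓞 F))) ∧
        DNU_Good r P (Ideal.absNorm (J : Ideal (𝓞 F))) ∧
        c * ClassGroup.mk0 J = ClassGroup.mk0 I := by
    intro c hc
    induction hc using Subgroup.closure_induction with
    | mem x hx =>
      obtain ⟨𝔓, h𝔓, rfl⟩ := hx
      refine ⟨⟨𝔓.asIdeal, mem_nonZeroDivisors_of_ne_zero 𝔓.ne_bot⟩, 1, hS 𝔓 h𝔓, ?_, ?_⟩
      · simpa using DNU_good_one r P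
      · simp [primeClass]
    | one =>
      refine ⟨1, 1, ?_, ?_, by simp⟩
      · simpa using DNU_good_one r P
      · simpa using DNU_good_one r P
    | mul x y _ _ hx hy =>
      obtain ⟨I₁, J₁, hI₁, hJ₁, e₁⟩ := hx
      obtain ⟨I₂, J₂, hI₂, hJ₂, e₂⟩ := hy
      refine ⟨I₁ * I₂, J₁ * J₂, ?_, ?_, ?_⟩
      · simpa using DNU_good_mul hI₁ hI₂
      · simpa using DNU_good_mul hJ₁ hJ₂
      · rw [map_mul, map_mul, ← e₁, ← e₂]
        exact mul_mul_mul_comm _ _ _ _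
    | inv x _ hx =>
      obtain ⟨I, J, hI, hJ, e⟩ := hx
      refine ⟨J, I, hJ, hI, ?_⟩
      rw [← e]
      simp
  obtain ⟨I, J, hI, hJ, e⟩ := hcl _ h
  -- Step 2: `[𝔄 J] = [𝔄' I]`.
  have hclass : ClassGroup.mk0 (𝔄 * J) = ClassGroup.mk0 (𝔄' * I) := by
    rw [map_mul, map_mul, ← e]
    simp [mul_comm, mul_left_comm]
  obtain ⟨x, y, hx, hy, hxy⟩ := ClassGroup.mk0_eq_mk0_iff.mp hclass
  simp only [Submonoid.coe_mul] at hxy
  -- Step 3: `s := N(𝔄 J) ∈ 𝔄 J`, so `x s ∈ (y)`.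
  set s : ℕ := Ideal.absNorm ((𝔄 : Ideal (𝓞 F)) * (J : Ideal (𝓞 F))) with hs
  have hsmem : (s : 𝓞 F) ∈ (𝔄 : Ideal (𝓞 F)) * (J : Ideal (𝓞 F)) := Ideal.absNorm_mem _
  have hxs : x * (s : 𝓞 F) ∈ Ideal.span {y} := by
    have h1 : x * (s : 𝓞 F) ∈ Ideal.span {x} * ((𝔄 : Ideal (𝓞 F)) * (J : Ideal (𝓞 F))) :=
      Ideal.mul_mem_mul (Ideal.mem_span_singleton_self x) hsmem
    rw [hxy] at h1
    exact Ideal.mul_le_left h1
  obtain ⟨a, ha⟩ := Ideal.mem_span_singleton'.mp hxs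
  -- Step 4: `(a) 𝔄 J = (s) 𝔄' I`.
  have hideal : Ideal.span {a} * ((𝔄 : Ideal (𝓞 F)) * (J : Ideal (𝓞 F))) =
      Ideal.span {(s : 𝓞 F)} * ((𝔄' : Ideal (𝓞 F)) * (I : Ideal (𝓞 F))) := by
    have hy0 : Ideal.span {y} ≠ (0 : Ideal (𝓞 F)) := by
      simpa [Ideal.zero_eq_bot, Ideal.span_singleton_eq_bot] using hy
    apply mul_left_cancel₀ hy0
    exact DNU_ideal_aux ha hxy
  -- Step 5: norms.
  have hnorm := congrArg Ideal.absNorm hideal
  simp only [map_mul] at hnorm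
  have hscop : s.Coprime r := by
    rw [hs, map_mul]
    exact Nat.Coprime.mul_left h𝔄 (DNU_good_coprime hJ)
  have hNs : (Ideal.absNorm (Ideal.span {(s : 𝓞 F)})).Coprime r := by
    rw [DNU_absNorm_span_natCast]
    exact Nat.Coprime.pow_left _ hscop
  have hNa : (Ideal.absNorm (Ideal.span {a})).Coprime r := by
    have hrhs : (Ideal.absNorm (Ideal.span {(s : 𝓞 F)}) *
        (Ideal.absNorm (𝔄' : Ideal (𝓞 F)) * Ideal.absNorm (I : Ideal (𝓞 F)))).Coprime r :=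
      Nat.Coprime.mul_left hNs (Nat.Coprime.mul_left h𝔄' (DNU_good_coprime hI))
    rw [← hnorm] at hrhs
    exact Nat.Coprime.coprime_mul_right hrhs
  refine DNU_good_cancel (hprin a hNa) hJ (hprin _ hNs) hI ?_
  rw [mul_assoc, hnorm, mul_assoc]

end NumberField

end Fermat.Agent.S14
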