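import Mathlib
import Fermat.Agent.S14.D.Iface
import Fermat.Agent.S14.D.NuLemma

/-!
# P-CFT, module D-NU: the invariant `ν` as a homomorphism on the class group (`IfaceDNu`)

If the absolute norms of all principal ideals prime to `r` lie in the subgroup `P` of `(ZMod r)ˣ`,
then `I ↦ [N I mod r]` (for `I` prime to `r`) induces a homomorphism
`ClassGroup (𝓞 F) →* (ZMod r)ˣ ⧸ P`.

* every ideal class contains an ideal prime to `r` (`DNUH_exists_rep`);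
* two ideals prime to `r` in the same class have the same norm modulo `P`
  (`Fermat.Agent.S14.DNU_lemma` with `S = ∅`).
-/

set_option autoImplicit false

open NumberField IsDedekindDomain
open scoped nonZeroDivisors

namespace Fermat.Agent.S14.D

section

variable {F : Type*} [Field F] [NumberField F]

/-- The absolute norm of the ideal generated by a natural number. -/
theorem DNUH_absNorm_span_natCast (s : ℕ) :
    Ideal.absNorm (Ideal.span {(s : 𝓞 F)}) = s ^ Module.finrank ℤ (𝓞 F) := by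
  rw [Ideal.absNorm_span_singleton]
  have h : ((s : ℕ) : 𝓞 F) = algebraMap ℤ (𝓞 F) (s : ℤ) := by simp
  rw [h, Algebra.norm_algebraMap]
  simp [Int.natAbs_pow]

/-- The ideal generated by a prime number is proper. -/
theorem DNUH_span_ne_top {r : ℕ} (hr : r.Prime) : Ideal.span {(r : 𝓞 F)} ≠ ⊤ := by
  intro h
  have h1 := (Ideal.absNorm_eq_one_iff (I := Ideal.span {(r : 𝓞 F)})).mpr h
  rw [DNUH_absNorm_span_natCast] at h1
  have hpos : 0 < Module.finrank ℤ (𝓞 F) := Module.finrank_pos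
  have h2 : r = 1 := by
    rcases Nat.pow_eq_one.mp h1 with h3 | h3
    · exact h3
    · omega
  exact hr.one_lt.ne' h2

/-- An ideal which is comaximal with `(r)` has absolute norm prime to `r`. -/
theorem DNUH_coprime_of_sup_eq_top {r : ℕ} (hr : r.Prime) (I : Ideal (𝓞 F)) (hI : I ≠ ⊥)
    (h : Ideal.span {(r : 𝓞 F)} ⊔ I = ⊤) : (Ideal.absNorm I).Coprime r := by
  rw [Nat.coprime_comm, Nat.Prime.coprime_iff_not_dvd hr]
  intro hdvd
  have hN0 : Ideal.absNorm I ≠ 0 := by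
    rw [Ne, Ideal.absNorm_eq_zero_iff]
    exact hI
  obtain ⟨k, m, hm, hN⟩ := Nat.exists_eq_pow_mul_and_not_dvd hN0 r hr.ne_one
  have hk : k ≠ 0 := by
    rintro rfl
    rw [pow_zero, one_mul] at hN
    exact hm (hN ▸ hdvd)
  -- `(r ^ k) + I = 1`
  have hpow : Ideal.span {(r : 𝓞 F)} ^ k ⊔ I = ⊤ := Ideal.pow_sup_eq_top h
  rw [Ideal.span_singleton_pow] at hpow
  have h1 : (1 : 𝓞 F) ∈ Ideal.span {(r : 𝓞 F) ^ k} ⊔ I := by rw [hpow]; trivial
  obtain ⟨x, hx, i, hi, hxi⟩ := Submodule.mem_sup.mp h1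
  obtain ⟨y, rfl⟩ := Ideal.mem_span_singleton'.mp hx
  -- `m ∈ I`
  have hmI : (m : 𝓞 F) ∈ I := by
    have hNI : ((Ideal.absNorm I : ℕ) : 𝓞 F) ∈ I := Ideal.absNorm_mem I
    have e : (m : 𝓞 F) = y * ((Ideal.absNorm I : ℕ) : 𝓞 F) + (m : 𝓞 F) * i := by
      rw [hN]
      push_cast
      linear_combination (m : 𝓞 F) * hxi.symm
    rw [e]
    exact I.add_mem (I.mul_mem_left _ hNI) (I.mul_mem_left _ hi)
  have hle : Ideal.span {(m : 𝓞 F)} ≤ I := (Ideal.span_singleton_le_iff_mem I).mpr hmI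
  have hdvd2 := Ideal.absNorm_dvd_absNorm_of_le hle
  rw [DNUH_absNorm_span_natCast] at hdvd2
  have hr_dvd : r ∣ m ^ Module.finrank ℤ (𝓞 F) := dvd_trans hdvd hdvd2
  exact hm (hr.dvd_of_dvd_pow hr_dvd)

/-- Every ideal class contains an ideal prime to `r`. -/
theorem DNUH_exists_rep {r : ℕ} (hr : r.Prime) (c : ClassGroup (𝓞 F)) :
    ∃ I : (Ideal (𝓞 F))⁰, (Ideal.absNorm (I : Ideal (𝓞 F))).Coprime r ∧ ClassGroup.mk0 I = c := by
  obtain ⟨J, hJ⟩ := ClassGroup.mk0_surjective c⁻¹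
  have hJ0 : (J : Ideal (𝓞 F)) ≠ 0 := nonZeroDivisors.coe_ne_zero J
  have hr0 : (r : 𝓞 F) ≠ 0 := by exact_mod_cast hr.ne_zero
  have hR0 : Ideal.span {(r : 𝓞 F)} ≠ 0 := by
    simpa [Ideal.zero_eq_bot, Ideal.span_singleton_eq_bot] using hr0
  have hJR0 : (J : Ideal (𝓞 F)) * Ideal.span {(r : 𝓞 F)} ≠ 0 := mul_ne_zero hJ0 hR0
  obtain ⟨a, ha⟩ := IsDedekindDomain.exists_sup_span_eq
    (Ideal.mul_le_left : (J : Ideal (𝓞 F)) * Ideal.span {(r : 𝓞 F)} ≤ J) hJR0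
  have haJ : Ideal.span {a} ≤ (J : Ideal (𝓞 F)) := by
    rw [← ha]
    exact le_sup_right
  obtain ⟨I', hI'⟩ := Ideal.dvd_iff_le.mpr haJ
  -- `(r) + I' = 1`
  have hsup : Ideal.span {(r : 𝓞 F)} ⊔ I' = ⊤ := by
    have h1 : (J : Ideal (𝓞 F)) * (Ideal.span {(r : 𝓞 F)} ⊔ I') = (J : Ideal (𝓞 F)) * ⊤ := by
      rw [Ideal.mul_sup, ← hI', ha, Ideal.mul_top]
    exact mul_left_cancel₀ hJ0 h1
  have hI'0 : I' ≠ ⊥ := by
    rintro rfl
    rw [sup_bot_eq] at hsup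
    exact DNUH_span_ne_top hr hsup
  have hI'mem : I' ∈ (Ideal (𝓞 F))⁰ := mem_nonZeroDivisors_of_ne_zero hI'0
  refine ⟨⟨I', hI'mem⟩, DNUH_coprime_of_sup_eq_top hr I' hI'0 hsup, ?_⟩
  -- the class of `I'`
  have ha0 : Ideal.span {a} ≠ (0 : Ideal (𝓞 F)) := by
    rw [hI']
    exact mul_ne_zero hJ0 hI'0
  have hamem : Ideal.span {a} ∈ (Ideal (𝓞 F))⁰ := mem_nonZeroDivisors_of_ne_zero ha0
  have hprod : ClassGroup.mk0 (J * ⟨I', hI'mem⟩) = 1 := by
    have e : J * ⟨I', hI'mem⟩ = ⟨Ideal.span {a}, hamem⟩ := Subtype.ext hI'.symm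
    rw [e, ClassGroup.mk0_eq_one_iff]
    exact ⟨⟨a, rfl⟩⟩
  rw [map_mul, hJ] at hprod
  exact (inv_mul_eq_one.mp hprod).symm

end

/-- **(D-NU)**, the hom version of the `ν`-lemma. -/
theorem ifaceDNu : IfaceDNu := by
  intro F _ _ r _ P hr hprin
  classical
  haveI : Fact r.Prime := ⟨hr⟩
  -- the hypothesis in the shape of `DNU_lemma`
  have hprin' : ∀ β : 𝓞 F, (Ideal.absNorm (Ideal.span {β})).Coprime r →
      ∃ u ∈ P, ((u : (ZMod r)ˣ) : ZMod r) = (Ideal.absNorm (Ideal.span {β}) : ZMod r) :=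
    fun β hβ => ⟨ZMod.unitOfCoprime _ hβ, hprin β _ (ZMod.coe_unitOfCoprime _ hβ),
      ZMod.coe_unitOfCoprime _ hβ⟩
  -- well-definedness
  have hwd : ∀ (I J : (Ideal (𝓞 F))⁰) (u v : (ZMod r)ˣ),
      (u : ZMod r) = (Ideal.absNorm (I : Ideal (𝓞 F)) : ZMod r) →
      (v : ZMod r) = (Ideal.absNorm (J : Ideal (𝓞 F)) : ZMod r) →
      ClassGroup.mk0 I = ClassGroup.mk0 J →
      (u : (ZMod r)ˣ ⧸ P) = (v : (ZMod r)ˣ ⧸ P) := by
    intro I J u v hu hv hIJ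
    have hIcop : (Ideal.absNorm (I : Ideal (𝓞 F))).Coprime r :=
      (ZMod.isUnit_iff_coprime _ r).mp (hu ▸ u.isUnit)
    have hJcop : (Ideal.absNorm (J : Ideal (𝓞 F))).Coprime r :=
      (ZMod.isUnit_iff_coprime _ r).mp (hv ▸ v.isUnit)
    have hmem : ClassGroup.mk0 I * (ClassGroup.mk0 J)⁻¹ ∈
        Subgroup.closure (primeClass '' (∅ : Set (HeightOneSpectrum (𝓞 F)))) := by
      rw [hIJ, mul_inv_cancel]
      exact Subgroup.one_mem _
    obtain ⟨w, hw, hwe⟩ := Fermat.Agent.S14.DNU_lemma r P ∅ (fun 𝔓 h𝔓 => absurd h𝔓 (by simp))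
      hprin' I J hIcop hJcop hmem
    rw [← hu, ← hv] at hwe
    have huv : u = w * v := Units.ext (by rw [hwe]; rfl)
    rw [huv, QuotientGroup.mk_mul]
    have : (w : (ZMod r)ˣ ⧸ P) = 1 := (QuotientGroup.eq_one_iff w).mpr hw
    rw [this, one_mul]
  -- the representatives
  choose rep hrepcop hrepclass using fun c : ClassGroup (𝓞 F) => DNUH_exists_rep hr c
  let f : ClassGroup (𝓞 F) → (ZMod r)ˣ ⧸ P := fun c =>
    ((ZMod.unitOfCoprime _ (hrepcop c) : (ZMod r)ˣ) : (ZMod r)ˣ ⧸ P)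
  have hf : ∀ (I : (Ideal (𝓞 F))⁰) (u : (ZMod r)ˣ),
      (u : ZMod r) = (Ideal.absNorm (I : Ideal (𝓞 F)) : ZMod r) →
      f (ClassGroup.mk0 I) = (u : (ZMod r)ˣ ⧸ P) := by
    intro I u hu
    exact hwd (rep (ClassGroup.mk0 I)) I _ u (ZMod.coe_unitOfCoprime _ _) hu
      (hrepclass (ClassGroup.mk0 I))
  have hmul : ∀ c c' : ClassGroup (𝓞 F), f (c * c') = f c * f c' := by
    intro c c'
    have h1 : c * c' = ClassGroup.mk0 (rep c * rep c') := by
      rw [map_mul, hrepclass, hrepclass]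
    rw [h1]
    rw [hf (rep c * rep c') (ZMod.unitOfCoprime _ (hrepcop c) * ZMod.unitOfCoprime _ (hrepcop c'))
      (by
        rw [Units.val_mul, ZMod.coe_unitOfCoprime, ZMod.coe_unitOfCoprime, Submonoid.coe_mul,
          map_mul, Nat.cast_mul])]
    rw [QuotientGroup.mk_mul]
  exact ⟨MonoidHom.mk' f hmul, hf⟩

end Fermat.Agent.S14.D
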