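import Mathlib
import Fermat.Agent.S14.D.Iface
import Fermat.Agent.S14.D.Basic
import Fermat.Agent.S14.D.Frob
import Fermat.Agent.S14.D.FrobFinal

/-!
# P-CFT (S14), part (D): primes which split completely (interfaces `IfaceDSplit`, `IfaceDNuOne`)

General statement (`DSplit_exists_frob_trivial`): for number fields `F ⊆ M ⊆ Mt` with `M / F` and
`Mt / F` Galois and a prime `𝔓` of `F` which splits completely in `M`, there are a prime `ℜ` of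
`Mt` above `𝔓` and a Frobenius `ψ ∈ Gal(Mt/F)` at `ℜ` which fixes `M` pointwise.

* `Fermat.Agent.S14.D.ifaceDSplit : IfaceDSplit`
* `Fermat.Agent.S14.D.ifaceDNuOne : IfaceDNuOne`
-/

set_option autoImplicit false
set_option linter.unusedSectionVars false

open NumberField IsDedekindDomain
open scoped nonZeroDivisors Pointwise

namespace Fermat.Agent.S14.D

section General

variable (F M Mt : Type*) [Field F] [NumberField F] [Field M] [NumberField M]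
  [Field Mt] [NumberField Mt] [Algebra F M] [Algebra M Mt] [Algebra F Mt] [IsScalarTower F M Mt]
  [IsGalois F M] [IsGalois F Mt]

/-- In the residue field of a nonzero prime `𝔐`, `x ^ N(𝔐) = x`. -/
theorem DSplit_pow_absNorm_sub_mem (𝔐 : Ideal (𝓞 M)) [𝔐.IsPrime] (h𝔐 : 𝔐 ≠ ⊥) (x : 𝓞 M) :
    x - x ^ Ideal.absNorm 𝔐 ∈ 𝔐 := by
  have h𝔐max : 𝔐.IsMaximal := Ring.DimensionLEOne.maximalOfPrime h𝔐 inferInstance
  let _ : Field (𝓞 M ⧸ 𝔐) := Ideal.Quotient.field 𝔐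
  have hfin : Finite (𝓞 M ⧸ 𝔐) := Ideal.finiteQuotientOfFreeOfNeBot 𝔐 h𝔐
  have := Fintype.ofFinite (𝓞 M ⧸ 𝔐)
  rw [← Ideal.Quotient.eq, map_pow, Ideal.absNorm_apply, Submodule.cardQuot_apply,
    Nat.card_eq_fintype_card, FiniteField.pow_card]

/-- A prime of `M` above a prime `𝔓` of `F` which splits completely has the same norm. -/
theorem DSplit_absNorm_eq (𝔓 : HeightOneSpectrum (𝓞 F))
    (hsplit : Cheb.SplitsCompletely F M 𝔓) (𝔐 : Ideal (𝓞 M)) [𝔐.IsPrime]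
    (h𝔐 : 𝔐.under (𝓞 F) = 𝔓.asIdeal) : Ideal.absNorm 𝔐 = Ideal.absNorm 𝔓.asIdeal := by
  have : 𝔐.LiesOver 𝔓.asIdeal := ⟨h𝔐.symm⟩
  have := 𝔓.isPrime
  have h1 := Ideal.absNorm_pow_inertiaDeg 𝔓.asIdeal 𝔐
  rw [← Ideal.inertiaDegIn_eq_inertiaDeg 𝔓.asIdeal 𝔐 Gal(M/F), hsplit.2, pow_one] at h1
  exact h1.symm

/-- **Split primes have a Frobenius fixing `M`.** -/
theorem DSplit_exists_frob_trivial (𝔓 : HeightOneSpectrum (𝓞 F))
    (hsplit : Cheb.SplitsCompletely F M 𝔓) :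
    ∃ (ψ : Gal(Mt/F)) (ℜ : Ideal (𝓞 Mt)), ℜ.IsPrime ∧ ℜ.under (𝓞 F) = 𝔓.asIdeal ∧
      (∀ x : 𝓞 Mt, ψ • x - x ^ Ideal.absNorm 𝔓.asIdeal ∈ ℜ) ∧
      (∀ y : M, ψ (algebraMap M Mt y) = algebraMap M Mt y) ∧
      ∀ (m : ℕ) (ζ : Mt), ζ ^ m = 1 → Nat.Coprime m (Ideal.absNorm 𝔓.asIdeal) →
        ψ ζ = ζ ^ Ideal.absNorm 𝔓.asIdeal := by
  have := 𝔓.isPrime
  have h𝔓max : 𝔓.asIdeal.IsMaximal := 𝔓.isMaximal
  obtain ⟨𝔐, h𝔐max, h𝔐over⟩ :=
    Ideal.exists_maximal_ideal_liesOver_of_isIntegral (S := 𝓞 M) 𝔓.asIdeal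
  have h𝔐p : 𝔐.IsPrime := h𝔐max.isPrime
  have h𝔐F : 𝔐.under (𝓞 F) = 𝔓.asIdeal := h𝔐over.over.symm
  have h𝔐ne : 𝔐 ≠ ⊥ := by
    rintro rfl
    apply 𝔓.ne_bot
    rw [← h𝔐F]
    exact Ideal.under_bot (𝓞 F) (𝓞 M)
  have hN : Ideal.absNorm 𝔐 = Ideal.absNorm 𝔓.asIdeal := DSplit_absNorm_eq F M 𝔓 hsplit 𝔐 h𝔐F
  have hone : ∀ x : 𝓞 M, (1 : Gal(M/F)) • x - x ^ Ideal.absNorm 𝔓.asIdeal ∈ 𝔐 := by
    intro x
    rw [one_smul, ← hN]
    exact DSplit_pow_absNorm_sub_mem M 𝔐 h𝔐ne x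
  obtain ⟨ψ, ℜ, hℜp, -, hℜF, hψ, hres, hroot⟩ :=
    DFrob.exists_frob_lift_above F M Mt 𝔓 hsplit.1 𝔐 h𝔐F 1 hone
  refine ⟨ψ, ℜ, hℜp, hℜF, hψ, fun y => ?_, hroot⟩
  have h := AlgEquiv.restrictNormal_commutes ψ M y
  have h1 : ψ.restrictNormal M = 1 := hres
  rw [h1] at h
  exact h.symm

end General

/-- **(D-SPLIT 1)** -/
theorem ifaceDSplit : IfaceDSplit := by
  intro p K L _ _ _ _ _ _ r _ Mt _ _ _ _ _ _ _ s a hp hdeg 𝔓 hsplit
  have hnorm : (GamMF p K L r Mt s a).Normal := by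
    unfold GamMF GamM
    infer_instance
  have hMM : MM p K L r Mt s a = IntermediateField.fixedField (GamMF p K L r Mt s a) := rfl
  have hgal : IsGalois (FF p K L r Mt s a) (MM p K L r Mt s a) := by
    rw [hMM]; infer_instance
  obtain ⟨ψ, ℜ, hℜp, hℜF, hψ, hfix, -⟩ :=
    DSplit_exists_frob_trivial (FF p K L r Mt s a) (MM p K L r Mt s a) Mt 𝔓 hsplit
  have hmem : ψ ∈ GamMF p K L r Mt s a := by
    have h1 : ψ ∈ (MM p K L r Mt s a).fixingSubgroup := by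
      rw [IntermediateField.mem_fixingSubgroup_iff]
      intro x hx
      exact hfix ⟨x, hx⟩
    rw [hMM, IntermediateField.fixingSubgroup_fixedField] at h1
    exact h1
  refine ⟨ψ.restrictScalars K, ℜ, hℜp, hℜF, (mem_GamMF_iff p K L r Mt s a ψ).1 hmem, fun x => ?_⟩
  exact hψ x

/-- A rational prime `r` which does not lie in the prime `𝔓` is prime to `N(𝔓)`. -/
theorem DSplit_coprime_absNorm (F : Type*) [Field F] [NumberField F] (𝔓 : HeightOneSpectrum (𝓞 F))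
    (r : ℕ) (hr : r.Prime) (h : (r : 𝓞 F) ∉ 𝔓.asIdeal) :
    Nat.Coprime r (Ideal.absNorm 𝔓.asIdeal) := by
  rw [Nat.Prime.coprime_iff_not_dvd hr]
  intro hdvd
  apply h
  have := 𝔓.isPrime
  have h𝔓max : 𝔓.asIdeal.IsMaximal := 𝔓.isMaximal
  let _ : Field (𝓞 F ⧸ 𝔓.asIdeal) := Ideal.Quotient.field 𝔓.asIdeal
  have hfin : Finite (𝓞 F ⧸ 𝔓.asIdeal) := Ideal.finiteQuotientOfFreeOfNeBot 𝔓.asIdeal 𝔓.ne_bot
  have := Fintype.ofFinite (𝓞 F ⧸ 𝔓.asIdeal)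
  obtain ⟨ℓ, hchar⟩ := CharP.exists (𝓞 F ⧸ 𝔓.asIdeal)
  obtain ⟨n, hℓ, hcard⟩ := FiniteField.card (𝓞 F ⧸ 𝔓.asIdeal) ℓ
  rw [Ideal.absNorm_apply, Submodule.cardQuot_apply, Nat.card_eq_fintype_card, hcard] at hdvd
  have h1 : r ∣ ℓ := hr.dvd_of_dvd_pow hdvd
  have h2 : r = ℓ := (Nat.prime_dvd_prime_iff_eq hr hℓ).mp h1
  have h3 : ((r : ℕ) : 𝓞 F ⧸ 𝔓.asIdeal) = 0 := by
    rw [h2]; exact CharP.cast_eq_zero _ ℓ
  rw [← map_natCast (Ideal.Quotient.mk 𝔓.asIdeal), Ideal.Quotient.eq_zero_iff_mem] at h3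
  exact h3

/-- **(D-SPLIT 2 = ν1)** -/
theorem ifaceDNuOne : IfaceDNuOne := by
  intro p K L _ _ _ _ _ _ r _ Mt _ _ _ _ _ _ _ s a hp hr hdeg 𝔓 hr𝔓 hsplit u hu
  have hnorm : (GamMF p K L r Mt s a).Normal := by
    unfold GamMF GamM
    infer_instance
  have hMM : MM p K L r Mt s a = IntermediateField.fixedField (GamMF p K L r Mt s a) := rfl
  have hgal : IsGalois (FF p K L r Mt s a) (MM p K L r Mt s a) := by
    rw [hMM]; infer_instance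
  obtain ⟨ψ, ℜ, hℜp, hℜF, hψ, hfix, hroot⟩ :=
    DSplit_exists_frob_trivial (FF p K L r Mt s a) (MM p K L r Mt s a) Mt 𝔓 hsplit
  have hmem : ψ ∈ GamMF p K L r Mt s a := by
    have h1 : ψ ∈ (MM p K L r Mt s a).fixingSubgroup := by
      rw [IntermediateField.mem_fixingSubgroup_iff]
      intro x hx
      exact hfix ⟨x, hx⟩
    rw [hMM, IntermediateField.fixingSubgroup_fixedField] at h1
    exact h1
  have hφ : (ψ.restrictScalars K : Gal(Mt/K)) ∈ GamM p K L r Mt :=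
    (mem_GamMF_iff p K L r Mt s a ψ).1 hmem
  have hkapPr := ((mem_GamM_iff p K L r Mt _).1 hφ).2
  have hz : (ψ.restrictScalars K : Gal(Mt/K)) (zet L r Mt) =
      zet L r Mt ^ Ideal.absNorm 𝔓.asIdeal :=
    hroot r (zet L r Mt) (zet_spec L r Mt).pow_eq_one
      (DSplit_coprime_absNorm _ 𝔓 r hr hr𝔓)
  have hk := DFrob_kap_eq K L r Mt (ψ.restrictScalars K) _ hz
  have hu' : u = kap K L r Mt (ψ.restrictScalars K) := by
    apply Units.ext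
    rw [hu, hk]
  rw [hu']
  exact hkapPr

end Fermat.Agent.S14.D
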