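import Mathlib
import Fermat.Agent.S14.D.Iface
import Fermat.Agent.S14.D.Basic

/-!
# Pillar P-CFT (S14), part (D): the Artin crossing, assembled from the internal interfaces
(homomorphism version of the invariant `ν`).
-/

set_option autoImplicit false

open NumberField IsDedekindDomain
open scoped nonZeroDivisors Pointwise

namespace Fermat.Agent.S14.D

/-- A prime number different from the prime `r` is a unit modulo `r`. -/
theorem XH_exists_unit (r q : ℕ) (hr : r.Prime) (hq : q.Prime) (hqr : q ≠ r) :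
    ∃ u : (ZMod r)ˣ, (u : ZMod r) = (q : ZMod r) := by
  have hcop : Nat.Coprime q r := (Nat.coprime_primes hq hr).2 hqr
  exact ⟨ZMod.unitOfCoprime q hcop, ZMod.coe_unitOfCoprime q hcop⟩

/-- Pure group theory: if `S' ≤ ker ν`, the index of `S'` is at most the prime `p`, the target is
killed by `p` and `ν` is nontrivial, then `S' = ker ν`. -/
theorem XH_ker_le {C Q : Type*} [CommGroup C] [Finite C] [Group Q] (p : ℕ) (hp : p.Prime)
    (S' : Subgroup C) (ν : C →* Q) (hS : S' ≤ ν.ker) (hidx : S'.index ≤ p)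
    (hQ : ∀ c : Q, c ^ p = 1) (a : C) (ha : ν a ≠ 1) : ν.ker ≤ S' := by
  classical
  -- the order of `ν a` is `p`
  have hord : orderOf (ν a) = p := by
    have hdvd : orderOf (ν a) ∣ p := orderOf_dvd_of_pow_eq_one (hQ _)
    rcases (Nat.dvd_prime hp).1 hdvd with h | h
    · exact absurd (orderOf_eq_one_iff.1 h) ha
    · exact h
  -- the index of the kernel is at least `p`
  have hker : p ≤ ν.ker.index := by
    rw [Subgroup.index_ker]
    have hfin : Finite ν.range := Finite.of_surjective ν.rangeRestrict ν.rangeRestrict_surjective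
    have hmem : ν a ∈ ν.range := ⟨a, rfl⟩
    have h1 : orderOf (⟨ν a, hmem⟩ : ν.range) = p := by
      rw [← hord]
      exact (Subgroup.orderOf_mk (ν a) hmem)
    rw [← h1]
    exact orderOf_le_card
  have hmul := Subgroup.relIndex_mul_index hS
  have hne : S'.index ≠ 0 := Subgroup.index_ne_zero_of_finite
  have hrel : S'.relIndex ν.ker = 1 := by
    have hpos : 0 < S'.relIndex ν.ker := by
      rcases Nat.eq_zero_or_pos (S'.relIndex ν.ker) with h | h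
      · rw [h, zero_mul] at hmul
        exact absurd hmul.symm hne
      · exact h
    by_contra hcon
    have h2 : 2 ≤ S'.relIndex ν.ker := by omega
    have : 2 * p ≤ S'.index := by
      rw [← hmul]
      exact Nat.mul_le_mul h2 hker
    have hp0 := hp.pos
    omega
  exact Subgroup.relIndex_eq_one.1 hrel


/-- The set of primes of a number field containing a given nonzero natural number is finite. -/
theorem XH_finite (F : Type) [Field F] [NumberField F] (r : ℕ) (hr : r ≠ 0) :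
    {𝔓 : HeightOneSpectrum (𝓞 F) | (r : 𝓞 F) ∈ 𝔓.asIdeal}.Finite := by
  have hne : Ideal.span {(r : 𝓞 F)} ≠ ⊥ := by
    rw [Ne, Ideal.span_singleton_eq_bot]
    exact_mod_cast hr
  have h := Ideal.finite_factors hne
  refine h.subset ?_
  intro 𝔓 h𝔓
  simp only [Set.mem_setOf_eq] at h𝔓 ⊢
  rw [Ideal.dvd_iff_le, Ideal.span_singleton_le_iff_mem]
  exact h𝔓

/-- The crossing, from the internal interfaces. -/
theorem ifaceD_of_ifaces (hGal : IfaceDGalois) (hDeg : IfaceDDeg) (hFrob : IfaceDFrob)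
    (hFix : IfaceDFix) (hNuOne : IfaceDNuOne) (hNorm : IfaceDNorm) (hNu : IfaceDNu)
    (hNH : IfaceDNormHom) (hRNP : IfaceDRelNormPrime) (hDown : IfaceDDown)
    (hA : IfaceA) (hAux : IfaceAux) : IfaceD := by
  intro p hp hp3 K L _ _ _ _ _ _ _ _ hfin hunr _ 𝔮a 𝔮b qa qb hqa hqb hab hqap hqbp hNa hNb s k
    hs hFa hFb
  classical
  -- the auxiliary prime
  obtain ⟨r, hr, hrT, hrp, hna, hyb⟩ :=
    hAux p hp hp3 qa qb ((p - 1) * k) hqa hqb hab hqap hqbp {p, qa, qb}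
  have : NeZero r := ⟨hr.ne_zero⟩
  have hrF : Fact r.Prime := ⟨hr⟩
  have hrqa : qa ≠ r := by
    rintro rfl
    exact hrT (by simp)
  have hrqb : qb ≠ r := by
    rintro rfl
    exact hrT (by simp)
  -- the field `Mt = L(ζ_r)`
  let Mt : Type := CyclotomicField r L
  have hGalMt : IsGalois K Mt := hGal K L r Mt
  -- the units `qa, qb mod r`
  obtain ⟨ua, hua⟩ := XH_exists_unit r qa hr hqa hrqa
  obtain ⟨ub, hub⟩ := XH_exists_unit r qb hr hqb hrqb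
  have hua_not : ua ∉ Pr p r := by
    intro h
    obtain ⟨y, hy⟩ := (mem_Pr_iff p r ua).1 h
    apply hna
    refine ⟨(y : ZMod r), ?_⟩
    rw [← hua, ← hy, Units.val_pow_eq_pow_val]
  have hub_mem : ub * (ua ^ (k : ℤ))⁻¹ ∈ Pr p r := by
    obtain ⟨y, hy⟩ := hyb
    have hy0 : y ≠ 0 := by
      rintro rfl
      rw [zero_pow hp.ne_zero, ← hub, ← hua, ← Units.val_pow_eq_pow_val, ← Units.val_mul] at hy
      exact (Units.ne_zero _) hy.symm
    let yu : (ZMod r)ˣ := Units.mk0 y hy0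
    have hyu : yu ^ p = ub * ua ^ ((p - 1) * k) := by
      apply Units.ext
      rw [Units.val_pow_eq_pow_val, Units.val_mul, Units.val_pow_eq_pow_val, hub, hua]
      exact hy
    rw [mem_Pr_iff]
    refine ⟨yu * (ua ^ k)⁻¹, ?_⟩
    rw [mul_pow, hyu, zpow_natCast, inv_pow, ← pow_mul]
    have hpk : k * p = (p - 1) * k + k := by
      have := hp.pos
      calc k * p = ((p - 1) + 1) * k := by rw [Nat.sub_add_cancel this, mul_comm]
        _ = (p - 1) * k + k := by ring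
    rw [hpk, pow_add, mul_inv, mul_assoc, ← mul_assoc (ua ^ ((p - 1) * k)), mul_inv_cancel, one_mul]
  -- Frobenius lifts
  obtain ⟨φa, ℜa, hℜa, hℜaK, hφa, hresa, hkapa⟩ :=
    hFrob K L r Mt hr hunr 𝔮a qa s hqa hrqa hNa hFa
  obtain ⟨φb, ℜb, hℜb, hℜbK, hφb, hresb, hkapb⟩ :=
    hFrob K L r Mt hr hunr 𝔮b qb (s ^ k) hqb hrqb hNb hFb
  have hkapa' : kap K L r Mt φa = ua := Units.ext (hkapa.trans hua.symm)
  have hkapb' : kap K L r Mt φb = ub := Units.ext (hkapb.trans hub.symm)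
  have hlift : ∃ γ : Gal(Mt/K), res K L Mt γ = s ∧ kap K L r Mt γ = ua := ⟨φa, hresa, hkapa'⟩
  have hφaF : φa ∈ GamF p K L r Mt s ua := mem_GamF_of_lift p K L r Mt s ua φa hresa hkapa'
  have hφbF : φb ∈ GamF p K L r Mt s ua := by
    rw [mem_GamF_iff]
    exact ⟨(k : ℤ), by rw [hresb, zpow_natCast], by rw [hkapb']; exact hub_mem⟩
  -- the fields `F ⊆ M`
  obtain ⟨hgalFM, hdegFM⟩ := hDeg p K L r Mt s ua hp hfin hs hlift
  -- Frobenius elements in `GamF` fix `F`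
  have hfixF : ∀ φ : Gal(Mt/K), φ ∈ GamF p K L r Mt s ua →
      ∀ x : FF p K L r Mt s ua, φ (algebraMap (FF p K L r Mt s ua) Mt x) =
        algebraMap (FF p K L r Mt s ua) Mt x := by
    intro φ hφ x
    exact (mem_FF_iff p K L r Mt s ua (x : Mt)).1 x.2 φ hφ
  -- `q ∈ ℜ` for a prime `ℜ` above `𝔮` of norm `q`
  have hqmem : ∀ (𝔮 : HeightOneSpectrum (𝓞 K)) (q : ℕ) (ℜ : Ideal (𝓞 Mt)),
      Ideal.absNorm 𝔮.asIdeal = q → ℜ.under (𝓞 K) = 𝔮.asIdeal → (q : 𝓞 Mt) ∈ ℜ := by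
    intro 𝔮 q ℜ hN hℜ
    have h1 : (q : 𝓞 K) ∈ 𝔮.asIdeal := by
      rw [← hN]
      exact Ideal.absNorm_mem 𝔮.asIdeal
    rw [← hℜ, Ideal.under_def, Ideal.mem_comap] at h1
    simpa using h1
  -- the primes of `F` below `ℜa`, `ℜb`
  have hprime : ∀ (𝔮 : HeightOneSpectrum (𝓞 K)) (q : ℕ) (φ : Gal(Mt/K)) (ℜ : Ideal (𝓞 Mt)),
      q.Prime → Ideal.absNorm 𝔮.asIdeal = q → ℜ.IsPrime → ℜ.under (𝓞 K) = 𝔮.asIdeal →
      (∀ x : 𝓞 Mt, φ • x - x ^ q ∈ ℜ) → φ ∈ GamF p K L r Mt s ua →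
      ∃ 𝔔 : HeightOneSpectrum (𝓞 (FF p K L r Mt s ua)), Ideal.absNorm 𝔔.asIdeal = q ∧
        𝔔.asIdeal.under (𝓞 K) = 𝔮.asIdeal := by
    intro 𝔮 q φ ℜ hq hN hℜp hℜK hφ hφF
    have hnorm := hFix K (FF p K L r Mt s ua) Mt φ ℜ q hq hℜp (hqmem 𝔮 q ℜ hN hℜK) hφ
      (hfixF φ hφF)
    have hne : ℜ.under (𝓞 (FF p K L r Mt s ua)) ≠ ⊥ := by
      intro h0
      rw [h0, Ideal.absNorm_bot] at hnorm
      exact hq.ne_zero hnorm.symm
    refine ⟨⟨ℜ.under (𝓞 (FF p K L r Mt s ua)), inferInstance, hne⟩, hnorm, ?_⟩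
    show (ℜ.under (𝓞 (FF p K L r Mt s ua))).under (𝓞 K) = 𝔮.asIdeal
    rw [Ideal.under_under, hℜK]
  obtain ⟨𝔔a, h𝔔aN, h𝔔aK⟩ := hprime 𝔮a qa φa ℜa hqa hNa hℜa hℜaK hφa hφaF
  obtain ⟨𝔔b, h𝔔bN, h𝔔bK⟩ := hprime 𝔮b qb φb ℜb hqb hNb hℜb hℜbK hφb hφbF
  -- the subgroup `S'` generated by the classes of the good primes
  let good : Set (HeightOneSpectrum (𝓞 (FF p K L r Mt s ua))) :=
    {𝔓 | (r : 𝓞 (FF p K L r Mt s ua)) ∉ 𝔓.asIdeal ∧ Cheb.IsDegOne (FF p K L r Mt s ua) 𝔓 ∧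
      Cheb.SplitsCompletely (FF p K L r Mt s ua) (MM p K L r Mt s ua) 𝔓}
  let S' : Subgroup (ClassGroup (𝓞 (FF p K L r Mt s ua))) :=
    Subgroup.closure (primeClass '' good)
  have hidx : S'.index ≤ p := by
    have h := hA (FF p K L r Mt s ua) (MM p K L r Mt s ua) S' _
      (XH_finite (FF p K L r Mt s ua) r hr.ne_zero)
      (fun 𝔓 h1 h2 h3 => Subgroup.subset_closure ⟨𝔓, ⟨h1, h2, h3⟩, rfl⟩)
    rwa [hdegFM] at h
  -- the invariant `ν`
  obtain ⟨ν, hν⟩ := hNu (FF p K L r Mt s ua) r (Pr p r) hr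
    (hNorm p K L r Mt s ua hp hp3 hr hrp hfin hunr hs hlift)
  -- `ν` of a prime of norm prime to `r`
  have hνprime : ∀ (𝔔 : HeightOneSpectrum (𝓞 (FF p K L r Mt s ua))) (u : (ZMod r)ˣ),
      (u : ZMod r) = (Ideal.absNorm 𝔔.asIdeal : ZMod r) →
      ν (primeClass 𝔔) = (u : (ZMod r)ˣ ⧸ Pr p r) := by
    intro 𝔔 u hu
    exact hν ⟨𝔔.asIdeal, mem_nonZeroDivisors_of_ne_zero 𝔔.ne_bot⟩ u hu
  -- `S' ≤ ker ν`
  have hS'ker : S' ≤ ν.ker := by
    rw [Subgroup.closure_le]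
    rintro c ⟨𝔓, ⟨h1, h2, h3⟩, rfl⟩
    rw [SetLike.mem_coe, MonoidHom.mem_ker]
    -- the norm of `𝔓` is a prime different from `r`
    have hℓ : (Ideal.absNorm 𝔓.asIdeal).Prime := h2
    have hℓr : Ideal.absNorm 𝔓.asIdeal ≠ r := by
      intro h
      apply h1
      have := Ideal.absNorm_mem 𝔓.asIdeal
      rwa [h] at this
    obtain ⟨u, hu⟩ := XH_exists_unit r _ hr hℓ hℓr
    rw [hνprime 𝔓 u hu, QuotientGroup.eq_one_iff]
    exact hNuOne p K L r Mt s ua hp hr hfin 𝔓 h1 h3 u hu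
  -- values of `ν` at `𝔔a`, `𝔔b`
  have hνa : ν (primeClass 𝔔a) = (ua : (ZMod r)ˣ ⧸ Pr p r) :=
    hνprime 𝔔a ua (by rw [h𝔔aN, hua])
  have hνb : ν (primeClass 𝔔b) = (ub : (ZMod r)ˣ ⧸ Pr p r) :=
    hνprime 𝔔b ub (by rw [h𝔔bN, hub])
  have hνa_ne : ν (primeClass 𝔔a) ≠ 1 := by
    rw [hνa, Ne, QuotientGroup.eq_one_iff]
    exact hua_not
  -- `ker ν ≤ S'`
  have hkerS' : ν.ker ≤ S' :=
    XH_ker_le p hp S' ν hS'ker hidx (quot_pow_eq_one p r) (primeClass 𝔔a) hνa_ne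
  -- the crossing relation in the class group of `F`
  have hcross : primeClass 𝔔b * (primeClass 𝔔a)⁻¹ ^ k ∈ S' := by
    apply hkerS'
    rw [MonoidHom.mem_ker, map_mul, map_pow, map_inv, hνa, hνb, ← QuotientGroup.mk_inv,
      ← QuotientGroup.mk_pow, ← QuotientGroup.mk_mul, QuotientGroup.eq_one_iff]
    have := hub_mem
    rwa [zpow_natCast, ← inv_pow] at this
  -- push down along the relative norm
  obtain ⟨N, hN⟩ := hNH K (FF p K L r Mt s ua)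
  -- the norm of a prime of `F` of the same absolute norm as the prime below
  have hNprime : ∀ (𝔔 : HeightOneSpectrum (𝓞 (FF p K L r Mt s ua)))
      (𝔮 : HeightOneSpectrum (𝓞 K)), 𝔔.asIdeal.under (𝓞 K) = 𝔮.asIdeal →
      Ideal.absNorm 𝔔.asIdeal = Ideal.absNorm 𝔮.asIdeal → N (primeClass 𝔔) = primeClass 𝔮 := by
    intro 𝔔 𝔮 hK hNeq
    refine hN ⟨𝔔.asIdeal, mem_nonZeroDivisors_of_ne_zero 𝔔.ne_bot⟩
      ⟨𝔮.asIdeal, mem_nonZeroDivisors_of_ne_zero 𝔮.ne_bot⟩ ?_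
    show 𝔮.asIdeal = Ideal.relNorm (𝓞 K) 𝔔.asIdeal
    rw [hRNP K (FF p K L r Mt s ua) 𝔔.asIdeal 𝔔.isPrime 𝔔.ne_bot (by rw [hK, hNeq]), hK]
  have hNa' : N (primeClass 𝔔a) = primeClass 𝔮a := hNprime 𝔔a 𝔮a h𝔔aK (by rw [h𝔔aN, hNa])
  have hNb' : N (primeClass 𝔔b) = primeClass 𝔮b := hNprime 𝔔b 𝔮b h𝔔bK (by rw [h𝔔bN, hNb])
  -- `N` maps `S'` into the norm classes
  have hNS' : S' ≤ (normClassSubgroup K L).comap N := by
    rw [Subgroup.closure_le]
    rintro c ⟨𝔓, ⟨-, h2, h3⟩, rfl⟩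
    rw [SetLike.mem_coe, Subgroup.mem_comap]
    have hne : Ideal.relNorm (𝓞 K) 𝔓.asIdeal ≠ ⊥ := by
      rw [Ne, Ideal.relNorm_eq_bot_iff]
      exact 𝔓.ne_bot
    have h := hN ⟨𝔓.asIdeal, mem_nonZeroDivisors_of_ne_zero 𝔓.ne_bot⟩
      ⟨Ideal.relNorm (𝓞 K) 𝔓.asIdeal, mem_nonZeroDivisors_of_ne_zero hne⟩ rfl
    have h' : N (primeClass 𝔓) = ClassGroup.mk0
        ⟨Ideal.relNorm (𝓞 K) 𝔓.asIdeal, mem_nonZeroDivisors_of_ne_zero hne⟩ := h
    rw [h']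
    exact hDown p K L r Mt s ua hp hfin 𝔓 h2 h3 _ rfl
  have hfinal := hNS' hcross
  rw [Subgroup.mem_comap, map_mul, map_pow, map_inv, hNa', hNb'] at hfinal
  exact hfinal

end Fermat.Agent.S14.D
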