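import Mathlib
import Fermat.Agent.S14.D.CrossHom
import Fermat.Agent.S14.D.GalDeg
import Fermat.Agent.S14.D.FrobFinal
import Fermat.Agent.S14.D.Split
import Fermat.Agent.S14.D.NormGlue
import Fermat.Agent.S14.D.DownOf
import Fermat.Agent.S14.D.H60RelNorm

/-!
# Pillar P-CFT (S14), part (D): the Artin crossing from the landed interfaces

Everything except the homomorphism `ν` (`IfaceDNu`) and the norm homomorphism on class groups
(`IfaceDNormHom`) is discharged here.
-/

set_option autoImplicit false

namespace Fermat.Agent.S14.D

/-- The Artin crossing, assuming only the two general class group statements. -/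
theorem ifaceD_of_nu_normHom (hNu : IfaceDNu) (hNH : IfaceDNormHom) :
    IfaceA → IfaceAux → IfaceD :=
  ifaceD_of_ifaces ifaceDGalois ifaceDDeg ifaceDFrob ifaceDFix ifaceDNuOne ifaceDNorm hNu hNH
    h60_ifaceDRelNormPrime (ifaceDDown_of ifaceDSplit ifaceDFix h60_ifaceDRelNormPrime)

end Fermat.Agent.S14.D
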