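import Mathlib
import Fermat.Agent.S14.D.FinalOf
import Fermat.Agent.S14.D.NuHom
import Fermat.Agent.S14.D.H60NormHom
import Fermat.Agent.S14.D.AuxPrime
import Fermat.Agent.S14.AFinal

/-!
# Pillar P-CFT (S14), part (D): the Artin crossing, unconditional

`XH_ifaceD_of : IfaceA → IfaceAux → IfaceD` and `XH_ifaceD : IfaceD`.
-/

set_option autoImplicit false

namespace Fermat.Agent.S14.D

/-- The Artin crossing from the first inequality and the auxiliary primes. -/
theorem XH_ifaceD_of : IfaceA → IfaceAux → IfaceD :=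
  ifaceD_of_nu_normHom ifaceDNu h60_ifaceDNormHom

/-- The Artin crossing. -/
theorem XH_ifaceD : IfaceD :=
  XH_ifaceD_of ifaceA ifaceAux

end Fermat.Agent.S14.D
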