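import Mathlib
import Fermat.Agent.S14.Iface

/-!
# P-CFT, module D-DOWN (helper81): push-down along the relative norm

* `DDOWN_classNorm K F : ClassGroup (𝓞 F) →* ClassGroup (𝓞 K)`, induced by `Ideal.relNorm`.
* `DDOWN_pow_finrank_mem` : `c ^ [L : K] ∈ normClassSubgroup K L` for every class `c` of `K`.
* `DDOWN_relNorm_eq_under` : the relative norm of a prime of absolute degree one is the prime
  below it.
-/

set_option autoImplicit false

open NumberField IsDedekindDomain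
open scoped nonZeroDivisors

namespace Fermat.Agent.S14

section ClassNorm

variable (K : Type*) [Field K] [NumberField K] (F : Type*) [Field F] [NumberField F]
  [Algebra K F]

/-- The relative norm, as a monoid homomorphism on nonzero ideals. -/
noncomputable def DDOWN_relNorm0 : (Ideal (𝓞 F))⁰ →* (Ideal (𝓞 K))⁰ where
  toFun I := ⟨Ideal.relNorm (𝓞 K) (I : Ideal (𝓞 F)), mem_nonZeroDivisors_of_ne_zero (by
    rw [Ne, Ideal.zero_eq_bot, Ideal.relNorm_eq_bot_iff, ← Ideal.zero_eq_bot]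
    exact nonZeroDivisors.coe_ne_zero I)⟩
  map_one' := by
    ext1
    simp
  map_mul' I J := by
    ext1
    simp

@[simp]
lemma DDOWN_relNorm0_coe (I : (Ideal (𝓞 F))⁰) :
    ((DDOWN_relNorm0 K F I : (Ideal (𝓞 K))⁰) : Ideal (𝓞 K))
      = Ideal.relNorm (𝓞 K) (I : Ideal (𝓞 F)) := rfl

/-- The relative norm respects ideal classes. -/
lemma DDOWN_mk0_relNorm0_eq {I J : (Ideal (𝓞 F))⁰} (h : ClassGroup.mk0 I = ClassGroup.mk0 J) :
    ClassGroup.mk0 (DDOWN_relNorm0 K F I) = ClassGroup.mk0 (DDOWN_relNorm0 K F J) := by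
  rw [ClassGroup.mk0_eq_mk0_iff] at h ⊢
  obtain ⟨x, y, hx, hy, hxy⟩ := h
  refine ⟨Algebra.intNorm (𝓞 K) (𝓞 F) x, Algebra.intNorm (𝓞 K) (𝓞 F) y, ?_, ?_, ?_⟩
  · rwa [Ne, Algebra.intNorm_eq_zero]
  · rwa [Ne, Algebra.intNorm_eq_zero]
  · have := congrArg (Ideal.relNorm (𝓞 K)) hxy
    rw [map_mul, map_mul, Ideal.relNorm_singleton, Ideal.relNorm_singleton] at this
    exact this

/-- The norm map on ideal class groups, as a function. -/
noncomputable def DDOWN_classNormFun (c : ClassGroup (𝓞 F)) : ClassGroup (𝓞 K) :=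
  ClassGroup.mk0 (DDOWN_relNorm0 K F (Classical.choose (ClassGroup.mk0_surjective c)))

lemma DDOWN_classNormFun_mk0 (I : (Ideal (𝓞 F))⁰) :
    DDOWN_classNormFun K F (ClassGroup.mk0 I) = ClassGroup.mk0 (DDOWN_relNorm0 K F I) := by
  unfold DDOWN_classNormFun
  exact DDOWN_mk0_relNorm0_eq K F
    (Classical.choose_spec (ClassGroup.mk0_surjective (ClassGroup.mk0 I)))

/-- The norm map on ideal class groups induced by the relative ideal norm. -/
noncomputable def DDOWN_classNorm : ClassGroup (𝓞 F) →* ClassGroup (𝓞 K) where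
  toFun := DDOWN_classNormFun K F
  map_one' := by
    rw [← map_one (ClassGroup.mk0 (R := 𝓞 F)), DDOWN_classNormFun_mk0, map_one, map_one]
  map_mul' c d := by
    obtain ⟨I, rfl⟩ := ClassGroup.mk0_surjective c
    obtain ⟨J, rfl⟩ := ClassGroup.mk0_surjective d
    rw [← map_mul, DDOWN_classNormFun_mk0, DDOWN_classNormFun_mk0, DDOWN_classNormFun_mk0,
      map_mul, map_mul]

@[simp]
lemma DDOWN_classNorm_mk0 (I : (Ideal (𝓞 F))⁰) :
    DDOWN_classNorm K F (ClassGroup.mk0 I) = ClassGroup.mk0 (DDOWN_relNorm0 K F I) :=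
  DDOWN_classNormFun_mk0 K F I

end ClassNorm


section Powers

variable (K : Type*) [Field K] [NumberField K] (L : Type*) [Field L] [NumberField L]
  [Algebra K L]

/-- The class of the relative norm of a nonzero ideal of `𝓞 L` lies in the norm class
subgroup. -/
lemma DDOWN_mk0_relNorm0_mem (𝔄 : (Ideal (𝓞 L))⁰) :
    ClassGroup.mk0 (DDOWN_relNorm0 K L 𝔄) ∈ normClassSubgroup K L :=
  Subgroup.subset_closure ⟨𝔄, DDOWN_relNorm0 K L 𝔄, rfl, rfl⟩

/-- The norm map on class groups takes values in the norm class subgroup. -/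
lemma DDOWN_classNorm_mem (c : ClassGroup (𝓞 L)) :
    DDOWN_classNorm K L c ∈ normClassSubgroup K L := by
  obtain ⟨𝔄, rfl⟩ := ClassGroup.mk0_surjective c
  rw [DDOWN_classNorm_mk0]
  exact DDOWN_mk0_relNorm0_mem K L 𝔄

omit [NumberField K] [NumberField L] in
/-- The extension of a nonzero ideal is nonzero. -/
lemma DDOWN_map_ne_bot {I : Ideal (𝓞 K)} (hI : I ≠ ⊥) :
    I.map (algebraMap (𝓞 K) (𝓞 L)) ≠ ⊥ := by
  intro h
  rw [Ideal.map_eq_bot_iff_of_injective (FaithfulSMul.algebraMap_injective (𝓞 K) (𝓞 L))] at h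
  exact hI h

/-- The `[L : K]`-th power of every ideal class of `K` is the class of a norm from `L`. -/
theorem DDOWN_pow_finrank_mem (c : ClassGroup (𝓞 K)) :
    c ^ Module.finrank K L ∈ normClassSubgroup K L := by
  obtain ⟨I, rfl⟩ := ClassGroup.mk0_surjective c
  have hI : (I : Ideal (𝓞 K)) ≠ ⊥ := nonZeroDivisors.coe_ne_zero I
  let J : (Ideal (𝓞 L))⁰ := ⟨(I : Ideal (𝓞 K)).map (algebraMap (𝓞 K) (𝓞 L)),
    mem_nonZeroDivisors_of_ne_zero (DDOWN_map_ne_bot K L hI)⟩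
  have h1 : DDOWN_relNorm0 K L J = I ^ Module.finrank K L := by
    ext1
    rw [DDOWN_relNorm0_coe]
    show Ideal.relNorm (𝓞 K) ((I : Ideal (𝓞 K)).map (algebraMap (𝓞 K) (𝓞 L))) = _
    rw [Ideal.relNorm_algebraMap, ← IsFractionRing.finrank_eq (𝓞 K) K (𝓞 L) L]
    simp
  rw [← map_pow, ← h1]
  exact DDOWN_mk0_relNorm0_mem K L J

end Powers

section Primes

variable (K : Type*) [Field K] [NumberField K] (F : Type*) [Field F] [NumberField F]
  [Algebra K F]

/-- The relative norm of a nonzero prime `𝔓` of `F` whose absolute norm equals that of the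
prime `𝔮` of `K` below it is `𝔮`. -/
theorem DDOWN_relNorm_eq_of_absNorm_eq (𝔓 : HeightOneSpectrum (𝓞 F))
    (𝔮 : HeightOneSpectrum (𝓞 K)) (hu : 𝔓.asIdeal.under (𝓞 K) = 𝔮.asIdeal)
    (hN : Ideal.absNorm 𝔓.asIdeal = Ideal.absNorm 𝔮.asIdeal) :
    Ideal.relNorm (𝓞 K) 𝔓.asIdeal = 𝔮.asIdeal := by
  have : 𝔓.asIdeal.IsMaximal := 𝔓.isMaximal
  have : 𝔮.asIdeal.IsMaximal := 𝔮.isMaximal
  have : 𝔓.asIdeal.LiesOver 𝔮.asIdeal := ⟨hu.symm⟩
  have h1 := Ideal.relNorm_eq_pow_of_isMaximal 𝔓.asIdeal 𝔮.asIdeal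
  have h2 : Ideal.absNorm (Ideal.relNorm (𝓞 K) 𝔓.asIdeal) = Ideal.absNorm 𝔓.asIdeal :=
    Ideal.absNorm_relNorm (𝓞 K) (𝓞 F) 𝔓.asIdeal
  rw [h1, map_pow, hN] at h2
  -- `absNorm 𝔮 > 1`
  have h3 : 1 < Ideal.absNorm 𝔮.asIdeal := by
    have h0 : Ideal.absNorm 𝔮.asIdeal ≠ 0 := by
      rw [Ne, Ideal.absNorm_eq_zero_iff]
      exact 𝔮.ne_bot
    have h1' : Ideal.absNorm 𝔮.asIdeal ≠ 1 := by
      rw [Ne, Ideal.absNorm_eq_one_iff]
      exact 𝔮.isPrime.ne_top
    omega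
  have h4 : 𝔓.asIdeal.inertiaDeg (𝓞 K) = 1 := by
    have := Nat.pow_right_injective h3 (h2.trans (pow_one _).symm)
    exact this
  rw [h1, h4, pow_one]

/-- The relative norm of a nonzero prime of `F` of absolute degree one is the prime of `K`
below it. -/
theorem DDOWN_relNorm_eq_under (𝔓 : HeightOneSpectrum (𝓞 F))
    (h : (Ideal.absNorm 𝔓.asIdeal).Prime) :
    Ideal.relNorm (𝓞 K) 𝔓.asIdeal = 𝔓.asIdeal.under (𝓞 K) := by
  have : 𝔓.asIdeal.IsMaximal := 𝔓.isMaximal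
  have : (𝔓.asIdeal.under (𝓞 K)).IsMaximal :=
    Ideal.IsMaximal.under (𝓞 K) 𝔓.asIdeal
  have h1 := Ideal.relNorm_eq_pow_of_isMaximal 𝔓.asIdeal (𝔓.asIdeal.under (𝓞 K))
  have h2 : Ideal.absNorm (Ideal.relNorm (𝓞 K) 𝔓.asIdeal) = Ideal.absNorm 𝔓.asIdeal :=
    Ideal.absNorm_relNorm (𝓞 K) (𝓞 F) 𝔓.asIdeal
  rw [h1, map_pow] at h2
  have h3 := (Nat.Prime.pow_eq_iff h).mp h2
  rw [h1, h3.2, pow_one]

/-- The prime of `K` below a prime of `F` of absolute degree one has the same absolute norm. -/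
theorem DDOWN_absNorm_under (𝔓 : HeightOneSpectrum (𝓞 F))
    (h : (Ideal.absNorm 𝔓.asIdeal).Prime) :
    Ideal.absNorm (𝔓.asIdeal.under (𝓞 K)) = Ideal.absNorm 𝔓.asIdeal := by
  rw [← DDOWN_relNorm_eq_under K F 𝔓 h, Ideal.absNorm_relNorm (𝓞 K) (𝓞 F)]

/-- The norm map on class groups sends the class of a prime `𝔓` of `F` to the class of the
prime `𝔮` of `K` below it, when both have the same absolute norm. -/
theorem DDOWN_classNorm_primeClass (𝔓 : HeightOneSpectrum (𝓞 F))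
    (𝔮 : HeightOneSpectrum (𝓞 K)) (hu : 𝔓.asIdeal.under (𝓞 K) = 𝔮.asIdeal)
    (hN : Ideal.absNorm 𝔓.asIdeal = Ideal.absNorm 𝔮.asIdeal) :
    DDOWN_classNorm K F (primeClass 𝔓) = primeClass 𝔮 := by
  unfold primeClass
  rw [DDOWN_classNorm_mk0]
  congr 1
  ext1
  exact DDOWN_relNorm_eq_of_absNorm_eq K F 𝔓 𝔮 hu hN

end Primes


section Split

variable (K F L M : Type*) [Field K] [NumberField K] [Field F] [NumberField F]
  [Field L] [NumberField L] [Field M] [NumberField M]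
  [Algebra K F] [Algebra K L] [Algebra F M] [Algebra L M] [Algebra K M]
  [IsScalarTower K F M] [IsScalarTower K L M]

/-- Transitivity of the relative norm through the two intermediate fields `F` and `L` of
`M / K`. -/
lemma DDOWN_relNorm_tower (I : Ideal (𝓞 M)) :
    Ideal.relNorm (𝓞 K) (Ideal.relNorm (𝓞 F) I)
      = Ideal.relNorm (𝓞 K) (Ideal.relNorm (𝓞 L) I) := by
  rw [Ideal.relNorm_relNorm (𝓞 K) (𝓞 F) I, Ideal.relNorm_relNorm (𝓞 K) (𝓞 L) I]

/-- The class in `K` of the norm of (the norm to `F` of) a nonzero ideal of `M` is the class of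
a norm from `L`. -/
lemma DDOWN_relNorm_relNorm_mem (I : (Ideal (𝓞 M))⁰) :
    ClassGroup.mk0 (DDOWN_relNorm0 K F (DDOWN_relNorm0 F M I)) ∈ normClassSubgroup K L := by
  have h : DDOWN_relNorm0 K F (DDOWN_relNorm0 F M I)
      = DDOWN_relNorm0 K L (DDOWN_relNorm0 L M I) := by
    ext1
    exact DDOWN_relNorm_tower K F L M (I : Ideal (𝓞 M))
  rw [h]
  exact DDOWN_mk0_relNorm0_mem K L _

/-- A prime of `F` which splits completely in `M` (in the sense of `Cheb.SplitsCompletely`: the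
chosen prime above it has residue degree one) is the relative norm of a prime of `M`. -/
lemma DDOWN_exists_relNorm_eq (𝔓 : HeightOneSpectrum (𝓞 F))
    (hs : Cheb.SplitsCompletely F M 𝔓) :
    ∃ Q : (Ideal (𝓞 M))⁰, (Q : Ideal (𝓞 M)).IsPrime ∧ (Q : Ideal (𝓞 M)).LiesOver 𝔓.asIdeal ∧
      Ideal.relNorm (𝓞 F) (Q : Ideal (𝓞 M)) = 𝔓.asIdeal := by
  have hmax : 𝔓.asIdeal.IsMaximal := 𝔓.isMaximal
  have hdeg := hs.2
  unfold Ideal.inertiaDegIn at hdeg
  split_ifs at hdeg with hex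
  · set Q := hex.choose with hQdef
    have hQp : Q.IsPrime := hex.choose_spec.1
    have hlo : Q.LiesOver 𝔓.asIdeal := hex.choose_spec.2
    have hQ0 : Q ≠ ⊥ := by
      intro h0
      have h1 : 𝔓.asIdeal = Q.under (𝓞 F) := hlo.over
      rw [h0] at h1
      have : 𝔓.asIdeal = ⊥ := by
        rw [h1]
        exact Ideal.comap_bot_of_injective _ (FaithfulSMul.algebraMap_injective (𝓞 F) (𝓞 M))
      exact 𝔓.ne_bot this
    have hQmax : Q.IsMaximal := Ring.DimensionLEOne.maximalOfPrime hQ0 hQp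
    refine ⟨⟨Q, mem_nonZeroDivisors_of_ne_zero hQ0⟩, hQp, hlo, ?_⟩
    have h1 := Ideal.relNorm_eq_pow_of_isMaximal Q 𝔓.asIdeal
    rw [hdeg, pow_one] at h1
    exact h1

/-- **D-DOWN, key step.**  The norm to `K` of the class of a prime of `F` which splits
completely in `M` is a class of norms from `L`. -/
theorem DDOWN_classNorm_primeClass_mem (𝔓 : HeightOneSpectrum (𝓞 F))
    (hs : Cheb.SplitsCompletely F M 𝔓) :
    DDOWN_classNorm K F (primeClass 𝔓) ∈ normClassSubgroup K L := by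
  obtain ⟨Q, -, -, hQ⟩ := DDOWN_exists_relNorm_eq F M 𝔓 hs
  have h : (⟨𝔓.asIdeal, mem_nonZeroDivisors_of_ne_zero 𝔓.ne_bot⟩ : (Ideal (𝓞 F))⁰)
      = DDOWN_relNorm0 F M Q := by
    ext1
    exact hQ.symm
  unfold primeClass
  rw [DDOWN_classNorm_mk0, h]
  exact DDOWN_relNorm_relNorm_mem K F L M Q

/-- **D-DOWN.**  The norm map `Cl(F) → Cl(K)` sends any subgroup generated by classes of primes
of `F` which split completely in `M` into the subgroup of classes of norms from `L`. -/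
theorem DDOWN_map_closure_le (s : Set (HeightOneSpectrum (𝓞 F)))
    (hs : ∀ 𝔓 ∈ s, Cheb.SplitsCompletely F M 𝔓) :
    (Subgroup.closure (primeClass '' s)).map (DDOWN_classNorm K F) ≤ normClassSubgroup K L := by
  rw [Subgroup.map_le_iff_le_comap, Subgroup.closure_le]
  rintro _ ⟨𝔓, h𝔓, rfl⟩
  exact DDOWN_classNorm_primeClass_mem K F L M 𝔓 (hs 𝔓 h𝔓)

end Split


section Final

variable (K F L : Type*) [Field K] [NumberField K] [Field F] [NumberField F]
  [Field L] [NumberField L] [Algebra K F] [Algebra K L]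

/-- The image under the norm map of the subgroup generated by a `[L : K]`-th power lies in the
norm class subgroup of `L / K`. -/
lemma DDOWN_map_zpowers_pow_le (c : ClassGroup (𝓞 F)) :
    (Subgroup.zpowers (c ^ Module.finrank K L)).map (DDOWN_classNorm K F)
      ≤ normClassSubgroup K L := by
  rw [Subgroup.map_le_iff_le_comap, Subgroup.zpowers_le, Subgroup.mem_comap, map_pow]
  exact DDOWN_pow_finrank_mem K L _

/-- If the images of two subgroups lie in the norm class subgroup, so does the image of their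
join. -/
lemma DDOWN_classNorm_mem_of_mem_sup {S' T' : Subgroup (ClassGroup (𝓞 F))}
    (hS' : S'.map (DDOWN_classNorm K F) ≤ normClassSubgroup K L)
    (hT' : T'.map (DDOWN_classNorm K F) ≤ normClassSubgroup K L)
    {x : ClassGroup (𝓞 F)} (hx : x ∈ S' ⊔ T') :
    DDOWN_classNorm K F x ∈ normClassSubgroup K L := by
  have h : (S' ⊔ T').map (DDOWN_classNorm K F) ≤ normClassSubgroup K L := by
    rw [Subgroup.map_sup]
    exact sup_le hS' hT'
  exact h (Subgroup.mem_map_of_mem _ hx)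

/-- **D-DOWN, final form.**  Let `𝔔a, 𝔔b` be primes of `F` over the primes `𝔮a, 𝔮b` of `K`, with
the same absolute norms.  If `[𝔔b] [𝔔a]⁻ᵏ` lies in the join of a subgroup `S'` whose norm image
consists of norms from `L` and of the subgroup generated by `[𝔔a] ^ [L : K]`, then
`[𝔮b] [𝔮a]⁻ᵏ` is a class of norms from `L`. -/
theorem DDOWN_pushdown {S' : Subgroup (ClassGroup (𝓞 F))}
    (hS' : S'.map (DDOWN_classNorm K F) ≤ normClassSubgroup K L)
    (𝔔a 𝔔b : HeightOneSpectrum (𝓞 F)) (𝔮a 𝔮b : HeightOneSpectrum (𝓞 K))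
    (hua : 𝔔a.asIdeal.under (𝓞 K) = 𝔮a.asIdeal)
    (hNa : Ideal.absNorm 𝔔a.asIdeal = Ideal.absNorm 𝔮a.asIdeal)
    (hub : 𝔔b.asIdeal.under (𝓞 K) = 𝔮b.asIdeal)
    (hNb : Ideal.absNorm 𝔔b.asIdeal = Ideal.absNorm 𝔮b.asIdeal) (k : ℕ)
    (h : primeClass 𝔔b * (primeClass 𝔔a)⁻¹ ^ k
      ∈ S' ⊔ Subgroup.zpowers (primeClass 𝔔a ^ Module.finrank K L)) :
    primeClass 𝔮b * (primeClass 𝔮a)⁻¹ ^ k ∈ normClassSubgroup K L := by
  have h1 := DDOWN_classNorm_mem_of_mem_sup K F L hS'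
    (DDOWN_map_zpowers_pow_le K F L (primeClass 𝔔a)) h
  rw [map_mul, map_pow, map_inv, DDOWN_classNorm_primeClass K F 𝔔a 𝔮a hua hNa,
    DDOWN_classNorm_primeClass K F 𝔔b 𝔮b hub hNb] at h1
  exact h1

end Final

end Fermat.Agent.S14
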