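import Mathlib
import Fermat.Agent.S14.D.Iface
import Fermat.Agent.S14.D.Basic
import Fermat.Agent.S14.D.Down

/-!
# P-CFT, module D-DOWN (helper81): the three frozen interfaces

* `ifaceDNormHom : IfaceDNormHom`
* `ifaceDRelNormPrime : IfaceDRelNormPrime`
* `ifaceDDown : IfaceDDown`
-/

set_option autoImplicit false

open NumberField IsDedekindDomain
open scoped nonZeroDivisors

namespace Fermat.Agent.S14.D

/-- (D-DOWN 1) the relative norm induces a homomorphism of class groups. -/
theorem ifaceDNormHom : IfaceDNormHom := by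
  intro K F _ _ _ _ _
  refine ⟨DDOWN_classNorm K F, fun I J hJ => ?_⟩
  rw [DDOWN_classNorm_mk0]
  congr 1
  ext1
  exact hJ.symm

/-- (D-DOWN 2) the relative norm of a prime of residue degree one is the prime below. -/
theorem ifaceDRelNormPrime : IfaceDRelNormPrime := by
  intro K F _ _ _ _ _ 𝔓 hP h0 hN
  have hN0 : Ideal.absNorm 𝔓 ≠ 0 := by
    rw [Ne, Ideal.absNorm_eq_zero_iff]
    exact h0
  have hu0 : 𝔓.under (𝓞 K) ≠ ⊥ := by
    intro h
    rw [h] at hN
    simp at hN
    exact hN0 hN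
  have hup : (𝔓.under (𝓞 K)).IsPrime := Ideal.IsPrime.under (𝓞 K) 𝔓
  exact DDOWN_relNorm_eq_of_absNorm_eq K F ⟨𝔓, hP, h0⟩ ⟨𝔓.under (𝓞 K), hup, hu0⟩ rfl hN

section Down

variable (p : ℕ) (K L : Type) [Field K] [Field L] [Algebra K L]
  [IsGalois K L] (r : ℕ) [NeZero r] (Mt : Type) [Field Mt] [Algebra K Mt]
  [Algebra L Mt] [IsScalarTower K L Mt] [IsCyclotomicExtension {r} L Mt]
  (s : Gal(L/K)) (a : (ZMod r)ˣ)

/-- The image of `L` in `Mt` lies in the field `MM`. -/
theorem DDOWN_algebraMap_mem_MM (x : L) : algebraMap L Mt x ∈ MM p K L r Mt s a := by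
  unfold MM
  rw [IntermediateField.mem_fixedField_iff]
  intro h hh
  rw [mem_GamMF_iff] at hh
  exact GamM_fixes_L p K L r Mt _ hh x

/-- The embedding of `L` into `MM`. -/
noncomputable def DDOWN_toMM : L →+* MM p K L r Mt s a :=
  (algebraMap L Mt).codRestrict (MM p K L r Mt s a) (DDOWN_algebraMap_mem_MM p K L r Mt s a)

theorem DDOWN_toMM_coe (x : L) :
    ((DDOWN_toMM p K L r Mt s a x : MM p K L r Mt s a) : Mt) = algebraMap L Mt x := rfl

end Down

/-- (D-DOWN 3) the relative norm to `K` of a prime of `F` which splits completely in `M` is the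
relative norm of an ideal of `L`; in particular its class is a norm class. -/
theorem ifaceDDown : IfaceDDown := by
  intro p K L _ _ _ _ _ _ r _ Mt _ _ _ _ _ _ _ s a _ _ 𝔓 _ hsplit J hJ
  let algLM : Algebra L (MM p K L r Mt s a) := (DDOWN_toMM p K L r Mt s a).toAlgebra
  have : IsScalarTower K L (MM p K L r Mt s a) := by
    refine IsScalarTower.of_algebraMap_eq (fun x => ?_)
    apply Subtype.ext
    show algebraMap K Mt x = algebraMap L Mt (algebraMap K L x)
    exact IsScalarTower.algebraMap_apply K L Mt x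
  have key := DDOWN_classNorm_primeClass_mem K (FF p K L r Mt s a) L (MM p K L r Mt s a) 𝔓 hsplit
  unfold primeClass at key
  rw [DDOWN_classNorm_mk0] at key
  have hJ' : J = DDOWN_relNorm0 K (FF p K L r Mt s a)
      ⟨𝔓.asIdeal, mem_nonZeroDivisors_of_ne_zero 𝔓.ne_bot⟩ := by
    ext1
    exact hJ
  rw [hJ']
  exact key

end Fermat.Agent.S14.D
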