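import Mathlib
import Fermat.Agent.S14.Iface
import Fermat.Agent.S14.D.NuLemma
import Fermat.Agent.S14.D.NuPrincipal

/-!
# P-CFT, module D-NU: the invariant `ν` (summary file)

`ν(𝔄)` is the class of `N(𝔄) mod r` in `(ZMod r)ˣ` modulo the subgroup `DNU_pthPowers r p` of
`p`-th powers.  This file specialises the abstract `ν`-lemma (`DNU_lemma`) to the subgroup of
`p`-th powers and plugs in `DNU_principal`.
-/

set_option autoImplicit false

open NumberField IsDedekindDomain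
open scoped nonZeroDivisors Pointwise

namespace Fermat.Agent.S14

/-- The subgroup of `p`-th powers in `(ZMod r)ˣ`. -/
def DNU_pthPowers (r p : ℕ) : Subgroup (ZMod r)ˣ :=
  (powMonoidHom p : (ZMod r)ˣ →* (ZMod r)ˣ).range

theorem DNU_mem_pthPowers {r p : ℕ} {u : (ZMod r)ˣ} :
    u ∈ DNU_pthPowers r p ↔ ∃ v : (ZMod r)ˣ, v ^ p = u := by
  simp [DNU_pthPowers, MonoidHom.mem_range]

/-- Being good for the `p`-th powers means: prime to `r` and a `p`-th power modulo `r`. -/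
theorem DNU_good_pthPowers_iff {r p : ℕ} [Fact r.Prime] (hp : p ≠ 0) (n : ℕ) :
    DNU_Good r (DNU_pthPowers r p) n ↔ n.Coprime r ∧ ∃ y : ZMod r, y ^ p = (n : ZMod r) := by
  constructor
  · intro h
    refine ⟨DNU_good_coprime h, ?_⟩
    obtain ⟨u, hu, hun⟩ := h
    obtain ⟨v, rfl⟩ := DNU_mem_pthPowers.mp hu
    exact ⟨(v : ZMod r), by rw [← hun]; simp⟩
  · rintro ⟨hcop, y, hy⟩
    have hunit : IsUnit (n : ZMod r) := (ZMod.isUnit_iff_coprime n r).mpr hcop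
    have hyunit : IsUnit y := by
      rw [← hy] at hunit
      exact (isUnit_pow_iff hp).mp hunit
    refine ⟨hyunit.unit ^ p, DNU_mem_pthPowers.mpr ⟨_, rfl⟩, ?_⟩
    rw [Units.val_pow_eq_pow_val, IsUnit.unit_spec, hy]

/-- An integer congruent to a `p`-th power has absolute value congruent to a `p`-th power,
for odd `p`. -/
theorem DNU_natAbs_pow {r p : ℕ} (hp : Odd p) {N m : ℤ} (h : (r : ℤ) ∣ N - m ^ p) :
    ∃ y : ZMod r, y ^ p = (N.natAbs : ZMod r) := by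
  have hN : (N : ZMod r) = (m : ZMod r) ^ p := by
    have h1 : ((N - m ^ p : ℤ) : ZMod r) = 0 := (ZMod.intCast_zmod_eq_zero_iff_dvd _ _).mpr h
    push_cast at h1
    exact sub_eq_zero.mp h1
  rcases Int.natAbs_eq N with hpos | hneg
  · refine ⟨(m : ZMod r), ?_⟩
    rw [← hN]
    conv_lhs => rw [hpos]
    simp
  · refine ⟨-(m : ZMod r), ?_⟩
    rw [hp.neg_pow, ← hN]
    conv_lhs => rw [hneg]
    simp

section

variable (K F : Type*) [Field K] [NumberField K] [Field F] [NumberField F] [Algebra K F]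

/-- **(ν2)** in the form needed by the `ν`-lemma. -/
theorem DNU_principal_good [IsGalois K F] [IsGalois ℚ K] (r p : ℕ) [Fact r.Prime] (hp : Odd p)
    (hcard : Nat.card Gal(F/K) = p)
    (hin : ∀ 𝔯 : Ideal (𝓞 F), 𝔯.IsPrime → (r : 𝓞 F) ∈ 𝔯 →
      ∀ (h : Gal(F/K)) (x : 𝓞 F), h • x - x ∈ 𝔯)
    (hdeg : ∀ 𝔯 : Ideal (𝓞 F), 𝔯.IsPrime → (r : 𝓞 F) ∈ 𝔯 →
      ∀ x : 𝓞 F, ∃ n : ℤ, x - (n : 𝓞 F) ∈ 𝔯)
    (β : 𝓞 F) (hβ : (Ideal.absNorm (Ideal.span {β})).Coprime r) :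
    DNU_Good r (DNU_pthPowers r p) (Ideal.absNorm (Ideal.span {β})) := by
  have hp0 : p ≠ 0 := by
    rintro rfl
    simp at hp
  rw [DNU_good_pthPowers_iff hp0]
  refine ⟨hβ, ?_⟩
  obtain ⟨m, hm⟩ := DNU_principal K F r p (Fact.out) hcard hin hdeg β
  rw [Ideal.absNorm_span_singleton]
  exact DNU_natAbs_pow hp hm

/-- **D-NU, main statement**: if the primes in `S` have norms which are `p`-th powers modulo
`r`, and `F / K` is totally ramified of degree `p` (odd) with residue degree one over `ℚ` at all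
primes above `r`, then two ideals prime to `r` whose classes agree modulo the subgroup generated
by the classes of the primes in `S` have the same norm modulo `p`-th powers. -/
theorem DNU_main [IsGalois K F] [IsGalois ℚ K] (r p : ℕ) [Fact r.Prime] (hp : Odd p)
    (hcard : Nat.card Gal(F/K) = p)
    (hin : ∀ 𝔯 : Ideal (𝓞 F), 𝔯.IsPrime → (r : 𝓞 F) ∈ 𝔯 →
      ∀ (h : Gal(F/K)) (x : 𝓞 F), h • x - x ∈ 𝔯)
    (hdeg : ∀ 𝔯 : Ideal (𝓞 F), 𝔯.IsPrime → (r : 𝓞 F) ∈ 𝔯 →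
      ∀ x : 𝓞 F, ∃ n : ℤ, x - (n : 𝓞 F) ∈ 𝔯)
    (S : Set (HeightOneSpectrum (𝓞 F)))
    (hS : ∀ 𝔓 ∈ S, DNU_Good r (DNU_pthPowers r p) (Ideal.absNorm 𝔓.asIdeal))
    (𝔄 𝔄' : (Ideal (𝓞 F))⁰)
    (h𝔄 : (Ideal.absNorm (𝔄 : Ideal (𝓞 F))).Coprime r)
    (h𝔄' : (Ideal.absNorm (𝔄' : Ideal (𝓞 F))).Coprime r)
    (h : ClassGroup.mk0 𝔄 * (ClassGroup.mk0 𝔄')⁻¹ ∈ Subgroup.closure (primeClass '' S)) :
    ∃ u ∈ DNU_pthPowers r p, (Ideal.absNorm (𝔄 : Ideal (𝓞 F)) : ZMod r) =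
      ((u : (ZMod r)ˣ) : ZMod r) * (Ideal.absNorm (𝔄' : Ideal (𝓞 F)) : ZMod r) :=
  DNU_lemma r (DNU_pthPowers r p) S hS
    (fun β hβ => DNU_principal_good K F r p hp hcard hin hdeg β hβ) 𝔄 𝔄' h𝔄 h𝔄' h

end

end Fermat.Agent.S14
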