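import Mathlib
import Fermat.Agent.S14.Iface
import Fermat.Agent.S14.D.Defs
import Fermat.Agent.S14.D.Iface
import Fermat.Agent.S14.D.Basic

/-!
# Pillar P-CFT (S14), part (D): preparation lemmas for the assembly (D-CROSS)

* `DPREP_exists_prime` (X1): from a Frobenius `g = s ^ j` of `L / K` at a degree one prime `𝔮` of
  norm `q` with `[q] = [a] ^ j` modulo `p`-th powers, a prime `𝔔` of `F = FF s a` of norm `q` above
  `𝔮`.
* `DPREP_finite` (X2): only finitely many primes contain a nonzero natural number.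
* `DPREP_unit` (X3): a prime `q ≠ r` is a unit modulo `r`.
* `DPREP_mem_Pr` (X4): the conclusion of `IfaceAux` in the form used by the assembly.
-/

set_option autoImplicit false

open NumberField IsDedekindDomain
open scoped nonZeroDivisors Pointwise

namespace Fermat.Agent.S14.D

/-- **(X1)** A prime of `F = FF s a` of absolute norm `q` above the degree one prime `𝔮` of `K`
whose Frobenius in `L / K` is `s ^ j`, when `[q] = [a] ^ j` modulo `p`-th powers. -/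
theorem DPREP_exists_prime (hFrob : IfaceDFrob) (hFix : IfaceDFix) (p : ℕ) (K L : Type)
    [Field K] [NumberField K] [Field L] [NumberField L] [Algebra K L] [IsGalois K L]
    (r : ℕ) [NeZero r] (Mt : Type) [Field Mt] [NumberField Mt] [Algebra K Mt] [Algebra L Mt]
    [IsScalarTower K L Mt] [IsCyclotomicExtension {r} L Mt] [IsGalois K Mt]
    (s : Gal(L/K)) (a : (ZMod r)ˣ) (hr : r.Prime) (hunr : UnramifiedEverywhere K L)
    (𝔮 : HeightOneSpectrum (𝓞 K)) (q : ℕ) (g : Gal(L/K)) (hq : q.Prime) (hqr : q ≠ r)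
    (hN : Ideal.absNorm 𝔮.asIdeal = q) (hg : IsFrobAt K L 𝔮 g) (j : ℤ) (hj : g = s ^ j)
    (u : (ZMod r)ˣ) (hu : (u : ZMod r) = q) (huj : u * (a ^ j)⁻¹ ∈ Pr p r) :
    ∃ 𝔔 : HeightOneSpectrum (𝓞 (FF p K L r Mt s a)),
      Ideal.absNorm 𝔔.asIdeal = q ∧ 𝔔.asIdeal.under (𝓞 K) = 𝔮.asIdeal := by
  obtain ⟨φ, ℜ, hℜ, hℜ𝔮, hcong, hres, hkap⟩ :=
    hFrob K L r Mt hr hunr 𝔮 q g hq hqr hN hg
  have hκ : kap K L r Mt φ = u := Units.ext (by rw [hkap, hu])
  have hφF : φ ∈ GamF p K L r Mt s a :=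
    (mem_GamF_iff p K L r Mt s a φ).2 ⟨j, by rw [hres, hj], by rw [hκ]; exact huj⟩
  have hfix : ∀ x : (FF p K L r Mt s a),
      φ (algebraMap (FF p K L r Mt s a) Mt x) = algebraMap (FF p K L r Mt s a) Mt x :=
    fun x => (mem_FF_iff p K L r Mt s a x).1 x.2 φ hφF
  have hqℜ : (q : 𝓞 Mt) ∈ ℜ := by
    have h1 : ((q : ℕ) : 𝓞 K) ∈ 𝔮.asIdeal := by
      rw [← hN]; exact Ideal.absNorm_mem _
    rw [← hℜ𝔮, Ideal.under_def, Ideal.mem_comap] at h1
    simpa using h1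
  have hnorm := hFix K (FF p K L r Mt s a) Mt φ ℜ q hq hℜ hqℜ hcong hfix
  have h𝔔ne : ℜ.under (𝓞 (FF p K L r Mt s a)) ≠ ⊥ := by
    intro h
    rw [h, Ideal.absNorm_bot] at hnorm
    exact hq.ne_zero hnorm.symm
  refine ⟨⟨ℜ.under (𝓞 (FF p K L r Mt s a)), inferInstance, h𝔔ne⟩, hnorm, ?_⟩
  rw [← hℜ𝔮]
  exact Ideal.under_under (A := 𝓞 K) (B := 𝓞 (FF p K L r Mt s a)) ℜ

/-- **(X2)** Only finitely many primes of a number field contain a given nonzero natural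
number. -/
theorem DPREP_finite (F : Type) [Field F] [NumberField F] (r : ℕ) (hr : r ≠ 0) :
    {𝔓 : HeightOneSpectrum (𝓞 F) | (r : 𝓞 F) ∈ 𝔓.asIdeal}.Finite := by
  have hI : Ideal.span {(r : 𝓞 F)} ≠ 0 := by
    rw [Ne, Ideal.zero_eq_bot, Ideal.span_singleton_eq_bot]
    exact_mod_cast hr
  refine (Ideal.finite_factors hI).subset ?_
  intro 𝔓 h𝔓
  rw [Set.mem_ofPred_eq, Ideal.dvd_iff_le, Ideal.span_singleton_le_iff_mem]
  exact h𝔓

/-- **(X3)** A prime `q ≠ r` is a unit modulo the prime `r`. -/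
theorem DPREP_unit (r q : ℕ) (hr : r.Prime) (hq : q.Prime) (hqr : q ≠ r) :
    ∃ u : (ZMod r)ˣ, (u : ZMod r) = q :=
  ⟨ZMod.unitOfCoprime q ((Nat.coprime_primes hq hr).2 hqr), ZMod.coe_unitOfCoprime _ _⟩

/-- **(X4)** The conclusion of `IfaceAux` (for the exponent `e = (p - 1) * k`) in the form used by
the assembly: `[qb] = [qa] ^ k` modulo `p`-th powers. -/
theorem DPREP_mem_Pr (p r : ℕ) (hp : p ≠ 0) [NeZero r] (k : ℕ) (qa qb : ℕ) (ua ub : (ZMod r)ˣ)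
    (hua : (ua : ZMod r) = qa) (hub : (ub : ZMod r) = qb)
    (h : ∃ y : ZMod r, y ^ p = (qb : ZMod r) * (qa : ZMod r) ^ ((p - 1) * k)) :
    ub * (ua ^ (k : ℤ))⁻¹ ∈ Pr p r := by
  obtain ⟨y, hy⟩ := h
  rw [← hua, ← hub] at hy
  -- `y` is a unit
  have hyu : IsUnit (y ^ p) := by
    rw [hy]
    exact (ub.isUnit).mul ((ua.isUnit).pow _)
  have hyunit : IsUnit y := (isUnit_pow_iff hp).1 hyu
  obtain ⟨y', rfl⟩ := hyunit
  have hy' : y' ^ p = ub * ua ^ ((p - 1) * k) := by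
    apply Units.ext
    push_cast
    exact hy
  rw [mem_Pr_iff]
  refine ⟨y' * (ua ^ k)⁻¹, ?_⟩
  have e : (p - 1) * k + k = k * p := by
    obtain ⟨m, rfl⟩ := Nat.exists_eq_succ_of_ne_zero hp
    rw [Nat.succ_sub_one, Nat.succ_eq_add_one]
    ring
  have e2 : ua ^ ((p - 1) * k) * ua ^ k = ua ^ (k * p) := by rw [← pow_add, e]
  rw [mul_pow, hy', zpow_natCast, inv_pow, ← pow_mul, ← e2, mul_inv_rev, mul_assoc]
  congr 1
  rw [mul_comm (ua ^ k)⁻¹, ← mul_assoc, mul_inv_cancel, one_mul]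

end Fermat.Agent.S14.D
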